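import Fermat.Agent.CFT.SLevTame
import Fermat.Agent.Frob.Minkowski

/-!
# Inertia elements at `q` with prescribed (integral) cyclotomic character
-/

set_option autoImplicit false

open scoped Pointwise

namespace Fermat.Agent.OrdP

local notation "Γℚ" => (AlgebraicClosure ℚ ≃ₐ[ℚ] AlgebraicClosure ℚ)
local notation "Qb" => AlgebraicClosure ℚ

theorem isOpen_eval (x : Qb) (Q : Qb → Prop) : IsOpen {τ : Γℚ | Q (τ x)} := by
  rw [isOpen_iff_mem_nhds]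
  intro τ hτ
  have hfin : FiniteDimensional ℚ (IntermediateField.adjoin ℚ {x}) :=
    IntermediateField.adjoin.finiteDimensional (Algebra.IsIntegral.isIntegral x)
  have h := (IntermediateField.adjoin ℚ {x}).fixingSubgroup_isOpen
  have h2 := h.leftCoset τ
  refine Filter.mem_of_superset (h2.mem_nhds ⟨1, Subgroup.one_mem _, mul_one τ⟩) ?_
  rintro _ ⟨σ, hσ, rfl⟩
  change Q (τ (σ x))
  have h3 := (IntermediateField.mem_fixingSubgroup_iff _ _).1 hσ x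
    (IntermediateField.mem_adjoin_simple_self ℚ x)
  rw [h3]
  exact hτ

theorem isClosed_eval (x : Qb) (Q : Qb → Prop) : IsClosed {τ : Γℚ | Q (τ x)} := by
  rw [← isOpen_compl_iff]
  exact isOpen_eval x (fun y => ¬ Q y)

theorem isClosed_inertia (P : ValuationSubring Qb) :
    IsClosed {τ : Γℚ | τ ∈ P.inertiaSubgroupIn ℚ} := by
  have h : {τ : Γℚ | τ ∈ P.inertiaSubgroupIn ℚ} =
      (⋂ x : Qb, {τ : Γℚ | τ x ∈ P ↔ x ∈ P}) ∩ ⋂ x : P, {τ : Γℚ | τ x - x ∈ P.nonunits} := by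
    ext τ
    rw [Set.mem_ofPred_eq, Frob.mem_inertiaSubgroupIn_iff, Set.mem_inter_iff, Set.mem_iInter,
      Set.mem_iInter]
    refine and_congr ?_ ⟨fun h x => h x x.2, fun h x hx => h ⟨x, hx⟩⟩
    constructor
    · intro h x
      exact Frob.apply_mem_iff h
    · intro h
      refine MulAction.mem_stabilizer_iff.mpr ?_
      ext y
      rw [ValuationSubring.mem_smul_pointwise_iff_exists]
      constructor
      · rintro ⟨s, hs, rfl⟩
        exact (h s).2 hs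
      · intro hy
        refine ⟨τ⁻¹ y, (h _).1 ?_, ?_⟩
        · change (τ * τ⁻¹) y ∈ P
          rw [mul_inv_cancel]
          exact hy
        · change (τ * τ⁻¹) y = y
          rw [mul_inv_cancel]
          rfl
  rw [h]
  exact (isClosed_iInter fun x => isClosed_eval x (fun y => y ∈ P ↔ x ∈ P)).inter
    (isClosed_iInter fun x => isClosed_eval (x : Qb) (fun y => y - x ∈ P.nonunits))

theorem exists_gal_pow {n : ℕ} (hn : 0 < n) {a : ℕ} (ha : a.Coprime n) :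
    ∃ σ : Γℚ, ∀ z : Qb, z ^ n = 1 → σ z = z ^ a := by
  have : NeZero ((n : ℕ) : Qb) := ⟨Nat.cast_ne_zero.mpr hn.ne'⟩
  have : NeZero n := ⟨hn.ne'⟩
  obtain ⟨ζ, hζ⟩ := HasEnoughRootsOfUnity.exists_primitiveRoot Qb n
  have hζa : IsPrimitiveRoot (ζ ^ a) n := hζ.pow_of_coprime a ha
  have h1 : IsConjRoot ℚ ζ (ζ ^ a) := by
    change minpoly ℚ ζ = minpoly ℚ (ζ ^ a)
    rw [← Polynomial.cyclotomic_eq_minpoly_rat hζ hn, ← Polynomial.cyclotomic_eq_minpoly_rat hζa hn]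
  obtain ⟨g, hg⟩ := isConjRoot_iff_exists_algEquiv.mp h1
  have hg' : g⁻¹ ζ = ζ ^ a := by
    conv_lhs => rw [← hg]
    change (g⁻¹ * g) (ζ ^ a) = ζ ^ a
    rw [inv_mul_cancel]
    rfl
  refine ⟨g⁻¹, fun z hz => ?_⟩
  obtain ⟨i, -, rfl⟩ := hζ.eq_pow_of_pow_eq_one hz
  rw [map_pow, hg', ← pow_mul, ← pow_mul, mul_comm]

theorem exists_inertia_level {q : ℕ} (hq : q.Prime) {P : ValuationSubring Qb}
    (hP : P.LiesOverPrime q) (k : ℕ) (σ : Γℚ) :
    ∃ s ∈ P.inertiaSubgroupIn ℚ, ∀ z : Qb, z ^ q ^ k = 1 → σ z = s z := by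
  have hroot : ∀ (τ : Γℚ) (z : Qb), z ^ q ^ k = 1 → (τ z) ^ q ^ k = 1 := fun τ z hz => by
    rw [← map_pow, hz, map_one]
  have hn : 0 < q ^ k := pow_pos hq.pos k
  have : NeZero ((q ^ k : ℕ) : Qb) := ⟨Nat.cast_ne_zero.mpr hn.ne'⟩
  have : NeZero (q ^ k) := ⟨hn.ne'⟩
  obtain ⟨ζ, hζ⟩ := HasEnoughRootsOfUnity.exists_primitiveRoot Qb (q ^ k)
  have hcomm : ∀ (τ τ' : Γℚ) (z : Qb), z ^ q ^ k = 1 → τ (τ' z) = τ' (τ z) := by
    intro τ τ' z hz
    have h1 : ∀ τ : Γℚ, ∃ i, τ ζ = ζ ^ i := fun τ => by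
      obtain ⟨i, -, hi⟩ := hζ.eq_pow_of_pow_eq_one (hroot τ ζ hζ.pow_eq_one)
      exact ⟨i, hi.symm⟩
    obtain ⟨i, hi⟩ := h1 τ
    obtain ⟨j, hj⟩ := h1 τ'
    obtain ⟨l, -, rfl⟩ := hζ.eq_pow_of_pow_eq_one hz
    simp only [map_pow, hi, hj]
    rw [← pow_mul, ← pow_mul, ← pow_mul, ← pow_mul]
    congr 1
    ring
  let N : Subgroup Γℚ :=
    { carrier := {σ | ∃ s ∈ P.inertiaSubgroupIn ℚ, ∀ z : Qb, z ^ q ^ k = 1 → σ z = s z}
      one_mem' := ⟨1, Subgroup.one_mem _, fun z _ => rfl⟩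
      mul_mem' := by
        rintro σ τ ⟨s, hs, h1⟩ ⟨t, ht, h2⟩
        refine ⟨s * t, Subgroup.mul_mem _ hs ht, fun z hz => ?_⟩
        change σ (τ z) = s (t z)
        rw [h2 z hz, h1 _ (hroot t z hz)]
      inv_mem' := by
        rintro σ ⟨s, hs, h1⟩
        refine ⟨s⁻¹, Subgroup.inv_mem _ hs, fun z hz => ?_⟩
        have h2 := h1 _ (hroot s⁻¹ z hz)
        have h3 : s (s⁻¹ z) = z := by
          change (s * s⁻¹) z = z
          rw [mul_inv_cancel]; rfl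
        rw [h3] at h2
        have h4 : σ⁻¹ (σ (s⁻¹ z)) = s⁻¹ z := by
          change (σ⁻¹ * σ) (s⁻¹ z) = s⁻¹ z
          rw [inv_mul_cancel]; rfl
        rw [← h4, h2] }
  have hN : N.Normal := by
    refine ⟨?_⟩
    rintro σ ⟨s, hs, h1⟩ g
    refine ⟨s, hs, fun z hz => ?_⟩
    change g (σ (g⁻¹ z)) = s z
    rw [hcomm g σ _ (hroot _ _ hz)]
    have h3 : g (g⁻¹ z) = z := by
      change (g * g⁻¹) z = z
      rw [mul_inv_cancel]; rfl
    rw [h3, h1 z hz]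
  have hopen : IsOpen (N : Set Γℚ) := by
    refine Subgroup.isOpen_of_mem_nhds N (g := 1) ?_
    refine Filter.mem_of_superset ((isOpen_eval ζ (fun y => y = ζ)).mem_nhds rfl) ?_
    intro τ hτ
    refine ⟨1, Subgroup.one_mem _, fun z hz => ?_⟩
    obtain ⟨l, -, rfl⟩ := hζ.eq_pow_of_pow_eq_one hz
    rw [map_pow, map_pow]
    congr 1
  have htop : N = ⊤ := by
    refine Frob.subgroup_eq_top_of_normal N hopen fun ℓ hℓ => ?_
    by_cases hqp : ℓ = q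
    · subst hqp
      exact ⟨P, hP, fun σ hσ => ⟨σ, hσ, fun _ _ => rfl⟩⟩
    · obtain ⟨B, hB⟩ := Frob.exists_liesOverPrime Qb hℓ
      refine ⟨B, hB, fun σ hσ => ⟨1, Subgroup.one_mem _, fun z hz => ?_⟩⟩
      have hnd : ¬ ℓ ∣ q ^ k := fun h =>
        hqp ((Nat.prime_dvd_prime_iff_eq hℓ hq).mp (hℓ.dvd_of_dvd_pow h))
      exact CFT.inertia_apply_rootOfUnity hℓ hB hnd hσ hz
  have h := htop ▸ Subgroup.mem_top σ
  exact h

theorem exists_inertia_int {q : ℕ} [Fact q.Prime] {P : ValuationSubring Qb}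
    (hP : P.LiesOverPrime q) {a : ℕ} (ha : ¬ q ∣ a) :
    ∃ s ∈ P.inertiaSubgroupIn ℚ, ∀ (k : ℕ) (z : Qb), z ^ q ^ k = 1 → s z = z ^ a := by
  have hq : q.Prime := Fact.out
  let C : ℕ → Set Γℚ := fun k =>
    {τ : Γℚ | τ ∈ P.inertiaSubgroupIn ℚ} ∩ ⋂ z : {z : Qb // z ^ q ^ k = 1},
      {τ : Γℚ | τ z = (z : Qb) ^ a}
  have hC : ∀ k, IsClosed (C k) := fun k => (isClosed_inertia P).inter
    (isClosed_iInter fun z => isClosed_eval (z : Qb) (fun y => y = (z : Qb) ^ a))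
  have hne : ∀ k, (C k).Nonempty := by
    intro k
    obtain ⟨σ, hσ⟩ := exists_gal_pow (n := q ^ k) (pow_pos hq.pos k) (a := a)
      (((Nat.Prime.coprime_iff_not_dvd hq).mpr ha).symm.pow_right k)
    obtain ⟨s, hs, hs'⟩ := exists_inertia_level hq hP k σ
    exact ⟨s, hs, Set.mem_iInter.2 fun z => (hs' z z.2).symm.trans (hσ z z.2)⟩
  have hmono : ∀ k, C (k + 1) ⊆ C k := by
    rintro k τ ⟨h1, h2⟩
    refine ⟨h1, Set.mem_iInter.2 fun z => ?_⟩
    refine Set.mem_iInter.1 h2 ⟨z, ?_⟩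
    rw [pow_succ, pow_mul, z.2, one_pow]
  have hcomp : CompactSpace Γℚ := inferInstance
  obtain ⟨s, hs⟩ := IsCompact.nonempty_iInter_of_sequence_nonempty_isCompact_isClosed C hmono hne
    (hC 0).isCompact hC
  rw [Set.mem_iInter] at hs
  exact ⟨s, (hs 0).1, fun k z hz => Set.mem_iInter.1 (hs k).2 ⟨z, hz⟩⟩

end Fermat.Agent.OrdP
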