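import Fermat.Agent.OrdP.StarP
import Fermat.Agent.OrdP.CycInt
import Fermat.Agent.TwoAdic.F1Odd

/-!
# The Steinberg condition at `p ∥ level` for the `p`-adic representation of a newform
-/

set_option autoImplicit false
set_option linter.unusedSectionVars false
set_option linter.style.haveILetI false

namespace Fermat.Agent.OrdP

open IsLocalRing Polynomial ModularCurve AlgebraicCurve Fermat.Agent.QComp Fermat.Agent.MazurQ
  ModularFormClass Fermat.Agent.TwoAdic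

local notation "Qb" => AlgebraicClosure ℚ
local notation "Γℚ" => (AlgebraicClosure ℚ ≃ₐ[ℚ] AlgebraicClosure ℚ)

/-- **The Steinberg condition** at `p ∥ level` for the `p`-adic representation of a newform, with
sign `a_p(g)`. -/
theorem starAtRep_newform_self {M p : ℕ} [NeZero M] [NeZero p] [hpf : Fact p.Prime]
    (hM : ¬ p ∣ M) {g : CuspForm (CongruenceSubgroup.Gamma0 (M * p)) 2}
    (hg : g.IsNewform) {S : Finset ℕ} (hpS : p ∈ S) (hNS : ∀ r : ℕ, r.Prime → r ∣ M * p → r ∈ S)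
    {R : Type} [CommRing R] [IsDomain R] [IsLocalRing R] [IsNoetherianRing R]
    [IsHausdorff (maximalIdeal R) R] [CharZero R] (hpR : (p : R) ∈ maximalIdeal R) {D : Subring ℂ}
    {ι : D →+* R} (hD : ∀ ℓ : ℕ, ℓ.Prime → ℓ ∉ S → qCoeff g ℓ ∈ D) (hv : qCoeff g p ∈ D)
    (ρ : GaloisRepAdic R)
    (hρ : ∀ ℓ : ℕ, ∀ hℓ : ℓ.Prime, ∀ hS : ℓ ∉ S, ∀ P : ValuationSubring Qb,
        P.LiesOverPrime ℓ → ∀ σ : Γℚ, P.IsFrobeniusAt σ ℓ →
        LinearMap.charpoly (ρ.ρ σ) = X ^ 2 - C (ι ⟨_, hD ℓ hℓ hS⟩) * X + C (ℓ : R))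
    (habs : ρ.residual.IsAbsolutelyIrreducible) :
    StarAtRep ρ p (ι ⟨_, hv⟩) := by
  obtain ⟨e, he, he2, -⟩ := exists_sign hM hg
  rw [iota_sign hv he]
  have hdet := detIsCyclotomic_of_charpoly ρ hpf.out hpR S fun ℓ hℓ hS P hP φ hφ =>
    ⟨_, hρ ℓ hℓ hS P hP φ hφ⟩
  refine starAtRep_self hdet (transferJ_newform hM hpf.out hg hpS hNS hpR hD ρ hρ habs he) he2
    fun A hA => exists_inertia_int hA ?_
  intro h
  have h1 : p ∣ 1 := (Nat.dvd_add_right (dvd_refl p)).1 h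
  exact hpf.out.one_lt.ne' (Nat.dvd_one.1 h1)

/-- **(G)** -/
theorem newformStar_two : NewformStar 2 := by
  intro M hM0 g hg hv hvM hv2M S h2S hS R _ _ _ _ _ _ h2R D ι hD hvD ρ hρ habs
  obtain ⟨M', hM'⟩ : ∃ M', M = M' * 2 := by
    obtain ⟨M', h⟩ := hvM
    exact ⟨M', by rw [h, mul_comm]⟩
  subst hM'
  haveI : Fact (Nat.Prime 2) := ⟨hv⟩
  haveI : NeZero M' := ⟨fun h => NeZero.ne (M' * 2) (by rw [h, zero_mul])⟩
  have hvM' : ¬ 2 ∣ M' := by
    rintro ⟨k, rfl⟩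
    exact hv2M ⟨k, by ring⟩
  have h2R' : ((2 : ℕ) : R) ∈ maximalIdeal R := by exact_mod_cast h2R
  exact starAtRep_newform_self hvM' hg h2S hS h2R' hD hvD ρ hρ habs

/-- **(F1)** and **(G)** -/
theorem newformStar (v : ℕ) : NewformStar v := by
  rcases eq_or_ne v 2 with rfl | h
  · exact newformStar_two
  · exact newformStar_odd h

end Fermat.Agent.OrdP
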