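import Fermat.Agent.OrdP.ToricGp

/-!
# INERT2: inertia acts on toric classes killed by both traces through the cyclotomic character
-/

set_option autoImplicit false
set_option linter.unusedSectionVars false
set_option linter.style.haveILetI false
set_option linter.unusedVariables false

noncomputable section

open AlgebraicCurve ModularCurve IntermediateField Module

namespace Fermat.Agent.OrdP

open Fermat.Agent.FF Fermat.Agent.Red Fermat.Agent.QVal Fermat.Agent.JZ Fermat.Agent.QComp
open Fermat.Agent.ESh Fermat.Agent.MazurQ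

local notation "Qb" => AlgebraicClosure ℚ
local notation "Γℚ" => (AlgebraicClosure ℚ ≃ₐ[ℚ] AlgebraicClosure ℚ)

variable {k : Type*} [Field k] {A : ValuationSubring Qb} {π : A →+* k} {M q : ℕ} [NeZero M]
  [NeZero q] [hqf : Fact q.Prime] {hA : A.LiesOverPrime q} {hπ : ∀ a : A, π a = 0 ↔ ¬ IsUnit a}
  {hs : Function.Surjective π} {hM : ¬ q ∣ M} {n : ℕ}

/-- the second component from the first one -/
theorem nearPow_zero {y : FB (M * q)} (h : NearPow (rInf1 M q hA hπ hs hM) n (w1 hqf.out hM y)) :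
    NearPow (rZero1 M q hA hπ hs hM) n y := by
  intro ε hε
  obtain ⟨g, r, hg, hr, h1⟩ := h ε hε
  refine ⟨w1 hqf.out hM g, w1 hqf.out hM r, (map_ne_zero_iff _ (w1 hqf.out hM).injective).2 hg,
    ?_, ?_⟩
  · obtain ⟨z, hz⟩ := (rInf1 M q hA hπ hs hM).exists_isRed_of_mem hr
    have h2 : (rZero1 M q hA hπ hs hM).IsRed (w1 hqf.out hM r) z := by
      rw [isRed_rZero1, w1_w1]; exact hz
    exact h2.mem
  · have h2 := congrArg (w1 hqf.out hM) h1
    rw [w1_w1, map_mul, map_pow, map_add, map_one, map_mul, AlgEquiv.commutes] at h2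
    exact h2

theorem finite_toricGp (p m : ℕ) [hp : Fact p.Prime] :
    Finite (toricGp hA hπ hs hM (p ^ m)) := by
  haveI := isFnField_bar (M * q)
  have h1 := Spc.card_torsion (AlgebraicClosure ℚ) (modularFunctionFieldBar (M * q)) p m
  haveI : Finite (Pic0.torsion (AlgebraicClosure ℚ) (modularFunctionFieldBar (M * q)) (p ^ m)) := by
    refine Nat.finite_of_card_ne_zero ?_
    rw [h1]
    exact pow_ne_zero _ hp.out.ne_zero
  refine Finite.of_injective (β := Pic0.torsion (AlgebraicClosure ℚ)
    (modularFunctionFieldBar (M * q)) (p ^ m)) (fun x => ⟨(x : JZero (M * q)), by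
      rw [Pic0.mem_torsion, natCast_zsmul]
      exact x.2.1⟩) (fun x y h => ?_)
  have h2 := congrArg Subtype.val h
  exact Subtype.ext h2

variable [CharP k q] [PerfectRing k q] [IsAlgClosed k] [IsFnField k (modularFunctionFieldFullC k M)]

/-- **INERT2**, from the approximation property of Kummer functions -/
theorem inert2_of_near (hn : 0 < n) [Finite (toricGp hA hπ hs hM n)]
    (hstep : ∀ x ∈ toricGp hA hπ hs hM n, ∀ y : FB (M * q), Cls n x y →
      NearPow (rInf1 M q hA hπ hs hM) n y)
    {s : Γℚ} (hs' : s ∈ A.inertiaSubgroupIn ℚ) {a : ℕ} (ha : ∀ z : Qb, z ^ n = 1 → s z = z ^ a)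
    {x : JZero (M * q)} (hx : x ∈ toricGp hA hπ hs hM n) : s • x = a • x := by
  obtain ⟨φ, hφ⟩ := Frob.exists_isFrobeniusAt A hqf.out hA
  set H := twoLevel hA hπ hs hM with hH
  haveI := (H.finrank_quot hs).1
  haveI : Fintype ((regAlg k (RedQ.xj k M ^ (q + 1)) ⧸ H.cond) →ₐ[k] k) := Fintype.ofFinite _
  have hgal := semiRed_inertia hA hπ hs hM hs'
  exact inert_abs H.twoRed (isArch_of_liesOverPrime hA) (exists_nonunit hA) hs
    (H.nodes hs (frobStructure hφ)) hn (toricGp hA hπ hs hM n) (fun c hc => hc.1)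
    (fun c hc y hy => ⟨hstep c hc y hy, nearPow_zero
      (hstep (wSemi hM • c) (toricGp_w hc) _ (hy.smul (wSemi hM)))⟩)
    (arithmeticGalois (modularFunctionFieldFull (M * q)) s) (fun c hc => toricGp_inertia hc hs')
    hgal.fix hgal.red1 hgal.red2 ha x hx

end Fermat.Agent.OrdP
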