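import Fermat.Agent.OrdP.Contr
import Fermat.Agent.OrdP.Inert2

/-!
# INERT2: unconditional form
-/

set_option autoImplicit false
set_option linter.unusedSectionVars false
set_option linter.style.haveILetI false
set_option linter.unusedVariables false

noncomputable section

open AlgebraicCurve ModularCurve IntermediateField Module

namespace Fermat.Agent.OrdP

open Fermat.Agent.FF Fermat.Agent.Red Fermat.Agent.QVal Fermat.Agent.JZ Fermat.Agent.QComp
open Fermat.Agent.ESh Fermat.Agent.MazurQ Fermat.Agent.MazurP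

local notation "Qb" => AlgebraicClosure ℚ
local notation "Γℚ" => (AlgebraicClosure ℚ ≃ₐ[ℚ] AlgebraicClosure ℚ)

section Abstract

variable {K k : Type*} [Field K] [Field k] {A : ValuationSubring K} {π : A →+* k}
  {F κ : Type*} [Field F] [Algebra K F] [Field κ] [Algebra k κ] {R : ConstRed A π F κ} {n : ℕ}

theorem nearPow_of_nearC {f : F} (h : ∀ ε : A, ε ≠ 0 → NearC R n ε f) : NearPow R n f := by
  intro ε hε
  obtain ⟨g, hg, y, hy, h1⟩ := h ε hε
  exact ⟨g, y, hg, hy, by rw [← h1, mul_div_cancel₀ _ (pow_ne_zero _ hg)]⟩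

theorem nearPow_mul_pow {f e : F} (he : e ≠ 0) (h : NearPow R n f) : NearPow R n (f * e ^ n) := by
  intro ε hε
  obtain ⟨g, r, hg, hr, h1⟩ := h ε hε
  refine ⟨g * e, r, mul_ne_zero hg he, hr, ?_⟩
  rw [h1, mul_pow]
  ring

end Abstract

variable {k : Type*} [Field k] {A : ValuationSubring Qb} {π : A →+* k} {M q : ℕ} [NeZero M]
  [NeZero q] [hqf : Fact q.Prime] {hA : A.LiesOverPrime q} {hπ : ∀ a : A, π a = 0 ↔ ¬ IsUnit a}
  {hs : Function.Surjective π} {hM : ¬ q ∣ M} {n : ℕ}

/-- the Kummer functions of the toric classes killed by both traces are nearly powers -/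
theorem nearPow_of_toricGp [CharP k q] (hn : 0 < n) {x : JZero (M * q)}
    (hx : x ∈ toricGp hA hπ hs hM n) {y : FB (M * q)} (hy : Cls n x y) :
    NearPow (rInf1 M q hA hπ hs hM) n y := by
  obtain ⟨h0, hα, hβ, b₁, b₂, D, y', γ₁, γ₂, hD, hy', hdiv, hγ₁, hγ₂, hb₁, hb₂, h1, h2⟩ := hx
  obtain ⟨e, he, rfl⟩ := Cls.unique_fun hn.ne' (⟨D, hD, hy', hdiv⟩ : Cls n x y') hy
  refine nearPow_mul_pow he (nearPow_of_nearC fun ε hε => ?_)
  exact (nearC_of_isToric hn.ne' hD hy' hdiv hγ₁ hγ₂ hb₁ hb₂ h1 h2 hα hβ ε hε).1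

variable [CharP k q] [PerfectRing k q] [IsAlgClosed k] [IsFnField k (modularFunctionFieldFullC k M)]

/-- **INERT2** -/
theorem inert2_of_finite (hn : 0 < n) [Finite (toricGp hA hπ hs hM n)] {s : Γℚ}
    (hs' : s ∈ A.inertiaSubgroupIn ℚ) {a : ℕ} (ha : ∀ z : Qb, z ^ n = 1 → s z = z ^ a)
    {x : JZero (M * q)} (hx : x ∈ toricGp hA hπ hs hM n) : s • x = a • x :=
  inert2_of_near hn (fun _ hx _ hy => nearPow_of_toricGp hn hx hy) hs' ha hx

/-- **INERT2**: inertia at `q` acts through the cyclotomic character on the toric torsion classes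
of `J₀(Mq)` of prime power order which are killed by both degeneracy traces; no condition on
the prime `p`, which may be equal to `q`. -/
theorem inert2 {p m : ℕ} [hp : Fact p.Prime] {s : Γℚ}
    (hs' : s ∈ A.inertiaSubgroupIn ℚ) {a : ℕ} (ha : ∀ z : Qb, z ^ (p ^ m) = 1 → s z = z ^ a)
    {x : JZero (M * q)} (hx : x ∈ toricGp hA hπ hs hM (p ^ m)) : s • x = a • x := by
  haveI := finite_toricGp (hA := hA) (hπ := hπ) (hs := hs) (hM := hM) p m
  exact inert2_of_finite (pow_pos hp.out.pos _) hs' ha hx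

end Fermat.Agent.OrdP
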