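import Fermat.Agent.OrdP.Count

/-!
# Semilinear automorphisms commute with the Galois group of a split Kummer extension
-/

set_option autoImplicit false
set_option linter.unusedSectionVars false
set_option linter.style.haveILetI false

open AlgebraicCurve IntermediateField Module

namespace Fermat.Agent.OrdP

open Fermat.Agent.FF Fermat.Agent.Red Fermat.Agent.QComp Fermat.Agent.QVal

variable {K k : Type*} [Field K] [Field k] {A : ValuationSubring K} {π : A →+* k}
  {F L κ : Type*} [Field F] [Algebra K F] [Field κ] [Algebra k κ]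
  [Field L] [Algebra F L] [Algebra K L] [IsScalarTower K F L]

namespace Split2

variable {R₁ R₂ : ConstRed A π F κ} {R₁s R₂s : ConstRed A π L κ} {e₁ e₂ : L} {x : F} {xb : κ}
  (H : Split2 R₁ R₂ R₁s R₂s e₁ e₂) [IsAlgClosed K] [CharZero K] [IsAlgClosed k]
  [IsFnField K F] [IsFnField K L] [IsFnField k κ] {S : Type*} [Fintype S]
  [FiniteDimensional F L] [IsGalois F L]
  {ι : Type*} [Fintype ι] {n : ℕ} {X : ι → L} {y : ι → F} {D : ι → Divisor K F}

include H

/-- the matching at a node is unique -/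
theorem match_unique (T : TwoRed R₁ R₂ x xb xb) (hπ : Function.Surjective π)
    (N : Nodes R₁ R₂ x xb xb S) (Q : KumBasis n X y D) (hcard : Fintype.card ι = finrank F L)
    {s₀ : S} {c c' : L ≃ₐ[F] L} (hc : IsMatch R₁s R₂s N s₀ c) (hc' : IsMatch R₁s R₂s N s₀ c') :
    c = c' := by
  classical
  by_contra hne
  have T' := H.famRed T
  haveI := T'.fd
  choose d hd using fun s => H.exists_match T hπ N s
  -- use `c` at `s₀`
  let d' : S → (L ≃ₐ[F] L) := Function.update d s₀ c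
  have hd' : ∀ s, IsMatch R₁s R₂s N s (d' s) := by
    intro s
    by_cases h : s = s₀
    · subst h
      simp only [d', Function.update_self]
      exact hc
    · simp only [d', Function.update_of_ne h]
      exact hd s
  obtain ⟨m₁, hm₁⟩ := H.exists_lift_of_glue T hπ N Q hcard hd'
  obtain ⟨m₂, hm₂⟩ := N.exists_surj
  set m := m₁ + m₂ with hm
  choose b hb using fun δ : L ≃ₐ[F] L => hm₂ m (by omega)
    (fun s => if d' s = δ then (1 : k) else 0)
  let p : TupL k (L ≃ₐ[F] L) xb m := Sum.elim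
    (fun γ => if γ = 1 then ⟨1, one_mem_Lm xb m⟩ else 0) b
  have e1 : inclReg k xb m ⟨1, one_mem_Lm xb m⟩ = 1 := rfl
  obtain ⟨f, hf, hfp⟩ := hm₁ m (by omega) p (by
    intro s γ
    change N.e₁ s (inclReg k xb m (if γ = 1 then ⟨1, one_mem_Lm xb m⟩ else 0)) =
      N.e₂ s (inclReg k xb m (b (d' s * γ)))
    rw [hb]
    by_cases h : γ = 1
    · rw [if_pos h, if_pos (by rw [h, mul_one]), e1, map_one]
    · rw [if_neg h, if_neg (by
        intro h2
        exact h (mul_eq_left.1 h2.symm)), map_zero, map_zero])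
  have hfB : f ∈ Bring K (RS (F := F) R₁s R₂s) (algebraMap F L x) :=
    ⟨mem_regAlg_of_mem_Lm hf, fun j => (hfp j).mem⟩
  have h1 := hc' f hfB (inclReg k xb m (p (Sum.inl 1))) (inclReg k xb m (p (Sum.inr c')))
    (hfp (Sum.inl 1)) (hfp (Sum.inr c'))
  change N.e₁ s₀ (inclReg k xb m (if (1 : L ≃ₐ[F] L) = 1 then ⟨1, one_mem_Lm xb m⟩ else 0)) =
    N.e₂ s₀ (inclReg k xb m (b c')) at h1
  rw [if_pos rfl, e1, map_one, hb, if_neg] at h1
  · exact one_ne_zero h1
  · simp only [d', Function.update_self]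
    exact hne

/-- **connectedness of the special fibre of `L`** -/
theorem connected (T : TwoRed R₁ R₂ x xb xb) (hA : IsArch A) (hA' : ∃ c : A, ¬ IsUnit c ∧ c ≠ 0)
    (hπ : Function.Surjective π)
    (N : Nodes R₁ R₂ x xb xb S) (Q : KumBasis n X y D) (hcard : Fintype.card ι = finrank F L)
    {c : S → (L ≃ₐ[F] L)} (hc : ∀ s, IsMatch R₁s R₂s N s (c s)) (P P' : (L ≃ₐ[F] L) → Prop)
    (hP : ∀ s γ, P γ ↔ P' (c s * γ)) :
    (∀ γ δ, P' γ ↔ P' δ) ∧ ∀ γ δ, P γ ↔ P' δ := by
  classical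
  have T' := H.famRed T
  haveI := T'.fd
  obtain ⟨m, hm⟩ := H.exists_lift_of_glue T hπ N Q hcard hc
  let ε : (L ≃ₐ[F] L) ⊕ (L ≃ₐ[F] L) → κ := Sum.elim (fun γ => if P γ then 1 else 0)
    (fun γ => if P' γ then 1 else 0)
  have hε : ∀ j, ε j = 0 ∨ ε j = 1 := by
    rintro (γ | γ)
    · change (if P γ then (1 : κ) else 0) = 0 ∨ (if P γ then (1 : κ) else 0) = 1
      split_ifs <;> simp
    · change (if P' γ then (1 : κ) else 0) = 0 ∨ (if P' γ then (1 : κ) else 0) = 1
      split_ifs <;> simp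
  -- tuples `ε * b`
  have key : ∀ b : riemannRochSpace (m • RR.poleDiv (K := k) xb),
      (∀ s, N.e₁ s (inclReg k xb m b) = N.e₂ s (inclReg k xb m b)) →
      ∃ f ∈ riemannRochSpace (m • RR.poleDiv (K := K) (algebraMap F L x)),
        ∀ j, (RS R₁s R₂s j).IsRed f (ε j * b) := by
    intro b hb
    let p : TupL k (L ≃ₐ[F] L) xb m := Sum.elim (fun γ => if P γ then b else 0)
      (fun γ => if P' γ then b else 0)
    obtain ⟨f, hf, hfp⟩ := hm m le_rfl p (by
      intro s γ
      change N.e₁ s (inclReg k xb m (if P γ then b else 0)) =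
        N.e₂ s (inclReg k xb m (if P' (c s * γ) then b else 0))
      by_cases h : P γ
      · rw [if_pos h, if_pos ((hP s γ).1 h)]
        exact hb s
      · rw [if_neg h, if_neg (fun h2 => h ((hP s γ).2 h2)), map_zero, map_zero, map_zero])
    refine ⟨f, hf, ?_⟩
    have hp : ∀ j, ((p j : riemannRochSpace (m • RR.poleDiv (K := k) xb)) : κ) = ε j * b := by
      rintro (γ | γ)
      · change ((if P γ then b else 0 : riemannRochSpace (m • RR.poleDiv (K := k) xb)) : κ) =
          (if P γ then (1 : κ) else 0) * b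
        split_ifs <;> simp
      · change ((if P' γ then b else 0 : riemannRochSpace (m • RR.poleDiv (K := k) xb)) : κ) =
          (if P' γ then (1 : κ) else 0) * b
        split_ifs <;> simp
    intro j
    rw [← hp]
    exact hfp j
  obtain ⟨e, he, he1⟩ := key ⟨1, one_mem_Lm xb m⟩ (fun s => by
    have e1 : inclReg k xb m ⟨1, one_mem_Lm xb m⟩ = 1 := rfl
    rw [e1, map_one, map_one])
  obtain ⟨f, hf, hf1⟩ := key ⟨xb ^ m, self_pow_mem_Lm xb m⟩ (fun s =>
    N.glue (x ^ m) (pow_mem (self_mem_regAlg x) m) _ _ (T.r1.pow m) (T.r2.pow m) s)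
  have hne := T'.ne
  have hneb := T'.neb
  have heq := T'.eq_of_idem hA hA' (e := e) (e' := (algebraMap F L x)⁻¹ ^ m * f) (ε := ε)
    (fun j => by rcases hε j with h | h <;> rw [h] <;> simp) (mem_regAlg_of_mem_Lm he)
    ((mem_Lm_iff hne).1 hf).2 (fun j => by simpa using he1 j) (fun j => by
      have h1 := (((T'.red j).inv hneb).pow m).mul (hf1 j)
      have h2 : xb⁻¹ ^ m * (ε j * xb ^ m) = ε j := by
        rw [mul_comm (ε j), ← mul_assoc, ← mul_pow, inv_mul_cancel₀ hneb, one_pow, one_mul]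
      change (RS R₁s R₂s j).IsRed _ (xb⁻¹ ^ m * (ε j * xb ^ m)) at h1
      rwa [h2] at h1)
  have hiff : ∀ {p q : Prop} [Decidable p] [Decidable q],
      (if p then (1 : κ) else 0) = (if q then (1 : κ) else 0) → (p ↔ q) := by
    intro p q _ _ h
    by_cases hp : p <;> by_cases hq : q
    · exact ⟨fun _ => hq, fun _ => hp⟩
    · rw [if_pos hp, if_neg hq] at h; exact absurd h one_ne_zero
    · rw [if_neg hp, if_pos hq] at h; exact absurd h.symm one_ne_zero
    · exact ⟨fun h => absurd h hp, fun h => absurd h hq⟩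
  exact ⟨fun γ δ => hiff (heq (Sum.inr γ) (Sum.inr δ)), fun γ δ =>
    hiff (heq (Sum.inl γ) (Sum.inr δ))⟩

/-- **transitivity**: a semilinear automorphism permutes the components of `L` above the first
component, compatibly with the reductions -/
theorem exists_conj1 (T : TwoRed R₁ R₂ x xb xb) (τ : F →+* F) (τL : L →+* L) (σ : K →+* K)
    (hτ : ∀ f, τL (algebraMap F L f) = algebraMap F L (τ f))
    (hσ : ∀ c, τ (algebraMap K F c) = algebraMap K F (σ c)) (hx : τ x = x)
    (h1 : ∀ f b, R₁.IsRed f b → R₁.IsRed (τ f) b) :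
    ∃ γ : L ≃ₐ[F] L, ∀ b : L, (∀ j, b ∈ (RS (F := F) R₁s R₂s j).O) → ∀ z,
      R₁s.IsRed (γ b) z → R₁s.IsRed (τL b) z := by
  classical
  have T' := H.famRed T
  set V : ValuationSubring L := R₁s.O.comap τL with hV
  have hmemV : ∀ b, b ∈ V ↔ τL b ∈ R₁s.O := fun b => Iff.rfl
  have hredV : ∀ {f : F} {b : κ}, R₁.IsRed f b → R₁s.IsRed (τL (algebraMap F L f)) b := by
    intro f b hf
    rw [hτ]
    exact H.ext1 _ _ (h1 f b hf)
  have hnonV : ∀ b, b ∈ V.nonunits ↔ R₁s.IsRed (τL b) 0 := by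
    intro b
    rw [← FamRed.nonunits_iff, nonunits_comap]
  have hVG : OverGauss K A (algebraMap F L x) V := by
    have e0 : ∀ a : K, algebraMap K L a = algebraMap F L (algebraMap K F a) := fun a =>
      IsScalarTower.algebraMap_apply K F L a
    refine overGauss_of ?_ ?_ ?_ ?_
    · intro a
      rw [hmemV]
      change τL (algebraMap K L (a : K)) ∈ _
      rw [e0]
      exact (hredV (R₁.isRed_coe a)).mem
    · intro a ha
      rw [IsLocalRing.mem_maximalIdeal, mem_nonunits_iff, ← R₁.pi_eq_zero_iff] at ha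
      rw [hnonV]
      change R₁s.IsRed (τL (algebraMap K L (a : K))) 0
      rw [e0]
      have h2 := hredV (R₁.isRed_coe a)
      rwa [ha, map_zero] at h2
    · rw [hmemV]
      exact (hredV T.r1).mem
    · intro u hu
      rw [hmemV, ev_algebraMap, ← map_inv₀]
      have h3 := GoodRed.isRed_aeval T.r1 u
      exact (hredV (h3.inv (GoodRed.aeval_ne_zero T.t1 ((prim_iff_map R₁ u).1 hu)))).mem
  -- idempotents
  choose e he he' using fun j => T'.lift j 1
  have hsum : (∑ j, e j) - 1 ∈ V.nonunits := by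
    refine T'.nonunits_of_isRed hVG fun i => ?_
    have h2 := ConstRed.isRed_sum (R := RS (F := F) R₁s R₂s i) Finset.univ (y := e)
      (z := fun j => if j = i then 1 else 0) (fun j _ => by
        by_cases h : j = i
        · subst h
          simpa using he j
        · rw [if_neg h]
          exact he' j i (fun h2 => h h2.symm))
    have h3 := h2.sub (RS (F := F) R₁s R₂s i).isRed_one
    simpa using h3
  obtain ⟨j, hj⟩ : ∃ j, e j ∉ V.nonunits := by
    by_contra hcon
    push Not at hcon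
    have h2 : (∑ j, e j) ∈ V.nonunits := sum_mem fun j _ => hcon j
    have h3 := sub_mem h2 hsum
    rw [sub_sub_cancel, ValuationSubring.mem_nonunits_iff, map_one] at h3
    exact lt_irrefl _ h3
  have heV : e j ∈ V := T'.mem_of_overGauss hVG fun i => by
    by_cases h : i = j
    · subst h; exact (he i).mem
    · exact (he' j i h).mem
  -- cancellation of `e j`
  have hcancel : ∀ b : L, b * e j ∈ V.nonunits → b ∈ V.nonunits := by
    intro b hb
    rw [ValuationSubring.mem_nonunits_iff] at hb hj ⊢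
    rw [map_mul] at hb
    rw [not_lt] at hj
    by_contra hcon
    rw [not_lt] at hcon
    exact absurd (one_le_mul hcon hj) (not_le.2 hb)
  have hlift : ∀ (b : L) (f : F) (z : κ), (∀ j, b ∈ (RS (F := F) R₁s R₂s j).O) →
      f ∈ R₁.O → f ∈ R₂.O →
      (RS R₁s R₂s j).IsRed b z → (RS R₁s R₂s j).IsRed (algebraMap F L f) z →
      b - algebraMap F L f ∈ V.nonunits := by
    intro b f z hb hf1 hf2 hbz hfz
    apply hcancel
    refine T'.nonunits_of_isRed hVG fun i => ?_
    by_cases h : i = j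
    · subst h
      have := (hbz.sub hfz).mul (he i)
      simpa using this
    · have h5 : algebraMap F L f ∈ (RS (F := F) R₁s R₂s i).O := by
        obtain ⟨z1, hz1⟩ := R₁.exists_isRed_of_mem hf1
        obtain ⟨z2, hz2⟩ := R₂.exists_isRed_of_mem hf2
        rcases i with γ | γ
        · exact (H.red_inl hz1 γ).mem
        · exact (H.red_inr hz2 γ).mem
      obtain ⟨w, hw⟩ := (RS (F := F) R₁s R₂s i).exists_isRed_of_mem (sub_mem (hb i) h5)
      have := hw.mul (he' j i h)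
      simpa using this
  rcases j with γ | γ
  · refine ⟨γ, fun b hb z hz => ?_⟩
    obtain ⟨f, hf1, hf2⟩ := T.lift1 z
    have h6 := (hnonV _).1 (hlift b f z hb hf1.mem hf2.mem hz (H.red_inl hf1 γ))
    have h7 := h6.add (hredV hf1)
    rw [map_sub, sub_add_cancel, zero_add] at h7
    exact h7
  · exfalso
    obtain ⟨f, hf1, hf2⟩ := T.lift1 1
    have h6 := (hnonV _).1 (hlift 0 f 0 (fun _ => zero_mem _) hf1.mem hf2.mem
      (RS R₁s R₂s (Sum.inr γ)).isRed_zero (H.red_inr hf2 γ))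
    rw [map_sub, map_zero, zero_sub] at h6
    have h7 := h6.add (hredV hf1)
    rw [neg_add_cancel, zero_add] at h7
    exact zero_ne_one (R₁s.isRed_zero.unique h7)

theorem exists_conj2 (T : TwoRed R₁ R₂ x xb xb) (τ : F →+* F) (τL : L →+* L) (σ : K →+* K)
    (hτ : ∀ f, τL (algebraMap F L f) = algebraMap F L (τ f))
    (hσ : ∀ c, τ (algebraMap K F c) = algebraMap K F (σ c)) (hx : τ x = x)
    (h2 : ∀ f b, R₂.IsRed f b → R₂.IsRed (τ f) b) :
    ∃ γ : L ≃ₐ[F] L, ∀ b : L, (∀ j, b ∈ (RS (F := F) R₁s R₂s j).O) → ∀ z,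
      R₂s.IsRed (γ b) z → R₂s.IsRed (τL b) z := by
  obtain ⟨γ, hγ⟩ := H.symm.exists_conj1 T.symm τ τL σ hτ hσ hx h2
  refine ⟨γ, fun b hb z hz => hγ b ?_ z hz⟩
  rintro (δ | δ)
  · exact hb (Sum.inr δ)
  · exact hb (Sum.inl δ)

theorem apply_mem_O (T : TwoRed R₁ R₂ x xb xb) (τ : F →+* F) (τL : L →+* L) (σ : K →+* K)
    (hτ : ∀ f, τL (algebraMap F L f) = algebraMap F L (τ f))
    (hσ : ∀ c, τ (algebraMap K F c) = algebraMap K F (σ c)) (hx : τ x = x)
    (h1 : ∀ f b, R₁.IsRed f b → R₁.IsRed (τ f) b) (h2 : ∀ f b, R₂.IsRed f b → R₂.IsRed (τ f) b)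
    {b : L} (hb : ∀ j, b ∈ (RS (F := F) R₁s R₂s j).O) (j : (L ≃ₐ[F] L) ⊕ (L ≃ₐ[F] L)) :
    τL b ∈ (RS (F := F) R₁s R₂s j).O := by
  rcases j with δ | δ
  · obtain ⟨γ, hγ⟩ := H.exists_conj1 T τ ((δ : L →+* L).comp τL) σ (fun f => by
      change δ (τL _) = _
      rw [hτ, δ.commutes]) hσ hx h1
    obtain ⟨z, hz⟩ := R₁s.exists_isRed_of_mem (hb (Sum.inl γ))
    exact (hγ b hb z hz).mem
  · obtain ⟨γ, hγ⟩ := H.exists_conj2 T τ ((δ : L →+* L).comp τL) σ (fun f => by
      change δ (τL _) = _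
      rw [hτ, δ.commutes]) hσ hx h2
    obtain ⟨z, hz⟩ := R₂s.exists_isRed_of_mem (hb (Sum.inr γ))
    exact (hγ b hb z hz).mem

omit H [IsAlgClosed K] [CharZero K] [IsAlgClosed k] [IsFnField K F] [IsFnField K L]
  [IsFnField k κ] [IsGalois F L] in
/-- conjugation of `γ` by a semilinear automorphism -/
def _root_.Fermat.Agent.OrdP.conjAut (τ : F →+* F) (τL : L ≃+* L)
    (hτ : ∀ f, τL (algebraMap F L f) = algebraMap F L (τ f)) (γ : L ≃ₐ[F] L) : L →ₐ[F] L :=
  { ((τL.symm : L →+* L).comp ((γ : L →+* L).comp (τL : L →+* L))) with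
    commutes' := fun f => by
      change τL.symm (γ (τL (algebraMap F L f))) = _
      rw [hτ, γ.commutes, ← hτ, τL.symm_apply_apply] }

/-- **Semilinear automorphisms which respect both components commute with the Galois group.** -/
theorem comm (T : TwoRed R₁ R₂ x xb xb) (hA : IsArch A) (hA' : ∃ c : A, ¬ IsUnit c ∧ c ≠ 0)
    (hπ : Function.Surjective π)
    (N : Nodes R₁ R₂ x xb xb S) (Q : KumBasis n X y D) (hcard : Fintype.card ι = finrank F L)
    (hcomm : ∀ γ δ : L ≃ₐ[F] L, γ * δ = δ * γ)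
    (τ : F →+* F) (τL : L ≃+* L) (σ : K →+* K)
    (hτ : ∀ f, τL (algebraMap F L f) = algebraMap F L (τ f))
    (hσ : ∀ c, τ (algebraMap K F c) = algebraMap K F (σ c)) (hx : τ x = x)
    (h1 : ∀ f b, R₁.IsRed f b → R₁.IsRed (τ f) b) (h2 : ∀ f b, R₂.IsRed f b → R₂.IsRed (τ f) b)
    (γ : L ≃ₐ[F] L) (b : L) : τL (γ b) = γ (τL b) := by
  classical
  have T' := H.famRed T
  haveI := T'.fd
  choose c hc using fun s => H.exists_match T hπ N s
  obtain ⟨γ₁, hγ₁⟩ := H.exists_conj1 T τ (τL : L →+* L) σ hτ hσ hx h1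
  obtain ⟨γ₂, hγ₂⟩ := H.exists_conj2 T τ (τL : L →+* L) σ hτ hσ hx h2
  -- conjugation
  let φ : (L ≃ₐ[F] L) → (L ≃ₐ[F] L) := fun γ =>
    AlgEquiv.ofBijective (conjAut τ τL hτ γ)
      (((τL.symm : L ≃+* L).bijective.comp (γ.bijective.comp τL.bijective)))
  have hφ : ∀ γ b, τL (φ γ b) = γ (τL b) := fun γ b => τL.apply_symm_apply _
  have hφmul : ∀ γ δ, φ (γ * δ) = φ γ * φ δ := by
    intro γ δ
    ext b
    apply τL.injective
    rw [hφ, AlgEquiv.mul_apply, AlgEquiv.mul_apply, hφ, hφ]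
  have hφone : φ 1 = 1 := by
    ext b
    apply τL.injective
    rw [hφ, AlgEquiv.one_apply, AlgEquiv.one_apply]
  -- `τL` preserves `B`
  have hτB : ∀ b ∈ Bring K (RS (F := F) R₁s R₂s) (algebraMap F L x),
      τL b ∈ Bring K (RS (F := F) R₁s R₂s) (algebraMap F L x) := by
    intro b hb
    refine ⟨?_, H.apply_mem_O T τ (τL : L →+* L) σ hτ hσ hx h1 h2 hb.2⟩
    refine mem_regAlg_of_isIntegral ?_
    exact isIntegral_semi (τ := (τL : L →+* L)) (σ := σ) (fun c => by
      change τL (algebraMap K L c) = algebraMap K L (σ c)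
      rw [IsScalarTower.algebraMap_apply K F L, hτ, hσ, ← IsScalarTower.algebraMap_apply])
      (by change τL (algebraMap F L x) = _; rw [hτ, hx]) (isIntegral_of_mem_regAlg hb.1)
  have hkey : ∀ s, c s = γ₂ * φ (c s) * γ₁⁻¹ := by
    intro s
    refine H.match_unique T hπ N Q hcard (hc s) ?_
    intro b hb z₁ z₂ hz₁ hz₂
    have hb₀ := H.apply_mem_Bring γ₁⁻¹ hb
    have hb₁ := hτB _ hb₀
    refine hc s _ hb₁ z₁ z₂ ?_ ?_
    · refine hγ₁ _ hb₀.2 _ ?_
      rwa [← AlgEquiv.mul_apply, mul_inv_cancel, AlgEquiv.one_apply]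
    · rw [← hφ]
      refine hγ₂ _ (H.apply_mem_Bring (φ (c s)) hb₀).2 _ ?_
      exact hz₂
  have hkey' : ∀ s s', φ ((c s)⁻¹ * c s') = (c s)⁻¹ * c s' := by
    intro s s'
    have e1 := hkey s
    have e2 := hkey s'
    have e3 : φ (c s)⁻¹ = (φ (c s))⁻¹ := by
      rw [eq_inv_iff_mul_eq_one, ← hφmul, inv_mul_cancel, hφone]
    rw [hφmul, e3]
    have e4 : φ (c s) = γ₂⁻¹ * c s * γ₁ := by
      conv_rhs => rw [e1]
      group
    have e5 : φ (c s') = γ₂⁻¹ * c s' * γ₁ := by
      conv_rhs => rw [e2]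
      group
    rw [e4, e5, hcomm (γ₂⁻¹ * c s) γ₁, hcomm (γ₂⁻¹ * c s') γ₁]
    group
  -- connectedness
  obtain ⟨s₀⟩ : Nonempty S := by
    by_contra hS
    rw [not_nonempty_iff] at hS
    have h3 := (H.connected T hA hA' hπ N Q hcard hc (fun _ => False) (fun _ => True)
      (fun s => (hS.false s).elim)).2 1 1
    exact h3.2 trivial
  have h3 := (H.connected T hA hA' hπ N Q hcard hc
    (fun γ => φ γ = γ) (fun δ => φ ((c s₀)⁻¹ * δ) = (c s₀)⁻¹ * δ) (by
      intro s γ
      rw [← mul_assoc, hφmul, hkey', mul_right_inj])).2 γ (c s₀)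
  rw [inv_mul_cancel] at h3
  rw [← hφ, h3.2 hφone]

/-- **Inertia acts on the classes of a split Kummer extension through the cyclotomic character.** -/
theorem exists_pow (T : TwoRed R₁ R₂ x xb xb) (hA : IsArch A)
    (hA' : ∃ c : A, ¬ IsUnit c ∧ c ≠ 0) (hπ : Function.Surjective π)
    (N : Nodes R₁ R₂ x xb xb S) (Q : KumBasis n X y D) (hcard : Fintype.card ι = finrank F L)
    (hcomm : ∀ γ δ : L ≃ₐ[F] L, γ * δ = δ * γ)
    (τ : F →+* F) (τL : L ≃+* L) (σ : K →+* K)
    (hτ : ∀ f, τL (algebraMap F L f) = algebraMap F L (τ f))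
    (hσ : ∀ c, τ (algebraMap K F c) = algebraMap K F (σ c)) (hx : τ x = x)
    (h1 : ∀ f b, R₁.IsRed f b → R₁.IsRed (τ f) b) (h2 : ∀ f b, R₂.IsRed f b → R₂.IsRed (τ f) b)
    {a : ℕ} (ha : ∀ z : K, z ^ n = 1 → σ z = z ^ a) {Y : L} {v : F} (hv : v ≠ 0)
    (hY : Y ^ n = algebraMap F L v) : ∃ h : F, h ^ n = τ v / v ^ a := by
  have hY0 : Y ≠ 0 := by
    rintro rfl
    rw [zero_pow Q.n0] at hY
    exact hv ((map_eq_zero _).1 hY.symm)
  have hmem : τL Y / Y ^ a ∈ (⊥ : IntermediateField F L) := by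
    rw [IsGalois.mem_bot_iff_fixed]
    intro γ
    obtain ⟨ζ, hζ⟩ := exists_const_of_isIntegral (K := K) (γ Y / Y) (by
      refine ⟨Polynomial.X ^ n - 1, Polynomial.monic_X_pow_sub_C _ Q.n0, ?_⟩
      have h3 : (γ Y / Y) ^ n = 1 := by
        rw [div_pow, ← map_pow, hY, γ.commutes, div_self]
        simpa using hv
      simp [h3])
    have hζ1 : ζ ^ n = 1 := by
      apply (algebraMap K L).injective
      rw [map_pow, hζ, map_one, div_pow, ← map_pow, hY, γ.commutes, div_self]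
      simpa using hv
    have hγY : γ Y = algebraMap K L ζ * Y := by rw [hζ, div_mul_cancel₀ _ hY0]
    have hζ0 : algebraMap K L ζ ≠ 0 := by
      intro h3
      rw [h3, zero_mul] at hγY
      exact hY0 ((map_eq_zero γ).1 hγY)
    rw [map_div₀, map_pow, ← H.comm T hA hA' hπ N Q hcard hcomm τ τL σ hτ hσ hx h1 h2 γ Y, hγY,
      map_mul]
    have h4 : τL (algebraMap K L ζ) = algebraMap K L ζ ^ a := by
      rw [IsScalarTower.algebraMap_apply K F L, hτ, hσ, ha ζ hζ1, map_pow, map_pow]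
    rw [h4, mul_pow, mul_div_mul_left _ _ (pow_ne_zero a hζ0)]
  obtain ⟨h, hh⟩ := IntermediateField.mem_bot.1 hmem
  refine ⟨h, (algebraMap F L).injective ?_⟩
  rw [map_pow, hh, div_pow, ← map_pow, hY, hτ, map_div₀, map_pow, ← pow_mul, mul_comm a n,
    pow_mul, hY]

end Split2

end Fermat.Agent.OrdP
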