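import Fermat.Agent.MazurP.Contract
import Fermat.Agent.MazurP.Tval
import Fermat.Agent.MazurQ.HasRed

/-!
# The contraction argument: functions with toric class are nearly powers on both components
-/

set_option autoImplicit false
set_option linter.unusedSectionVars false
set_option linter.style.haveILetI false
set_option linter.unusedVariables false

noncomputable section
open AlgebraicCurve ModularCurve IntermediateField Module

namespace Fermat.Agent.OrdP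

open Fermat.Agent.FF Fermat.Agent.Red Fermat.Agent.QVal Fermat.Agent.JZ Fermat.Agent.QComp
  Fermat.Agent.MazurQ Fermat.Agent.MazurP Fermat.Agent.ModFn

local notation "Qb" => AlgebraicClosure ℚ
local notation "Γℚ" => (AlgebraicClosure ℚ ≃ₐ[ℚ] AlgebraicClosure ℚ)

section Abstract

variable {K k : Type*} [Field K] [Field k] {A : ValuationSubring K} {π : A →+* k}
  {F κ : Type*} [Field F] [Algebra K F] [Field κ] [Algebra k κ] {R : ConstRed A π F κ}

theorem one_mono {c d : A} (h : d ∣ c) {x : F} (hx : One R c x) : One R d x := by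
  obtain ⟨y, hy, rfl⟩ := hx
  obtain ⟨e, rfl⟩ := h
  refine ⟨algebraMap K F (e : K) * y, mul_mem ((R.algebraMap_mem_iff _).2 e.2) hy, ?_⟩
  have h1 : algebraMap K F ((d * e : A) : K) = algebraMap K F d * algebraMap K F e := by
    rw [← map_mul]; rfl
  rw [h1]
  ring

/-- elements congruent to `1` -/
theorem exists_one_of_isRed {x : F} (hx : R.IsRed x 1) {t : A} (ht0 : t ≠ 0) (hπt : π t = 0) :
    ∃ c : A, c ≠ 0 ∧ π c = 0 ∧ One R c x := by
  by_cases h1 : x = 1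
  · exact ⟨t, ht0, hπt, h1 ▸ one_one⟩
  have hm : R.IsRed (x - 1) 0 := by simpa using hx.sub R.isRed_one
  have hm0 : x - 1 ≠ 0 := sub_ne_zero.2 h1
  obtain ⟨c, hc, b, hb, h2⟩ := R.exists_isRed_mul hm0
  have hc' : algebraMap K F c ≠ 0 := by simpa using hc
  have h3 : R.IsRed (algebraMap K F c⁻¹) 0 := by
    have h4 := hm.div h2 hb
    rw [zero_div] at h4
    convert h4 using 1
    rw [map_inv₀]
    field_simp
  have hcA : c⁻¹ ∈ A := (R.algebraMap_mem_iff _).1 h3.mem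
  refine ⟨⟨c⁻¹, hcA⟩, fun h => inv_ne_zero hc (congrArg Subtype.val h), ?_, ?_⟩
  · have h4 := (R.isRed_algebraMap hcA).unique h3
    exact (map_eq_zero _).1 h4
  · refine ⟨algebraMap K F c * (x - 1), h2.mem, ?_⟩
    change x = 1 + algebraMap K F c⁻¹ * _
    rw [map_inv₀, inv_mul_cancel_left₀ hc']
    ring

/-- a common divisor of finitely many elements of a valuation ring, among them -/
theorem exists_dvd (a b : A) : ∃ d : A, (d = a ∨ d = b) ∧ d ∣ a ∧ d ∣ b := by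
  rcases ValuationRing.dvd_total a b with h | h
  · exact ⟨a, Or.inl rfl, dvd_rfl, h⟩
  · exact ⟨b, Or.inr rfl, h, dvd_rfl⟩

/-- `f` is an `n`-th power up to a factor in `1 + c O` -/
def NearC (R : ConstRed A π F κ) (n : ℕ) (c : A) (f : F) : Prop :=
  ∃ g : F, g ≠ 0 ∧ One R c (f / g ^ n)

theorem NearC.mono {c d : A} (h : d ∣ c) {n : ℕ} {f : F} (hf : NearC R n c f) : NearC R n d f := by
  obtain ⟨g, hg, h1⟩ := hf
  exact ⟨g, hg, one_mono h h1⟩

theorem nearC_of_isRed [IsAlgClosed K] {n : ℕ} (hn : n ≠ 0) {γ : K} (hγ : γ ≠ 0) {y : F} {b : κ}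
    (hb : b ^ n ≠ 0) (h : R.IsRed (algebraMap K F γ * y) (b ^ n)) {t : A} (ht0 : t ≠ 0)
    (hπt : π t = 0) : ∃ c : A, c ≠ 0 ∧ π c = 0 ∧ NearC R n c y := by
  obtain ⟨δ, hδ⟩ := IsAlgClosed.exists_pow_nat_eq γ (Nat.pos_of_ne_zero hn)
  obtain ⟨β, hβ⟩ := R.exists_isRed b
  have hb0 : b ≠ 0 := by rintro rfl; rw [zero_pow hn] at hb; exact hb rfl
  have hβ0 : β ≠ 0 := hβ.ne_zero hb0
  have hδ0 : δ ≠ 0 := by rintro rfl; rw [zero_pow hn] at hδ; exact hγ hδ.symm
  have hδ' : algebraMap K F δ ≠ 0 := by simpa using hδ0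
  have h1 := h.div (hβ.pow n) hb
  rw [div_self hb] at h1
  obtain ⟨c, hc, hπc, h2⟩ := exists_one_of_isRed h1 ht0 hπt
  refine ⟨c, hc, hπc, β / algebraMap K F δ, div_ne_zero hβ0 hδ', ?_⟩
  convert h2 using 1
  rw [← hδ, map_pow, div_pow]
  field_simp

end Abstract

section Phi

variable {k : Type*} [Field k] {A : ValuationSubring Qb} {π : A →+* k} {M q : ℕ} [NeZero M]
  [NeZero q] [hqf : Fact q.Prime] {hA : A.LiesOverPrime q} {hπ : ∀ a : A, π a = 0 ↔ ¬ IsUnit a}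
  {hs : Function.Surjective π} {hM : ¬ q ∣ M}

theorem exists_prod_twist' (hA : A.LiesOverPrime q) (hπ : ∀ a : A, π a = 0 ↔ ¬ IsUnit a) {t : A}
    (ht0 : t ≠ 0) (hπt : π t = 0) (ht : TDvd q t) {c : A} {y : LaurentSeries Qb}
    (hy : y ∈ gaussS π)
    (s : Finset (RU q)) : ∃ g ∈ gaussS π,
      ∏ ζ ∈ s, twist (ζ : Qbˣ) (1 + algebraMap Qb (LaurentSeries Qb) (c : Qb) * y) =
      (1 + algebraMap Qb (LaurentSeries Qb) (c : Qb) * y) ^ s.card +
        algebraMap Qb (LaurentSeries Qb) ((t * c : A) : Qb) * g := by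
  classical
  set f : LaurentSeries Qb := 1 + algebraMap Qb (LaurentSeries Qb) (c : Qb) * y with hf
  have htc : algebraMap Qb (LaurentSeries Qb) ((t * c : A) : Qb) =
      algebraMap Qb (LaurentSeries Qb) t * algebraMap Qb (LaurentSeries Qb) c := by
    rw [← map_mul]; rfl
  have hcS : algebraMap Qb (LaurentSeries Qb) (c : Qb) ∈ gaussS π := algebraMap_mem_gaussS c
  have hfS : f ∈ gaussS π := add_mem (one_mem _) (mul_mem hcS hy)
  have htwc : ∀ ζ : RU q, twist (ζ : Qbˣ) (algebraMap Qb (LaurentSeries Qb) (c : Qb)) =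
      algebraMap Qb (LaurentSeries Qb) (c : Qb) := by
    intro ζ
    ext n
    rw [twist_coeff, algebraMap_laurentSeries_eq_single, HahnSeries.coeff_single]
    split_ifs with hn
    · rw [hn]; simp
    · simp
  induction s using Finset.induction_on with
  | empty => exact ⟨0, zero_mem _, by simp⟩
  | insert ζ s hζ ih =>
    obtain ⟨g, hg, h⟩ := ih
    obtain ⟨g', hg', h'⟩ := exists_twist_root hA hπ ht0 hπt ht ζ hy
    have h'' : twist (ζ : Qbˣ) f = f + algebraMap Qb (LaurentSeries Qb) ((t * c : A) : Qb) * g' := by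
      rw [hf, map_add, map_one, map_mul, htwc, h', htc]
      ring
    refine ⟨f * g + g' * f ^ s.card +
      algebraMap Qb (LaurentSeries Qb) ((t * c : A) : Qb) * (g' * g),
      add_mem (add_mem (mul_mem hfS hg) (mul_mem hg' (pow_mem hfS _)))
        (mul_mem (algebraMap_mem_gaussS (t * c)) (mul_mem hg' hg)), ?_⟩
    rw [Finset.prod_insert hζ, h, h'', Finset.card_insert_of_notMem hζ, pow_succ]
    ring

/-- **contraction** -/
theorem one_Phi' {t c c' : A} (ht0 : t ≠ 0) (hπt : π t = 0) (ht : TDvd q t) (htq : t ∣ (q : A))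
    (hc' : c' ≠ 0) (h1 : c' ∣ t * c) (h2 : c' ∣ c ^ q) {v : FB (M * q)} (hv0 : v ≠ 0)
    (hv : One (rInf1 M q hA hπ hs hM) c v) :
    One (rInf1 M q hA hπ hs hM) c' (Phi hM v) := by
  obtain ⟨y, hy, rfl⟩ := hv
  set v : FB (M * q) := 1 + algebraMap Qb (FB (M * q)) (c : Qb) * y with hv
  have hyS := gaussS_of_mem hy
  obtain ⟨g, hg, h3⟩ := exists_prod_twist' hA hπ ht0 hπt ht (c := c) hyS Finset.univ
  have ev : (v : LaurentSeries Qb) =
      1 + algebraMap Qb (LaurentSeries Qb) (c : Qb) * (y : LaurentSeries Qb) := rfl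
  rw [← ev, ← qExpand_Phi (hM := hM) hv0, Finset.card_univ, card_RU] at h3
  -- the `q`-th power
  obtain ⟨r, hr⟩ := exists_add_pow_prime_eq hqf.out (1 : gaussS π)
    (⟨algebraMap Qb (LaurentSeries Qb) (c : Qb), algebraMap_mem_gaussS c⟩ * ⟨_, hyS⟩)
  have hr' := congrArg Subtype.val hr
  push_cast at hr'
  rw [one_pow, mul_one] at hr'
  obtain ⟨e, he⟩ := htq
  obtain ⟨e1, he1⟩ := h1
  obtain ⟨e2, he2⟩ := h2
  have hcL : algebraMap Qb (LaurentSeries Qb) (c' : Qb) ≠ 0 := by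
    rw [Ne, map_eq_zero]; exact fun h => hc' (Subtype.ext h)
  have hcF : algebraMap Qb (FB (M * q)) (c' : Qb) ≠ 0 := by
    rw [Ne, map_eq_zero]; exact fun h => hc' (Subtype.ext h)
  have eq1 : (q : LaurentSeries Qb) * algebraMap Qb (LaurentSeries Qb) (c : Qb) =
      algebraMap Qb (LaurentSeries Qb) (c' : Qb) *
        algebraMap Qb (LaurentSeries Qb) ((e1 * e : A) : Qb) := by
    have h4 : (q : A) * c = c' * (e1 * e) := by
      rw [he, mul_right_comm, he1]; ring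
    have h5 : (q : Qb) * (c : Qb) = (c' : Qb) * ((e1 * e : A) : Qb) := congrArg Subtype.val h4
    have h6 := congrArg (algebraMap Qb (LaurentSeries Qb)) h5
    rw [map_mul, map_mul, map_natCast] at h6
    exact h6
  have eq2 : algebraMap Qb (LaurentSeries Qb) (c : Qb) ^ q =
      algebraMap Qb (LaurentSeries Qb) (c' : Qb) * algebraMap Qb (LaurentSeries Qb) (e2 : Qb) := by
    rw [← map_pow, ← map_mul]
    congr 1
    exact congrArg Subtype.val he2
  have eq3 : algebraMap Qb (LaurentSeries Qb) ((t * c : A) : Qb) =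
      algebraMap Qb (LaurentSeries Qb) (c' : Qb) * algebraMap Qb (LaurentSeries Qb) (e1 : Qb) := by
    rw [he1, ← map_mul]
    rfl
  set y' : FB (M * q) := (Phi hM v - 1) / algebraMap Qb (FB (M * q)) (c' : Qb) with hy'
  have e2' : qExpand Qb q (y' : LaurentSeries Qb) =
      algebraMap Qb (LaurentSeries Qb) (e2 : Qb) * (y : LaurentSeries Qb) ^ q +
      algebraMap Qb (LaurentSeries Qb) ((e1 * e : A) : Qb) * ((y : LaurentSeries Qb) * (r : LaurentSeries Qb)) +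
      algebraMap Qb (LaurentSeries Qb) (e1 : Qb) * g := by
    have e3 : (y' : LaurentSeries Qb) = ((Phi hM v : FB (M * q)) - 1 : LaurentSeries Qb) /
        algebraMap Qb (LaurentSeries Qb) (c' : Qb) := by
      rw [hy', IntermediateField.coe_div]
      rfl
    rw [e3, map_div₀, map_sub, map_one, h3, ev, hr', qExpand_algebraMap, eq3, mul_pow, eq2,
      div_eq_iff hcL]
    linear_combination ((y : LaurentSeries Qb) * (r : LaurentSeries Qb)) * eq1
  refine ⟨y', mem_rInf1_of_qExpand ?_, ?_⟩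
  · rw [e2']
    refine add_mem (add_mem (mul_mem (algebraMap_mem_gaussS e2) (pow_mem hyS _))
      (mul_mem (algebraMap_mem_gaussS (e1 * e)) (mul_mem hyS r.2)))
      (mul_mem (algebraMap_mem_gaussS e1) hg)
  · rw [hy', mul_div_cancel₀ _ hcF]
    ring

theorem Phi_pow (u : FB (M * q)) (n : ℕ) : Phi hM (u ^ n) = Phi hM u ^ n := by
  induction n with
  | zero => rw [pow_zero, pow_zero, Phi_one]
  | succ n ih => rw [pow_succ, pow_succ, Phi_mul, ih]

/-- one step of the contraction -/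
theorem nearC_step {t c c' : A} (ht0 : t ≠ 0) (hπt : π t = 0) (ht : TDvd q t)
    (htq : t ∣ (q : A)) (hc' : c' ≠ 0) (hπc' : π c' = 0) (h1 : c' ∣ t * c) (h2 : c' ∣ c ^ q)
    {n : ℕ} {f : FB (M * q)} (hf : f ≠ 0) {h : FB M} (hh : h ^ n = normAlong (al1 M q) f)
    (hn : n ≠ 0) (hw : NearC (rInf1 M q hA hπ hs hM) n c (w1 hqf.out hM f)) :
    NearC (rInf1 M q hA hπ hs hM) n c' f := by
  obtain ⟨u, hu0, hu⟩ := hw
  have hw0 : w1 hqf.out hM f ≠ 0 := by rw [Ne, map_eq_zero]; exact hf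
  set v : FB (M * q) := w1 hqf.out hM f / u ^ n with hv
  have hv0 : v ≠ 0 := div_ne_zero hw0 (pow_ne_zero _ hu0)
  have h3 := one_Phi' (hM := hM) ht0 hπt ht htq hc' h1 h2 hv0 hu
  have h4 := h3.inv hπc'
  have h5 := al1_norm_eq (hM := hM) hf
  have hwv : w1 hqf.out hM f = u ^ n * v := by
    rw [hv, mul_div_cancel₀ _ (pow_ne_zero _ hu0)]
  have hPu := Phi_ne_zero (hM := hM) hu0
  have hPv := Phi_ne_zero (hM := hM) hv0
  rw [← hh, map_pow, hwv, Phi_mul, Phi_pow] at h5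
  have hh0 : al1 M q h ≠ 0 := by
    intro h6
    rw [h6, zero_pow hn] at h5
    exact mul_ne_zero hf (mul_ne_zero (pow_ne_zero _ hPu) hPv) h5.symm
  refine ⟨al1 M q h / Phi hM u, div_ne_zero hh0 hPu, ?_⟩
  have h7 : f / (al1 M q h / Phi hM u) ^ n = (Phi hM v)⁻¹ := by
    rw [div_pow, h5]
    field_simp
  rw [h7]
  exact h4

/-- **the contraction argument** -/
theorem nearC_all {n : ℕ} (hn : n ≠ 0) {f : FB (M * q)} (hf : f ≠ 0) {h₁ h₂ : FB M}
    (hh₁ : h₁ ^ n = normAlong (al1 M q) f)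
    (hh₂ : h₂ ^ n = normAlong (al1 M q) (w1 hqf.out hM f)) {c₁ c₂ : A} (hc₁ : c₁ ≠ 0)
    (hc₂ : c₂ ≠ 0) (hπ₁ : π c₁ = 0) (hπ₂ : π c₂ = 0)
    (hf₁ : NearC (rInf1 M q hA hπ hs hM) n c₁ f)
    (hf₂ : NearC (rInf1 M q hA hπ hs hM) n c₂ (w1 hqf.out hM f)) (ε : A) (hε : ε ≠ 0) :
    NearC (rInf1 M q hA hπ hs hM) n ε f ∧
      NearC (rInf1 M q hA hπ hs hM) n ε (w1 hqf.out hM f) := by
  obtain ⟨t, ht0, hπt, htq, ht, -⟩ := exists_t (q := q) hA hπ
  obtain ⟨d₁, hd₁, h1, h2⟩ := exists_dvd c₁ c₂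
  obtain ⟨d, hd, h3, h4⟩ := exists_dvd d₁ t
  have hd0 : d ≠ 0 := by
    rcases hd with rfl | rfl
    · rcases hd₁ with rfl | rfl
      · exact hc₁
      · exact hc₂
    · exact ht0
  have hπd : π d = 0 := by
    rcases hd with rfl | rfl
    · rcases hd₁ with rfl | rfl
      · exact hπ₁
      · exact hπ₂
    · exact hπt
  have hw0 : w1 hqf.out hM f ≠ 0 := by rw [Ne, map_eq_zero]; exact hf
  have key : ∀ j : ℕ, NearC (rInf1 M q hA hπ hs hM) n (d ^ (j + 1)) f ∧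
      NearC (rInf1 M q hA hπ hs hM) n (d ^ (j + 1)) (w1 hqf.out hM f) := by
    intro j
    induction j with
    | zero =>
      rw [zero_add, pow_one]
      exact ⟨hf₁.mono (h3.trans h1), hf₂.mono (h3.trans h2)⟩
    | succ j ih =>
      have e1 : d ^ (j + 1 + 1) ∣ t * d ^ (j + 1) := by
        rw [pow_succ, mul_comm]
        exact mul_dvd_mul_right h4 _
      have e2 : d ^ (j + 1 + 1) ∣ (d ^ (j + 1)) ^ q := by
        rw [← pow_mul]
        refine pow_dvd_pow _ ?_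
        have := hqf.out.two_le
        nlinarith
      have hπd' : π (d ^ (j + 1 + 1)) = 0 := by rw [map_pow, hπd, zero_pow (by omega)]
      refine ⟨nearC_step ht0 hπt ht htq (pow_ne_zero _ hd0) hπd' e1 e2 hf hh₁ hn ih.2, ?_⟩
      refine nearC_step ht0 hπt ht htq (pow_ne_zero _ hd0) hπd' e1 e2 hw0 hh₂ hn ?_
      rw [w1_w1]
      exact ih.1
  have hdu : ¬ IsUnit d := (hπ d).1 hπd
  obtain ⟨N, hN⟩ := isArch_of_liesOverPrime hA d hdu ((ε : Qb)⁻¹)
  have hdvd : ε ∣ d ^ (N + 1) := by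
    refine Dvd.dvd.trans ?_ (pow_dvd_pow d (Nat.le_succ N))
    refine ⟨⟨_, hN⟩, Subtype.ext ?_⟩
    have hε' : (ε : Qb) ≠ 0 := fun h => hε (Subtype.ext h)
    change (d : Qb) ^ N = (ε : Qb) * ((ε : Qb)⁻¹ * (d : Qb) ^ N)
    rw [mul_inv_cancel_left₀ hε']
  exact ⟨(key N).1.mono hdvd, (key N).2.mono hdvd⟩

theorem nearC_zero_of_w1 {n : ℕ} {ε : A} {f : FB (M * q)}
    (h : NearC (rInf1 M q hA hπ hs hM) n ε (w1 hqf.out hM f)) :
    NearC (rZero1 M q hA hπ hs hM) n ε f := by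
  obtain ⟨g, hg, y, hy, h1⟩ := h
  refine ⟨w1 hqf.out hM g, by rw [Ne, map_eq_zero]; exact hg, w1 hqf.out hM y, ?_, ?_⟩
  · rw [mem_rZero1, w1_w1]; exact hy
  · apply (w1 (M := M) hqf.out hM).injective
    rw [map_div₀, map_pow, w1_w1, h1, map_add, map_one, map_mul, AlgEquiv.commutes, w1_w1]

/-- **toric classes killed by both traces are nearly powers on both components** -/
theorem nearC_of_isToric [CharP k q] {n : ℕ} (hn : n ≠ 0) {x : JZero (M * q)}
    {b₁ b₂ : modularFunctionFieldFullC k M} {D : Divisor.degZero (K := Qb) (F := FB (M * q))}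
    {y : FB (M * q)} {γ₁ γ₂ : Qb} (hx : Pic0.mk D = x) (hy : y ≠ 0)
    (hdiv : ∀ P, (n : ℤ) * (D : Divisor Qb (FB (M * q))) P = P.ord y) (hγ₁ : γ₁ ≠ 0)
    (hγ₂ : γ₂ ≠ 0) (hb₁ : b₁ ^ n ≠ 0) (hb₂ : b₂ ^ n ≠ 0)
    (h1 : (rInf1 M q hA hπ hs hM).IsRed (algebraMap Qb (FB (M * q)) γ₁ * y) (b₁ ^ n))
    (h2 : (rZero1 M q hA hπ hs hM).IsRed (algebraMap Qb (FB (M * q)) γ₂ * y) (b₂ ^ n))
    (hα : trA M q x = 0) (hβ : trB M q x = 0) (ε : A) (hε : ε ≠ 0) :
    NearC (rInf1 M q hA hπ hs hM) n ε y ∧ NearC (rZero1 M q hA hπ hs hM) n ε y := by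
  obtain ⟨t, ht0, hπt, -⟩ := exists_t (q := q) hA hπ
  obtain ⟨c₁, hc₁, hπ₁, h3⟩ := nearC_of_isRed hn hγ₁ hb₁ h1 ht0 hπt
  have h2' : (rInf1 M q hA hπ hs hM).IsRed (algebraMap Qb (FB (M * q)) γ₂ * w1 hqf.out hM y)
      (b₂ ^ n) := by
    rw [isRed_rZero1, map_mul, AlgEquiv.commutes] at h2
    exact h2
  obtain ⟨c₂, hc₂, hπ₂, h4⟩ := nearC_of_isRed hn hγ₂ hb₂ h2' ht0 hπt
  obtain ⟨g₁, hg₁⟩ : ∃ g : FB M, g ^ n = normAlong (al1 M q) y := by
    rw [← hx, trA_mk, Red.pic0_mk_eq_zero, coe_degZeroPush] at hα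
    exact exists_norm_root _ _ (finiteAlong _) (nInputs.norm _ _ _ _) hn hα hy hdiv
  obtain ⟨g₂, hg₂⟩ : ∃ g : FB M, g ^ n = normAlong (al1 M q) (w1 hqf.out hM y) := by
    rw [← hx, trB_mk, Red.pic0_mk_eq_zero, coe_degZeroPush] at hβ
    obtain ⟨g, hg⟩ := exists_norm_root _ _ (finiteAlong _) (nInputs.norm _ _ _ _) hn hβ hy hdiv
    exact ⟨g, by rw [← norm_be1_eq]; exact hg⟩
  obtain ⟨h5, h6⟩ := nearC_all hn hy hg₁ hg₂ hc₁ hc₂ hπ₁ hπ₂ h3 h4 ε hε
  exact ⟨h5, nearC_zero_of_w1 h6⟩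

end Phi

end Fermat.Agent.OrdP
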