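import Fermat.Agent.OrdP.Match
import Fermat.Agent.QComp.TwoLevel

/-!
# Riemann-Roch count for a Kummer extension in which both components split
-/

set_option autoImplicit false
set_option linter.unusedSectionVars false
set_option linter.style.haveILetI false

open AlgebraicCurve IntermediateField Module

namespace Fermat.Agent.OrdP

open Fermat.Agent.FF Fermat.Agent.Red Fermat.Agent.QComp Fermat.Agent.QVal

variable {K k : Type*} [Field K] [Field k] {A : ValuationSubring K} {π : A →+* k}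
  {F L κ : Type*} [Field F] [Algebra K F] [Field κ] [Algebra k κ]
  [Field L] [Algebra F L] [Algebra K L] [IsScalarTower K F L]

section Kum

/-- Kummer data: a basis of `L` over `F` of `n`-th roots of functions with divisors divisible
by `n`. -/
structure KumBasis {ι : Type*} (n : ℕ) (X : ι → L) (y : ι → F) (D : ι → Divisor K F) : Prop where
  n0 : n ≠ 0
  indep : LinearIndependent F X
  pow : ∀ i, X i ^ n = algebraMap F L (y i)
  ne : ∀ i, y i ≠ 0
  deg : ∀ i, Divisor.degree (D i) = 0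
  div : ∀ i P, (n : ℤ) * D i P = P.ord (y i)

variable {ι : Type*} {n : ℕ} {X : ι → L} {y : ι → F} {D : ι → Divisor K F}

variable [IsAlgClosed K] [IsFnField K F]

variable (X D) in
/-- the map whose range is the space of sections -/
noncomputable def secMap [Fintype ι] (x : F) (m : ℕ) :
    ((i : ι) → riemannRochSpace (D i + m • RR.poleDiv (K := K) x)) →ₗ[K] L :=
  ∑ i, (LinearMap.mulRight K (X i)) ∘ₗ (IsScalarTower.toAlgHom K F L).toLinearMap ∘ₗ
      Submodule.subtype _ ∘ₗ LinearMap.proj i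

theorem secMap_apply [Fintype ι] (x : F) (m : ℕ)
    (u : (i : ι) → riemannRochSpace (D i + m • RR.poleDiv (K := K) x)) :
    secMap X D x m u = ∑ i, algebraMap F L (u i) * X i := by
  simp [secMap]

theorem KumBasis.secMap_injective [Fintype ι] (Q : KumBasis n X y D) (x : F) (m : ℕ) :
    Function.Injective (secMap X D x m) := by
  rw [← LinearMap.ker_eq_bot, LinearMap.ker_eq_bot']
  intro u hu
  rw [secMap_apply] at hu
  have h1 : ∑ i, ((u i : F)) • X i = 0 := by
    rw [← hu]
    exact Finset.sum_congr rfl fun i _ => Algebra.smul_def _ _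
  funext i
  exact Subtype.ext (Fintype.linearIndependent_iff.1 Q.indep _ h1 i)

variable [CharZero K] [IsFnField K L]

theorem mem_Lm_of_pow {z v : L} {n m : ℕ} (hn : n ≠ 0)
    (h : v ^ n ∈ riemannRochSpace ((n * m) • RR.poleDiv (K := K) z)) :
    v ∈ riemannRochSpace (m • RR.poleDiv (K := K) z) := by
  have h1 := mem_add_Lm_iff (K := K) (x := z) (D := 0) hn (one_ne_zero (α := L)) (by
    rw [smul_zero]; ext P; rw [RR.divOf_apply, P.ord_one]; rfl) (m := m) (u := v)
  rw [zero_add, mul_one] at h1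
  exact h1.2 h

theorem KumBasis.range_le [Fintype ι] (Q : KumBasis n X y D) {x : F} (hx : Transcendental K x)
    (m : ℕ) : LinearMap.range (secMap X D x m) ≤
      riemannRochSpace (m • RR.poleDiv (K := K) (algebraMap F L x)) := by
  rintro _ ⟨u, rfl⟩
  rw [secMap_apply]
  refine Submodule.sum_mem _ fun i _ => mem_Lm_of_pow Q.n0 ?_
  have h1 : n • D i = RR.divOf (y i) := by
    ext P
    rw [Finsupp.smul_apply, nsmul_eq_mul, RR.divOf_apply, Q.div i P]
  have h2 := (mem_add_Lm_iff Q.n0 (Q.ne i) h1).1 (u i).2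
  rw [mul_pow, Q.pow, ← map_pow, ← map_mul]
  exact QComp.mem_Lm_of_algHom (IsScalarTower.toAlgHom K F L) hx h2

theorem KumBasis.finrank_range [Fintype ι] (Q : KumBasis n X y D) {x : F}
    (hx : Transcendental K x) {m : ℕ} (hm : 2 * genusFF K F ≤ m) :
    (finrank K (LinearMap.range (secMap X D x m)) : ℤ) =
      Fintype.card ι * (m * finrank K⟮x⟯ F + 1 - genusFF K F) := by
  haveI := IsFnField.finiteDimensional hx
  rw [LinearMap.finrank_range_of_inj (Q.secMap_injective x m), Module.finrank_pi_fintype]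
  push_cast
  rw [Finset.sum_congr rfl fun i _ => ell_add_Lm hx (Q.deg i) hm, Finset.sum_const,
    Finset.card_univ, nsmul_eq_mul]

end Kum

section Pairs

variable {G : Type*} [Fintype G] [IsAlgClosed k] [IsFnField k κ]

variable (k G) in
/-- tuples of functions with bounded poles -/
abbrev TupL (xb : κ) (m : ℕ) : Type _ :=
  G ⊕ G → riemannRochSpace (m • RR.poleDiv (K := k) xb)

variable (k G) in
/-- the inclusion of the tuples with bounded poles -/
noncomputable def tupIncl (xb : κ) (m : ℕ) : TupL k G xb m →ₗ[k] (G ⊕ G → κ) :=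
  LinearMap.pi fun j => Submodule.subtype _ ∘ₗ LinearMap.proj j

theorem tupIncl_apply (xb : κ) (m : ℕ) (p : TupL k G xb m) (j : G ⊕ G) :
    tupIncl k G xb m p j = p j := rfl

theorem tupIncl_injective (xb : κ) (m : ℕ) : Function.Injective (tupIncl k G xb m) := by
  intro p p' h
  funext j
  exact Subtype.ext (congrFun h j)

variable [Group G] {S : Type*} [Fintype S]
  {R₁ R₂ : ConstRed A π F κ} {x : F} {xb : κ} (N : Nodes R₁ R₂ x xb xb S)

/-- the gluing conditions on the components of `L` -/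
noncomputable def twG (c : S → G) (m : ℕ) : TupL k G xb m →ₗ[k] (S × G → k) :=
  LinearMap.pi fun s =>
    ((N.e₁ s.1).toLinearMap ∘ₗ inclReg k xb m) ∘ₗ LinearMap.proj (Sum.inl s.2) -
    ((N.e₂ s.1).toLinearMap ∘ₗ inclReg k xb m) ∘ₗ LinearMap.proj (Sum.inr (c s.1 * s.2))

theorem twG_apply (c : S → G) (m : ℕ) (p : TupL k G xb m) (s : S × G) :
    twG N c m p s = N.e₁ s.1 (inclReg k xb m (p (Sum.inl s.2))) -
      N.e₂ s.1 (inclReg k xb m (p (Sum.inr (c s.1 * s.2)))) := rfl

variable [IsAlgClosed K] [CharZero K] [IsFnField K F]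

theorem exists_surj_twG : ∃ m₀ : ℕ, ∀ m, m₀ ≤ m → ∀ c : S → G,
    LinearMap.range (twG N c m) = ⊤ := by
  classical
  obtain ⟨m₀, hm₀⟩ := N.exists_surj
  refine ⟨m₀, fun m hm c => ?_⟩
  rw [LinearMap.range_eq_top]
  intro d
  choose b hb using fun δ : G => hm₀ m hm (fun s => -d (s, (c s)⁻¹ * δ))
  refine ⟨Sum.elim 0 b, ?_⟩
  funext s
  rw [twG_apply]
  change N.e₁ s.1 (inclReg k xb m 0) - N.e₂ s.1 (inclReg k xb m (b (c s.1 * s.2))) = d s
  rw [map_zero, map_zero, hb, zero_sub, neg_neg, inv_mul_cancel_left]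

theorem exists_finrank_ker_twG (T : TwoRed R₁ R₂ x xb xb) :
    ∃ m₀ : ℕ, ∀ m, m₀ ≤ m → ∀ c : S → G,
    (finrank k (LinearMap.ker (twG N c m)) : ℤ) = Fintype.card G * (m * finrank K⟮x⟯ F + 2 -
      2 * genusFF k κ - Fintype.card S) := by
  classical
  obtain ⟨m₀, hm₀⟩ := exists_surj_twG (G := G) N
  refine ⟨m₀ + 2 * genusFF k κ, fun m hm c => ?_⟩
  have h1 := (twG N c m).finrank_range_add_finrank_ker
  rw [hm₀ m (by omega) c, finrank_top, Module.finrank_fintype_fun_eq_card, Fintype.card_prod,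
    Module.finrank_pi_fintype, Finset.sum_const, Finset.card_univ, Fintype.card_sum,
    smul_eq_mul] at h1
  haveI := T.fd1
  have h2 := ell_Lm (K := k) (x := xb) T.t1 (m := m) (by omega)
  rw [T.finrank_eq]
  push_cast
  have h4 : (Fintype.card S : ℤ) * Fintype.card G + finrank k (LinearMap.ker (twG N c m)) =
    (Fintype.card G + Fintype.card G) *
      finrank k (riemannRochSpace (m • RR.poleDiv (K := k) xb)) := by exact_mod_cast h1
  rw [h2] at h4
  linear_combination h4

end Pairs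

namespace Split2

variable {R₁ R₂ : ConstRed A π F κ} {R₁s R₂s : ConstRed A π L κ} {e₁ e₂ : L} {x : F} {xb : κ}
  (H : Split2 R₁ R₂ R₁s R₂s e₁ e₂) [IsAlgClosed K] [CharZero K] [IsAlgClosed k]
  [IsFnField K F] [IsFnField K L] [IsFnField k κ] {S : Type*} [Fintype S]
  [FiniteDimensional F L] [IsGalois F L]
  {ι : Type*} [Fintype ι] {n : ℕ} {X : ι → L} {y : ι → F} {D : ι → Divisor K F}

include H

omit [IsFnField K F] [FiniteDimensional F L] [IsGalois F L] [IsAlgClosed k] [IsFnField k κ] in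
/-- automorphisms preserve the ring `B` -/
theorem apply_mem_Bring [FiniteDimensional K⟮algebraMap F L x⟯ L] (γ : L ≃ₐ[F] L) {b : L}
    (hb : b ∈ Bring K (RS (F := F) R₁s R₂s) (algebraMap F L x)) :
    γ b ∈ Bring K (RS (F := F) R₁s R₂s) (algebraMap F L x) := by
  refine ⟨?_, ?_⟩
  · refine mem_regAlg_of_isIntegral ?_
    exact isIntegral_semi (τ := (γ : L →+* L)) (σ := RingHom.id K) (fun c => by
      change γ (algebraMap K L c) = algebraMap K L c
      rw [IsScalarTower.algebraMap_apply K F L, γ.commutes]) (γ.commutes x)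
      (isIntegral_of_mem_regAlg hb.1)
  · rintro (δ | δ)
    · exact hb.2 (Sum.inl (δ * γ))
    · exact hb.2 (Sum.inr (δ * γ))

/-- **the Riemann-Roch count**: all tuples which are glued lift. -/
theorem exists_lift_of_glue (T : TwoRed R₁ R₂ x xb xb) (hπ : Function.Surjective π)
    (N : Nodes R₁ R₂ x xb xb S) (Q : KumBasis n X y D) (hcard : Fintype.card ι = finrank F L)
    {c : S → (L ≃ₐ[F] L)} (hc : ∀ s, IsMatch R₁s R₂s N s (c s)) :
    ∃ m₀ : ℕ, ∀ m, m₀ ≤ m → ∀ p : TupL k (L ≃ₐ[F] L) xb m,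
      (∀ s γ, N.e₁ s (inclReg k xb m (p (Sum.inl γ))) =
        N.e₂ s (inclReg k xb m (p (Sum.inr (c s * γ))))) →
      ∃ f ∈ riemannRochSpace (m • RR.poleDiv (K := K) (algebraMap F L x)),
        ∀ j, (RS R₁s R₂s j).IsRed f (p j) := by
  classical
  have T' := H.famRed T
  haveI := T'.fd
  have hx : Transcendental K x := Red.transcendental_of_isRed T.r1 T.t1
  obtain ⟨m₁, hm₁⟩ := exists_finrank_ker_twG (G := (L ≃ₐ[F] L)) N T
  refine ⟨m₁ + 2 * genusFF K F, fun m hm p hp => ?_⟩
  set V := LinearMap.range (secMap X D x m) with hV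
  have hVL := Q.range_le hx m
  obtain ⟨h1, h2⟩ := T'.redSub_finrank hπ V
  set E : Submodule k (TupL k (L ≃ₐ[F] L) xb m) :=
    (redSubF (RS R₁s R₂s) hπ V).comap (tupIncl k (L ≃ₐ[F] L) xb m) with hE
  have hle : redSubF (RS R₁s R₂s) hπ V ≤ LinearMap.range (tupIncl k (L ≃ₐ[F] L) xb m) := by
    rintro b ⟨u, hu, hub⟩
    exact ⟨fun j => ⟨b j, T'.mem_Lm j (hVL hu) (fun i => (hub i).mem) (hub j)⟩, rfl⟩
  have hEr : finrank k E = finrank K V := by
    rw [← h2, ← LinearMap.finrank_range_of_inj (f := (tupIncl k (L ≃ₐ[F] L) xb m).domRestrict E)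
      ((tupIncl_injective xb m).comp Subtype.val_injective),
      LinearMap.range_domRestrict, Submodule.map_comap_eq_of_le hle]
  have hEk : E ≤ LinearMap.ker (twG N c m) := by
    rintro b ⟨u, hu, hub⟩
    rw [LinearMap.mem_ker]
    funext s
    rw [twG_apply, Pi.zero_apply, sub_eq_zero]
    have huB : u ∈ Bring K (RS (F := F) R₁s R₂s) (algebraMap F L x) :=
      ⟨mem_regAlg_of_mem_Lm (hVL hu), fun j => (hub j).mem⟩
    exact hc s.1 (s.2 u) (H.apply_mem_Bring s.2 huB) _ _ (hub (Sum.inl s.2))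
      (hub (Sum.inr (c s.1 * s.2)))
  have hEq : E = LinearMap.ker (twG N c m) := by
    refine Submodule.eq_of_le_of_finrank_le hEk ?_
    have h3 := hm₁ m (by omega) c
    have h4 := Q.finrank_range hx (m := m) (by omega)
    have h5 : (Fintype.card ι : ℤ) = Fintype.card (L ≃ₐ[F] L) := by
      rw [hcard, ← IsGalois.card_aut_eq_finrank, Nat.card_eq_fintype_card]
    have h6 := N.card
    have h7 : (finrank k (LinearMap.ker (twG N c m)) : ℤ) ≤ finrank k E := by
      rw [hEr, h3, h4, h5]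
      refine mul_le_mul_of_nonneg_left ?_ (by positivity)
      omega
    exact_mod_cast h7
  have hpE : p ∈ E := by
    rw [hEq, LinearMap.mem_ker]
    funext s
    rw [twG_apply, Pi.zero_apply, sub_eq_zero]
    exact hp s.1 s.2
  obtain ⟨u, hu, hub⟩ := hpE
  exact ⟨u, hVL hu, hub⟩

end Split2

end Fermat.Agent.OrdP
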