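import Fermat.Agent.QComp.TwoShift
import Fermat.Agent.QComp.Over

/-!
# Extending constant reductions to extensions in which the ground field is dense
-/

set_option autoImplicit false
set_option linter.unusedSectionVars false
set_option linter.style.haveILetI false
set_option linter.unusedVariables false

noncomputable section

namespace Fermat.Agent.OrdP

open Fermat.Agent.Red Fermat.Agent.QComp

variable {K k : Type*} [Field K] [Field k] {A : ValuationSubring K} {π : A →+* k}
  {F κ L : Type*} [Field F] [Algebra K F] [Field κ] [Algebra k κ] [Field L] [Algebra K L]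
  [Algebra F L] [IsScalarTower K F L] {R : ConstRed A π F κ}

/-- the valuation ring `V` of `L` lies over the one of the reduction `R` -/
def Above (R : ConstRed A π F κ) (V : ValuationSubring L) : Prop :=
  ∀ a : F, algebraMap F L a ∈ V ↔ a ∈ R.O

variable (A F) in
/-- `ℓ` is in the closure of `F` -/
def Cl (V : ValuationSubring L) (ℓ : L) : Prop :=
  ∀ ε : A, ε ≠ 0 → ∃ h : F, ∃ v ∈ V, ℓ = algebraMap F L h + algebraMap K L ε * v

theorem exists_above (R : ConstRed A π F κ) : ∃ V : ValuationSubring L, Above R V := by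
  set φ := algebraMap F L with hφ
  let e : R.O.toSubring ≃+* R.O.toSubring.map φ :=
    R.O.toSubring.equivMapOfInjective φ φ.injective
  let P : Ideal (R.O.toSubring.map φ) :=
    Ideal.comap (e.symm : R.O.toSubring.map φ →+* R.O.toSubring) (IsLocalRing.maximalIdeal R.O)
  haveI : P.IsPrime := Ideal.IsPrime.comap _
  obtain ⟨V, hV1, hV2⟩ := exists_valuationSubring_of_prime (R.O.toSubring.map φ) P
  have h1 : ∀ a : F, a ∈ R.O → φ a ∈ V := fun a ha => hV1 ⟨a, ha, rfl⟩
  refine ⟨V, fun a => ⟨fun h => ?_, h1 a⟩⟩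
  by_contra ha
  have ha0 : a ≠ 0 := by rintro rfl; exact ha (zero_mem _)
  have h2 : a⁻¹ ∈ R.O := (R.O.mem_or_inv_mem a).resolve_left ha
  have h3 : ((e ⟨a⁻¹, h2⟩ : R.O.toSubring.map φ) : L) ∈ V.nonunits := by
    rw [hV2]
    change e.symm (e _) ∈ IsLocalRing.maximalIdeal R.O
    rw [RingEquiv.symm_apply_apply]
    change (⟨a⁻¹, h2⟩ : R.O) ∈ _
    rw [IsLocalRing.mem_maximalIdeal, mem_nonunits_iff]
    intro hu
    obtain ⟨b, hb⟩ := hu.exists_right_inv
    have hb' : a⁻¹ * (b : F) = 1 := congrArg Subtype.val hb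
    apply ha
    have : a = b := by
      have h4 := congrArg (fun z => a * z) hb'
      simp only [mul_one] at h4
      rw [← mul_assoc, mul_inv_cancel₀ ha0, one_mul] at h4
      exact h4.symm
    rw [this]
    exact b.2
  have h4 : ((e ⟨a⁻¹, h2⟩ : R.O.toSubring.map φ) : L) = φ a⁻¹ := rfl
  rw [h4, ValuationSubring.mem_nonunits_iff_or, map_inv₀, inv_inv] at h3
  rcases h3 with h3 | h3
  · exact ha0 (by simpa using h3)
  · exact h3 h

namespace Above

variable {V : ValuationSubring L} (hV : Above R V)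

include hV in
theorem alg (a : K) : algebraMap K L a ∈ V ↔ a ∈ A := by
  rw [IsScalarTower.algebraMap_apply K F L, hV, R.algebraMap_mem_iff]

include hV in
theorem nonunit_alg {a : A} (ha : ¬ IsUnit a) : algebraMap K L a ∈ V.nonunits := by
  rw [ValuationSubring.mem_nonunits_iff_or]
  by_cases h0 : a = 0
  · left; rw [h0]; simp
  · right
    intro h
    rw [← map_inv₀, hV.alg] at h
    apply ha
    have ha0 : (a : K) ≠ 0 := fun h => h0 (Subtype.ext h)
    exact IsUnit.of_mul_eq_one ⟨_, h⟩ (Subtype.ext (mul_inv_cancel₀ ha0))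

include hV in
theorem nonunit_F {a : F} : algebraMap F L a ∈ V.nonunits ↔ a ∈ R.O.nonunits := by
  rw [ValuationSubring.mem_nonunits_iff_or, ValuationSubring.mem_nonunits_iff_or, ← map_inv₀, hV,
    map_eq_zero]

/-- scaling elements of `F` into `O` by nonzero elements of `A` -/
theorem exists_scale_mem (R : ConstRed A π F κ) (f : F) :
    ∃ c : A, c ≠ 0 ∧ algebraMap K F c * f ∈ R.O := by
  by_cases hf : f = 0
  · exact ⟨1, one_ne_zero, by rw [hf, mul_zero]; exact zero_mem _⟩
  obtain ⟨c, hc, h1, h2⟩ := R.exists_scale f hf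
  rcases A.mem_or_inv_mem c with h | h
  · exact ⟨⟨c, h⟩, fun h0 => hc (congrArg Subtype.val h0), h1⟩
  · refine ⟨1, one_ne_zero, ?_⟩
    have h3 : algebraMap K F ((1 : A) : K) * f = algebraMap K F c⁻¹ * (algebraMap K F c * f) := by
      have hc' : algebraMap K F c ≠ 0 := by simpa using hc
      rw [map_inv₀]
      simp [hc']
    rw [h3]
    exact mul_mem ((R.algebraMap_mem_iff _).2 h) h1

end Above

namespace Cl

variable {V : ValuationSubring L} (hV : Above R V)

theorem of_F (a : F) : Cl A F V (algebraMap F L a) :=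
  fun ε hε => ⟨a, 0, zero_mem _, by rw [mul_zero, add_zero]⟩

theorem add {a b : L} (ha : Cl A F V a) (hb : Cl A F V b) : Cl A F V (a + b) := by
  intro ε hε
  obtain ⟨h, v, hv, rfl⟩ := ha ε hε
  obtain ⟨h', v', hv', rfl⟩ := hb ε hε
  exact ⟨h + h', v + v', add_mem hv hv', by rw [map_add]; ring⟩

theorem zero : Cl A F V (0 : L) := by
  have := of_F (A := A) (F := F) (V := V) 0
  rwa [map_zero] at this

include hV in
theorem smul (c : F) {a : L} (ha : Cl A F V a) : Cl A F V (algebraMap F L c * a) := by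
  intro ε hε
  obtain ⟨d, hd, hdc⟩ := Above.exists_scale_mem R c
  obtain ⟨h, v, hv, rfl⟩ := ha (ε * d) (mul_ne_zero hε hd)
  refine ⟨c * h, algebraMap F L (algebraMap K F d * c) * v, mul_mem ((hV _).2 hdc) hv, ?_⟩
  rw [map_mul, map_mul, ← IsScalarTower.algebraMap_apply]
  have e1 : algebraMap K L ((ε * d : A) : K) = algebraMap K L ε * algebraMap K L d := by
    rw [← map_mul]; rfl
  rw [e1]
  ring

include hV in
/-- every element of the closure can be scaled into `V` -/
theorem exists_scale_mem {a : L} (ha : Cl A F V a) :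
    ∃ c : A, c ≠ 0 ∧ algebraMap K L c * a ∈ V := by
  obtain ⟨h, v, hv, rfl⟩ := ha 1 one_ne_zero
  obtain ⟨c, hc, hch⟩ := Above.exists_scale_mem R h
  refine ⟨c, hc, ?_⟩
  have e1 : algebraMap K L c * (algebraMap F L h + algebraMap K L ((1 : A) : K) * v) =
      algebraMap F L (algebraMap K F c * h) + algebraMap K L c * v := by
    rw [map_mul, ← IsScalarTower.algebraMap_apply]
    simp [mul_add]
  rw [e1]
  exact add_mem ((hV _).2 hch) (mul_mem ((hV.alg _).2 c.2) hv)

end Cl

section Build

variable {V : ValuationSubring L} (hV : Above R V) (hd : ∀ ℓ : L, Cl A F V ℓ)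
  (hA2 : ∃ c : A, ¬ IsUnit c ∧ c ≠ 0)

/-- `b` is the residue of `ℓ` -/
def Res (R : ConstRed A π F κ) (V : ValuationSubring L) (ℓ : L) (b : κ) : Prop :=
  ∃ h : F, R.IsRed h b ∧ ℓ - algebraMap F L h ∈ V.nonunits

theorem nonunits_add {a b : L} (ha : a ∈ V.nonunits) (hb : b ∈ V.nonunits) :
    a + b ∈ V.nonunits := by
  rw [ValuationSubring.mem_nonunits_iff_exists_mem_maximalIdeal] at ha hb ⊢
  obtain ⟨ha1, ha2⟩ := ha
  obtain ⟨hb1, hb2⟩ := hb
  exact ⟨add_mem ha1 hb1, add_mem ha2 hb2⟩

theorem nonunits_mul {a b : L} (ha : a ∈ V) (hb : b ∈ V.nonunits) :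
    a * b ∈ V.nonunits := by
  rw [ValuationSubring.mem_nonunits_iff_exists_mem_maximalIdeal] at hb ⊢
  obtain ⟨hb1, hb2⟩ := hb
  exact ⟨mul_mem ha hb1, Ideal.mul_mem_left _ ⟨a, ha⟩ hb2⟩

theorem nonunits_neg {a : L} (ha : a ∈ V.nonunits) : -a ∈ V.nonunits := by
  have := nonunits_mul (V := V) (neg_mem (one_mem _)) ha
  rwa [neg_one_mul] at this

theorem mem_of_nonunits {a : L} (ha : a ∈ V.nonunits) : a ∈ V := by
  rw [ValuationSubring.mem_nonunits_iff_exists_mem_maximalIdeal] at ha
  exact ha.1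

theorem zero_mem_nonunits : (0 : L) ∈ V.nonunits := by
  rw [ValuationSubring.mem_nonunits_iff_or]; exact Or.inl rfl

theorem red_eq_zero_of_nonunits {a : F} {b : κ} (h : R.IsRed a b) (ha : a ∈ R.O.nonunits) :
    b = 0 := by
  obtain ⟨h1, rfl⟩ := h
  rw [R.red_eq_zero_iff]
  rw [ValuationSubring.mem_nonunits_iff_exists_mem_maximalIdeal] at ha
  exact (IsLocalRing.mem_maximalIdeal _).1 ha.2

theorem nonunits_of_isRed_zero {a : F} (h : R.IsRed a 0) : a ∈ R.O.nonunits := by
  obtain ⟨h1, h2⟩ := h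
  rw [R.red_eq_zero_iff] at h2
  rw [ValuationSubring.mem_nonunits_iff_exists_mem_maximalIdeal]
  exact ⟨h1, (IsLocalRing.mem_maximalIdeal _).2 h2⟩

include hV in
theorem Res.unique {ℓ : L} {b b' : κ} (h : Res R V ℓ b) (h' : Res R V ℓ b') : b = b' := by
  obtain ⟨g, hg, h1⟩ := h
  obtain ⟨g', hg', h1'⟩ := h'
  have h2 : algebraMap F L (g' - g) ∈ V.nonunits := by
    have h3 := nonunits_add h1 (nonunits_neg h1')
    have e1 : ℓ - algebraMap F L g + -(ℓ - algebraMap F L g') = algebraMap F L (g' - g) := by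
      rw [map_sub]; ring
    rwa [e1] at h3
  rw [hV.nonunit_F] at h2
  have h3 := red_eq_zero_of_nonunits (hg'.sub hg) h2
  exact (sub_eq_zero.1 h3).symm

include hV in
theorem Res.mem {ℓ : L} {b : κ} (h : Res R V ℓ b) : ℓ ∈ V := by
  obtain ⟨g, hg, h1⟩ := h
  have h2 := add_mem (mem_of_nonunits h1) ((hV g).2 hg.mem)
  rwa [sub_add_cancel] at h2

theorem Res.add {ℓ ℓ' : L} {b b' : κ} (h : Res R V ℓ b) (h' : Res R V ℓ' b') :
    Res R V (ℓ + ℓ') (b + b') := by
  obtain ⟨g, hg, h1⟩ := h
  obtain ⟨g', hg', h1'⟩ := h'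
  refine ⟨g + g', hg.add hg', ?_⟩
  have h2 := nonunits_add h1 h1'
  rw [map_add]
  convert h2 using 1
  ring

include hV in
theorem Res.mul {ℓ ℓ' : L} {b b' : κ} (h : Res R V ℓ b) (h' : Res R V ℓ' b') :
    Res R V (ℓ * ℓ') (b * b') := by
  have hm := h.mem hV
  obtain ⟨g, hg, h1⟩ := h
  obtain ⟨g', hg', h1'⟩ := h'
  refine ⟨g * g', hg.mul hg', ?_⟩
  have h2 := nonunits_add (nonunits_mul hm h1') (nonunits_mul ((hV g').2 hg'.mem) h1)
  rw [map_mul]
  convert h2 using 1
  ring

theorem Res.of_F {a : F} {b : κ} (h : R.IsRed a b) : Res R V (algebraMap F L a) b :=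
  ⟨a, h, by rw [sub_self]; exact zero_mem_nonunits⟩

include hV hd hA2 in
theorem exists_res {ℓ : L} (hℓ : ℓ ∈ V) : ∃ b, Res R V ℓ b := by
  obtain ⟨ε, hε, hε0⟩ := hA2
  obtain ⟨h, v, hv, h1⟩ := hd ℓ ε hε0
  have h2 : algebraMap F L h = ℓ - algebraMap K L ε * v := by rw [h1]; ring
  have h3 : algebraMap K L ε * v ∈ V.nonunits := by
    rw [mul_comm]; exact nonunits_mul hv (hV.nonunit_alg hε)
  have h4 : h ∈ R.O := by
    rw [← hV, h2]
    exact sub_mem hℓ (mem_of_nonunits h3)
  refine ⟨_, h, R.isRed_rd h4, ?_⟩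
  have h5 : ℓ - algebraMap F L h = algebraMap K L ε * v := by rw [h1]; ring
  rw [h5]
  exact h3

/-- **The extended constant reduction.** -/
def extRed : ConstRed A π L κ where
  O := V
  algebraMap_mem_iff a := hV.alg a
  red := {
    toFun := fun ℓ => (exists_res hV hd hA2 ℓ.2).choose
    map_one' := by
      have h1 := (exists_res hV hd hA2 (one_mem V)).choose_spec
      have h2 := Res.of_F (V := V) (R.isRed_one)
      rw [map_one] at h2
      exact h1.unique hV h2
    map_mul' := fun x y => by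
      have h1 := (exists_res hV hd hA2 x.2).choose_spec
      have h2 := (exists_res hV hd hA2 y.2).choose_spec
      exact (exists_res hV hd hA2 (mul_mem x.2 y.2)).choose_spec.unique hV (h1.mul hV h2)
    map_zero' := by
      have h1 := (exists_res hV hd hA2 (zero_mem V)).choose_spec
      have h2 := Res.of_F (V := V) (R.isRed_zero)
      rw [map_zero] at h2
      exact h1.unique hV h2
    map_add' := fun x y => by
      have h1 := (exists_res hV hd hA2 x.2).choose_spec
      have h2 := (exists_res hV hd hA2 y.2).choose_spec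
      exact (exists_res hV hd hA2 (add_mem x.2 y.2)).choose_spec.unique hV (h1.add h2) }
  red_surjective := fun b => by
    obtain ⟨a, ha⟩ := R.exists_isRed b
    have h1 := Res.of_F (V := V) ha
    exact ⟨⟨algebraMap F L a, (hV a).2 ha.mem⟩,
      (exists_res hV hd hA2 ((hV a).2 ha.mem)).choose_spec.unique hV h1⟩
  red_eq_zero_iff := fun y => by
    change (exists_res hV hd hA2 y.2).choose = 0 ↔ _
    have h1 := (exists_res hV hd hA2 y.2).choose_spec
    have h2 : ¬ IsUnit y ↔ (y : L) ∈ V.nonunits := by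
      rw [ValuationSubring.mem_nonunits_iff_exists_mem_maximalIdeal]
      exact ⟨fun h => ⟨y.2, (IsLocalRing.mem_maximalIdeal _).2 h⟩,
        fun ⟨h, h'⟩ => (IsLocalRing.mem_maximalIdeal _).1 h'⟩
    rw [h2]
    constructor
    · intro h0
      rw [h0] at h1
      obtain ⟨h, hr, h3⟩ := h1
      have h4 := nonunits_add h3 (hV.nonunit_F.2 (nonunits_of_isRed_zero hr))
      rwa [sub_add_cancel] at h4
    · intro hy
      have h3 : Res R V (y : L) 0 := ⟨0, R.isRed_zero, by rw [map_zero, sub_zero]; exact hy⟩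
      exact h1.unique hV h3
  red_algebraMap := fun a => by
    have h1 := Res.of_F (V := V) (R.isRed_coe a)
    rw [← IsScalarTower.algebraMap_apply] at h1
    exact (exists_res hV hd hA2 ((hV.alg a).2 a.2)).choose_spec.unique hV h1
  exists_scale := fun f hf => by
    obtain ⟨c, hc, hcf⟩ := (hd f⁻¹).exists_scale_mem hV
    obtain ⟨ε, hε, hε0⟩ := hA2
    obtain ⟨h, v, hv, h1⟩ := hd f (c * ε) (mul_ne_zero hc hε0)
    -- `h = f * (1 - ε (c / f) v)`
    have h2 : algebraMap F L h = f * (1 - algebraMap K L ε * (algebraMap K L c * f⁻¹ * v)) := by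
      have e1 : algebraMap K L ((c * ε : A) : K) = algebraMap K L c * algebraMap K L ε := by
        rw [← map_mul]; rfl
      rw [e1] at h1
      have h3 : algebraMap F L h = f - algebraMap K L c * algebraMap K L ε * v := by
        linear_combination -h1
      rw [h3]
      field_simp
    set w := algebraMap K L ε * (algebraMap K L c * f⁻¹ * v) with hw
    have hwV : w ∈ V.nonunits := by
      rw [hw, mul_comm]
      exact nonunits_mul (mul_mem hcf hv) (hV.nonunit_alg hε)
    have h1w : (1 - w) ∈ V := sub_mem (one_mem _) (mem_of_nonunits hwV)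
    have h1w' : (1 - w)⁻¹ ∈ V := by
      by_contra hn
      have h3 : (1 - w) ∈ V.nonunits := by
        rw [ValuationSubring.mem_nonunits_iff_or]; exact Or.inr hn
      have h4 := nonunits_add h3 hwV
      rw [sub_add_cancel, ValuationSubring.mem_nonunits_iff_or] at h4
      rcases h4 with h4 | h4
      · exact one_ne_zero h4
      · exact h4 (by rw [inv_one]; exact one_mem _)
    have h1w0 : (1 - w) ≠ 0 := by
      intro h0
      have h3 : w = 1 := by linear_combination -h0
      rw [h3, ValuationSubring.mem_nonunits_iff_or] at hwV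
      rcases hwV with h4 | h4
      · exact one_ne_zero h4
      · exact h4 (by rw [inv_one]; exact one_mem _)
    have hh0 : h ≠ 0 := by
      rintro rfl
      rw [map_zero] at h2
      exact mul_ne_zero hf h1w0 h2.symm
    obtain ⟨d, hd0, hd1, hd2⟩ := R.exists_scale h hh0
    have hdL : algebraMap K L d ≠ 0 := (map_ne_zero _).2 hd0
    have e2 : algebraMap K L d * f = algebraMap F L (algebraMap K F d * h) * (1 - w)⁻¹ := by
      rw [map_mul, ← IsScalarTower.algebraMap_apply, h2]
      field_simp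
    refine ⟨d, hd0, ?_, ?_⟩
    · rw [e2]
      exact mul_mem ((hV _).2 hd1) h1w'
    · rw [e2, mul_inv, inv_inv, ← map_inv₀]
      exact mul_mem ((hV _).2 hd2) h1w

@[simp] theorem extRed_O : (extRed hV hd hA2).O = V := rfl

theorem isRed_extRed {ℓ : L} {b : κ} : (extRed hV hd hA2).IsRed ℓ b ↔ Res R V ℓ b := by
  constructor
  · rintro ⟨h1, rfl⟩
    exact (exists_res hV hd hA2 h1).choose_spec
  · intro h
    exact ⟨h.mem hV, (exists_res hV hd hA2 (h.mem hV)).choose_spec.unique hV h⟩

theorem extRed_isRed {a : F} {b : κ} (h : R.IsRed a b) :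
    (extRed hV hd hA2).IsRed (algebraMap F L a) b :=
  (isRed_extRed hV hd hA2).2 (Res.of_F h)

end Build

end Fermat.Agent.OrdP
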