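import Fermat.Agent.QComp.TwoKummer
import Mathlib.LinearAlgebra.StdBasis

/-!
# Finite families of constant reductions which are all the components over the Gauss valuation
-/

set_option autoImplicit false
set_option linter.unusedSectionVars false
set_option linter.style.haveILetI false

open AlgebraicCurve IntermediateField
open scoped IntermediateField.algebraAdjoinAdjoin

namespace Fermat.Agent.OrdP

open Fermat.Agent.FF Fermat.Agent.Red Fermat.Agent.QComp

/-! ### Families with independent tuples of reductions -/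

section OrthF

variable {K k : Type*} [Field K] [Field k] {A : ValuationSubring K} {π : A →+* k}
  {L κ : Type*} [Field L] [Algebra K L] [Field κ] [Algebra k κ] {J : Type*}

/-- A family of elements whose tuples of reductions are linearly independent. -/
structure OrthF (R : J → ConstRed A π L κ) {ι : Type*} (y : ι → L) (z : ι → J → κ) : Prop where
  isRed : ∀ i j, (R j).IsRed (y i) (z i j)
  indep : LinearIndependent k z

namespace OrthF

variable {R : J → ConstRed A π L κ} {ι : Type*} {y : ι → L} {z : ι → J → κ} (h : OrthF R y z)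

include h

theorem comp {ι' : Type*} (g : ι' → ι) (hg : Function.Injective g) :
    OrthF R (y ∘ g) (z ∘ g) := ⟨fun i => h.isRed (g i), h.indep.comp g hg⟩

theorem mul_left {e : L} {ε : J → κ} (he : ∀ j, (R j).IsRed e (ε j)) (hε : ∀ j, ε j ≠ 0) :
    OrthF R (fun i => e * y i) (fun i j => ε j * z i j) := by
  refine ⟨fun i j => (he j).mul (h.isRed i j), ?_⟩
  let Φ : (J → κ) →ₗ[k] (J → κ) := LinearMap.pi fun j => LinearMap.mulLeft k (ε j) ∘ₗ
    LinearMap.proj j
  exact h.indep.map' Φ (LinearMap.ker_eq_bot.mpr fun a b hab => funext fun j =>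
    mul_right_injective₀ (hε j) (congrFun hab j))

variable [Fintype ι]

theorem red (a : ι → A) (j : J) : (R j).IsRed (∑ i, algebraMap K L (a i) * y i)
    ((∑ i, π (a i) • z i) j) := by
  have h1 := ConstRed.isRed_sum (R := R j) Finset.univ
    (fun i _ => ((R j).isRed_coe (a i)).mul (h.isRed i j))
  rw [Finset.sum_apply]
  simpa [Algebra.smul_def] using h1

theorem coeff_eq_zero (a : ι → A) (h1 : ∀ j, (R j).IsRed (∑ i, algebraMap K L (a i) * y i) 0)
    (i : ι) : π (a i) = 0 :=
  Fintype.linearIndependent_iff.mp h.indep _ (funext fun j => (h.red a j).unique (h1 j)) i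

omit h [Fintype ι] in
theorem exists_scaling [Fintype ι] (π : A →+* k) (c : ι → K) (hne : ∃ i, c i ≠ 0) :
    ∃ d : K, d ≠ 0 ∧ ∃ a : ι → A, (∀ i, c i = d * a i) ∧ ¬ (∀ i, π (a i) = 0) := by
  classical
  obtain ⟨i, -, hi0, hi⟩ := exists_max A Finset.univ c (by simpa using hne)
  refine ⟨c i, hi0, fun l => ⟨c l / c i, hi l (Finset.mem_univ _)⟩, fun l => ?_, fun h1 => ?_⟩
  · change c l = _ * (c l / _)
    field_simp
  · have h3 := h1 i
    have h4 : (⟨c i / c i, hi i (Finset.mem_univ _)⟩ : A) = 1 := Subtype.ext (div_self hi0)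
    beta_reduce at h3
    rw [h4, map_one] at h3
    exact one_ne_zero h3

theorem mem_of_sum_mem (c : ι → K) (h1 : ∀ j, ∑ i, algebraMap K L (c i) * y i ∈ (R j).O)
    (i : ι) : c i ∈ A := by
  by_cases hne : ∃ i, c i ≠ 0
  swap
  · push Not at hne
    rw [hne i]; exact A.zero_mem
  obtain ⟨d, hd0, a, e1, hnz⟩ := exists_scaling π c hne
  have hdA : d ∈ A := by
    by_contra hd
    apply hnz
    have hdi : d⁻¹ ∈ A := (A.mem_or_inv_mem d).resolve_left hd
    have hu : ¬ IsUnit (⟨d⁻¹, hdi⟩ : A) := by
      intro hu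
      apply hd
      obtain ⟨v, hv⟩ := hu.exists_right_inv
      have hv' : d⁻¹ * (v : K) = 1 := congrArg Subtype.val hv
      have : d = v := by field_simp at hv'; exact hv'.symm
      rw [this]; exact v.2
    have hdF : algebraMap K L d ≠ 0 := by simpa using hd0
    have hS : ∑ i, algebraMap K L (a i) * y i =
        algebraMap K L d⁻¹ * (∑ i, algebraMap K L (c i) * y i) := by
      rw [Finset.mul_sum]
      refine Finset.sum_congr rfl fun i _ => ?_
      rw [e1 i, map_mul, map_inv₀]
      field_simp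
    refine h.coeff_eq_zero a fun j => ?_
    obtain ⟨s₁, hs₁⟩ := (R j).exists_isRed_of_mem (h1 j)
    have h3 := ((R j).isRed_algebraMap hdi).mul hs₁
    rw [((R j).pi_eq_zero_iff _).2 hu, map_zero, zero_mul] at h3
    rwa [hS]
  rw [e1 i]; exact mul_mem hdA (a i).2

theorem linearIndependent : LinearIndependent K y := by
  rw [Fintype.linearIndependent_iff]
  intro c hc
  by_contra hne
  push Not at hne
  obtain ⟨d, hd0, a, e1, hnz⟩ := exists_scaling π c hne
  have hdF : algebraMap K L d ≠ 0 := by simpa using hd0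
  apply hnz
  have hS : ∑ i, algebraMap K L (a i) * y i = 0 := by
    apply mul_left_cancel₀ hdF
    rw [mul_zero, ← hc, Finset.mul_sum]
    refine Finset.sum_congr rfl fun i _ => ?_
    rw [e1 i, Algebra.smul_def, map_mul]
    ring
  refine h.coeff_eq_zero a fun j => ?_
  rw [hS]; exact (R j).isRed_zero

/-- Subspaces of the span of a finite orthonormal family have orthonormal bases. -/
theorem exists_subspace (V : Submodule K L) (hV : V ≤ Submodule.span K (Set.range y)) :
    ∃ (r : ℕ) (v : Fin r → L) (u : Fin r → J → κ), OrthF R v u ∧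
      Submodule.span K (Set.range v) = V := by
  classical
  set Φ : (ι → K) →ₗ[K] L := Fintype.linearCombination K y with hΦ
  set Φk : (ι → k) →ₗ[k] (J → κ) := Fintype.linearCombination k z with hΦk
  obtain ⟨r, v, hv, hspan⟩ := exists_echelon A π (V.comap Φ)
  have hΦv : ∀ j, Φ (fun i => (v j i : K)) = ∑ i, algebraMap K L (v j i) * y i := by
    intro j
    rw [hΦ, Fintype.linearCombination_apply]
    exact Finset.sum_congr rfl fun i _ => Algebra.smul_def _ _
  have hΦkv : ∀ j, Φk (fun i => π (v j i)) = ∑ i, π (v j i) • z i := by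
    intro j
    rw [hΦk, Fintype.linearCombination_apply]
  refine ⟨r, fun j => Φ (fun i => (v j i : K)), fun j => Φk (fun i => π (v j i)), ⟨?_, ?_⟩, ?_⟩
  · intro i j
    rw [hΦv, hΦkv]
    exact h.red _ j
  · exact hv.map' Φk (LinearMap.ker_eq_bot.mpr (by
      rw [hΦk]
      exact linearIndependent_iff_injective_fintypeLinearCombination.mp h.indep))
  · have h1 : Set.range (fun j => Φ (fun i => (v j i : K))) =
        Φ '' (Set.range fun j i => (v j i : K)) := by
      rw [← Set.range_comp]; rfl
    rw [h1, Submodule.span_image, hspan, Submodule.map_comap_eq]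
    rw [inf_eq_right]
    refine hV.trans ?_
    rw [hΦ, Fintype.range_linearCombination]

end OrthF

end OrthF

variable {K k : Type*} [Field K] [Field k] {A : ValuationSubring K} {π : A →+* k}
  {L κ : Type*} [Field L] [Algebra K L] [Field κ] [Algebra k κ] {J : Type*}

/-- the reduction of functions of `x` does not depend on the component -/
theorem isRed_of_gauss {R R' : ConstRed A π L κ} {x : L} {xb : κ} (r : R.IsRed x xb)
    (r' : R'.IsRed x xb) (t : Transcendental k xb) {c : L} (hc : c ∈ K⟮x⟯) {b : κ}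
    (h : R.IsRed c b) : R'.IsRed c b := by
  rcases eq_or_ne c 0 with rfl | hc0
  · rw [h.unique R.isRed_zero]; exact R'.isRed_zero
  obtain ⟨α, hα, p, q, hp, hq, hcpq⟩ := GoodRed.exists_rep r t hc hc0
  have hαA := (mem_O_iff_of_rep r t hp hq hcpq).1 h.mem
  have key : ∀ {R : ConstRed A π L κ}, R.IsRed x xb → R.IsRed c (algebraMap k κ (π ⟨α, hαA⟩) *
      (Polynomial.aeval xb (p.map π) / Polynomial.aeval xb (q.map π))) := by
    intro R r
    rw [hcpq]
    exact (R.isRed_algebraMap hαA).mul
      ((GoodRed.isRed_aeval r p).div (GoodRed.isRed_aeval r q) (GoodRed.aeval_ne_zero t hq))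
  rw [h.unique (key r)]
  exact key r'

/-- A finite family of constant reductions, which are all the components above the Gauss
valuation of `K(x)`. -/
structure FamRed (J : Type*) [Fintype J] (R : J → ConstRed A π L κ) (x : L) (xb : κ) :
    Prop where
  red : ∀ j, (R j).IsRed x xb
  tr : Transcendental k xb
  fd : FiniteDimensional K⟮x⟯ L
  fdb : FiniteDimensional k⟮xb⟯ κ
  finrank_eq : Module.finrank K⟮x⟯ L = Fintype.card J * Module.finrank k⟮xb⟯ κ
  lift : ∀ j b, ∃ f, (R j).IsRed f b ∧ ∀ i, i ≠ j → (R i).IsRed f 0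

namespace FamRed

variable [Fintype J] {R : J → ConstRed A π L κ} {x : L} {xb : κ} (T : FamRed J R x xb)

include T

theorem isRed_iff (i j : J) {c : L} (hc : c ∈ K⟮x⟯) {b : κ} :
    (R i).IsRed c b ↔ (R j).IsRed c b :=
  ⟨isRed_of_gauss (T.red i) (T.red j) T.tr hc, isRed_of_gauss (T.red j) (T.red i) T.tr hc⟩

theorem mem_iff (i j : J) {c : L} (hc : c ∈ K⟮x⟯) : c ∈ (R i).O ↔ c ∈ (R j).O :=
  mem_iff_of_isRed (T.red i) T.tr (T.red j) T.tr hc

/-- the `j`-th constant reduction over `K(x)` -/
def ext (i j : J) : ConstRed (gaussRing (R i) x) (gaussRed (T.red i) T.tr) L κ where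
  O := (R j).O
  algebraMap_mem_iff c := (T.mem_iff i j c.2).symm
  red := (R j).red
  red_surjective := (R j).red_surjective
  red_eq_zero_iff := (R j).red_eq_zero_iff
  red_algebraMap c := by
    obtain ⟨h1, h2⟩ := (T.isRed_iff i j c.1.2).1 ⟨c.2, rfl⟩
    exact h2
  exists_scale f hf := by
    obtain ⟨c, hc, h1, h2⟩ := (R j).exists_scale f hf
    exact ⟨algebraMap K K⟮x⟯ c, by simpa using hc, h1, h2⟩

theorem ext_isRed {i j : J} {f : L} {z : κ} : (T.ext i j).IsRed f z ↔ (R j).IsRed f z := Iff.rfl

/-- lifting tuples of residues -/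
theorem exists_lift (b : J → κ) : ∃ f, ∀ j, (R j).IsRed f (b j) := by
  classical
  choose f hf hf' using fun j => T.lift j (b j)
  refine ⟨∑ j, f j, fun i => ?_⟩
  have h1 := ConstRed.isRed_sum (R := R i) Finset.univ (y := f) (z := fun j => if j = i then b i
    else 0) (fun j _ => by
      by_cases h : j = i
      · subst h
        simpa using hf j
      · rw [if_neg h]
        exact hf' j i (fun h2 => h h2.symm))
  simpa using h1

/-- a basis adapted to all reductions -/
theorem exists_basis (i₀ : J) : ∃ (n : ℕ) (w : Module.Basis (Fin n) K⟮x⟯ L)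
    (z : Fin n → J → κ), OrthF (T.ext i₀) w z := by
  classical
  haveI := T.fd
  haveI := T.fdb
  set wb := Module.finBasis k⟮xb⟯ κ with hwb
  set B : Module.Basis ((_ : J) × Fin (Module.finrank k⟮xb⟯ κ)) k⟮xb⟯ (J → κ) :=
    Pi.basis fun _ => wb with hB
  set B' := B.reindex (Fintype.equivFin _) with hB'
  choose w hw using fun i => T.exists_lift (B' i)
  have h : OrthF (T.ext i₀) w B' := ⟨hw, B'.linearIndependent⟩
  refine ⟨_, basisOfLinearIndependentOfCardEqFinrank' w h.linearIndependent (by
    rw [Fintype.card_fin, T.finrank_eq]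
    simp), B', ?_⟩
  rw [coe_basisOfLinearIndependentOfCardEqFinrank']
  exact h

/-- elements which are integral for all reductions are integral over the Gauss ring. -/
theorem isIntegral_gaussRing (i₀ : J) {f : L} (h1 : ∀ j, f ∈ (R j).O) :
    IsIntegral (gaussRing (R i₀) x) f := by
  classical
  obtain ⟨n, w, z, ho⟩ := T.exists_basis i₀
  have hsum : ∀ j, ∑ i, algebraMap K⟮x⟯ L (Algebra.leftMulMatrix w f i j) * w i = f * w j := by
    intro j
    have h1 := w.sum_repr (f * w j)
    rw [← h1]
    refine Finset.sum_congr rfl fun i _ => ?_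
    rw [Algebra.leftMulMatrix_eq_repr_mul, Algebra.smul_def]
  have hmem : ∀ i j, Algebra.leftMulMatrix w f i j ∈ gaussRing (R i₀) x := by
    intro i j
    have h3 := hsum j
    exact ho.mem_of_sum_mem (fun i => Algebra.leftMulMatrix w f i j) (fun l => by
        rw [h3]; exact mul_mem (h1 l) (ho.isRed j l).mem) i
  set M : Matrix (Fin n) (Fin n) (gaussRing (R i₀) x) := fun i j => ⟨_, hmem i j⟩ with hM
  have hM1 : Algebra.leftMulMatrix w f = M.map (gaussRing (R i₀) x).subtype := rfl
  refine ⟨M.charpoly, M.charpoly_monic, ?_⟩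
  have h3 : (Algebra.leftMulMatrix w f).charpoly =
      M.charpoly.map (gaussRing (R i₀) x).subtype := by
    rw [hM1, Matrix.charpoly_map]
  have h4 : Polynomial.aeval f (Algebra.leftMulMatrix w f).charpoly = 0 := by
    apply Algebra.leftMulMatrix_injective w
    rw [map_zero, ← Polynomial.aeval_algHom_apply]
    exact Matrix.aeval_self_charpoly _
  rw [h3, Polynomial.aeval_def, Polynomial.eval₂_map] at h4
  exact h4

/-- Integral functions in the intersection of the valuation rings satisfy a monic equation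
over `A[x]`. -/
theorem exists_monic (i₀ : J) {f : L} (h1 : ∀ j, f ∈ (R j).O)
    (hf : IsIntegral (Algebra.adjoin K {x}) f) :
    ∃ g : Polynomial (Polynomial A), g.Monic ∧ Polynomial.eval₂ (theta A x) f g = 0 := by
  haveI := T.fd
  have e1 : minpoly K⟮x⟯ f = (minpoly (Algebra.adjoin K {x}) f).map (algebraMap _ K⟮x⟯) :=
    minpoly.isIntegrallyClosed_eq_field_fractions' K⟮x⟯ hf
  have e2 : minpoly K⟮x⟯ f = (minpoly (gaussRing (R i₀) x) f).map (algebraMap _ K⟮x⟯) :=
    minpoly.isIntegrallyClosed_eq_field_fractions' K⟮x⟯ (T.isIntegral_gaussRing i₀ h1)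
  have hlift : (minpoly K⟮x⟯ f).map (algebraMap _ L) ∈ Polynomial.lifts (theta A x) := by
    rw [Polynomial.lifts_iff_coeff_lifts]
    intro i
    obtain ⟨p, hp⟩ := exists_poly x ((minpoly (Algebra.adjoin K {x}) f).coeff i)
    have h1 : ((minpoly K⟮x⟯ f).map (algebraMap _ L)).coeff i = Polynomial.aeval x p := by
      rw [← hp, e1, Polynomial.coeff_map, Polynomial.coeff_map]
      rfl
    have h2 : Polynomial.aeval x p ∈ (R i₀).O := by
      rw [← h1, e2, Polynomial.coeff_map, Polynomial.coeff_map]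
      exact ((minpoly (gaussRing (R i₀) x) f).coeff i).2
    obtain ⟨q, hq⟩ := exists_poly_of_isRed (T.red i₀) T.tr h2
    exact ⟨q, by rw [theta_apply, hq, h1]⟩
  have hmonic : ((minpoly K⟮x⟯ f).map (algebraMap _ L)).Monic :=
    (minpoly.monic (hf.tower_top)).map _
  obtain ⟨r, hr1, -, hr2⟩ := Polynomial.lifts_and_natDegree_eq_and_monic hlift hmonic
  refine ⟨r, hr2, ?_⟩
  rw [← Polynomial.eval_map, hr1, Polynomial.eval_map]
  exact minpoly.aeval K⟮x⟯ f

/-- reductions of integral functions are integral. -/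
theorem isIntegral_red (i₀ : J) {f : L} (h1 : ∀ j, f ∈ (R j).O) {z : κ}
    (h : (R i₀).IsRed f z) (hf : IsIntegral (Algebra.adjoin K {x}) f) :
    IsIntegral (Algebra.adjoin k {xb}) z := by
  obtain ⟨g, hg, h0⟩ := T.exists_monic i₀ h1 hf
  have h1 := isRed_eval₂ (T.red i₀) h g
  rw [h0] at h1
  have h2 : Polynomial.eval₂ (thetak π xb) z g = 0 := h1.unique (R i₀).isRed_zero
  set φ : Polynomial A →+* Algebra.adjoin k {xb} := (thetak π xb).codRestrict
    (Algebra.adjoin k {xb}) (fun q => by
      rw [thetak_apply]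
      exact Polynomial.aeval_mem_adjoin_singleton k xb) with hφ
  refine ⟨g.map φ, hg.map φ, ?_⟩
  rw [Polynomial.eval₂_map]
  exact h2

theorem orthF_pow_mul {i₀ : J} {ι : Type*} {w : ι → L} {z : ι → J → κ}
    (ho : OrthF (T.ext i₀) w z) :
    OrthF R (fun p : ℕ × ι => x ^ p.1 * w p.2) (fun (p : ℕ × ι) j => xb ^ p.1 * z p.2 j) := by
  refine ⟨fun p j => ((T.red j).pow p.1).mul (ho.isRed p.2 j), ?_⟩
  have h1 : LinearIndependent k (fun n : ℕ =>
      (⟨xb ^ n, pow_mem (mem_adjoin_simple_self k xb) n⟩ : k⟮xb⟯)) := by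
    have h2 : LinearIndependent k (fun n : ℕ => xb ^ n) := by
      have hxb := T.tr
      rw [transcendental_iff_injective] at hxb
      have h3 := (Polynomial.basisMonomials k).linearIndependent.map'
        (Polynomial.aeval xb).toLinearMap (LinearMap.ker_eq_bot.mpr hxb)
      rw [Polynomial.coe_basisMonomials] at h3
      have h4 : (⇑(Polynomial.aeval xb).toLinearMap ∘ fun s : ℕ => Polynomial.monomial s (1 : k)) =
          fun n : ℕ => xb ^ n := by
        funext n
        simp [Polynomial.aeval_monomial]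
      rw [h4] at h3
      exact h3
    exact LinearIndependent.of_comp (k⟮xb⟯.val.toLinearMap) h2
  have h2 := linearIndependent_smul h1 ho.indep
  exact h2

theorem exists_orthF_span [Nonempty J] (s : Finset L) :
    ∃ (ι : Type) (_ : Fintype ι) (y : ι → L) (z : ι → J → κ), OrthF R y z ∧
      ∀ f ∈ s, f ∈ Submodule.span K (Set.range y) := by
  classical
  obtain ⟨i₀⟩ := ‹Nonempty J›
  obtain ⟨n, w, z, ho⟩ := T.exists_basis i₀
  -- a common denominator
  obtain ⟨d, hd⟩ := IsLocalization.exist_integer_multiples_of_finset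
    (nonZeroDivisors (Algebra.adjoin K {x}))
    ((s ×ˢ Finset.univ).image fun q : L × Fin n => w.repr q.1 q.2)
  have hd0 : ((d : Algebra.adjoin K {x}) : L) ≠ 0 := by
    simp
  obtain ⟨pd, hpd⟩ := exists_poly x (d : Algebra.adjoin K {x})
  have hpd0 : pd ≠ 0 := by
    rintro rfl
    rw [map_zero] at hpd
    exact hd0 hpd
  obtain ⟨c, hc0, q, hq, hq0⟩ := GoodRed.exists_primitive (A := A) (π := π) pd hpd0
  have hcF : algebraMap K L c ≠ 0 := by simpa using hc0
  have hcd : algebraMap K L c * ((d : Algebra.adjoin K {x}) : L) =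
      Polynomial.aeval x (q.map A.subtype) := by
    rw [hq, map_mul, Polynomial.aeval_C, hpd]
  have hε : ∀ j, (R j).IsRed (algebraMap K L c * ((d : Algebra.adjoin K {x}) : L))
      (Polynomial.aeval xb (q.map π)) := fun j => by
    rw [hcd]
    exact GoodRed.isRed_aeval (T.red j) q
  have hε0 := GoodRed.aeval_ne_zero T.tr hq0
  -- the coordinates, multiplied by the denominator, are polynomials
  have hpoly : ∀ f ∈ s, ∀ i, ∃ p : Polynomial K,
      Polynomial.aeval x p = ((d : Algebra.adjoin K {x}) : L) * ((w.repr f i : K⟮x⟯) : L) := by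
    intro f hf i
    obtain ⟨a, ha⟩ := hd (w.repr f i) (Finset.mem_image.mpr ⟨(f, i),
      Finset.mem_product.mpr ⟨hf, Finset.mem_univ _⟩, rfl⟩)
    obtain ⟨p, hp⟩ := exists_poly x a
    refine ⟨p, ?_⟩
    rw [← hp]
    have h1 := congrArg (fun u : K⟮x⟯ => (u : L)) ha
    simp only [Algebra.smul_def] at h1
    exact h1
  choose! p hp using hpoly
  obtain ⟨N, hN⟩ : ∃ N, ∀ f ∈ s, ∀ i, (p f i).natDegree < N := by
    refine ⟨(s.sup fun f => Finset.univ.sup fun i => (p f i).natDegree) + 1, fun f hf i => ?_⟩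
    refine Nat.lt_succ_of_le (le_trans ?_ (Finset.le_sup
      (f := fun f => Finset.univ.sup fun i => (p f i).natDegree) hf))
    exact Finset.le_sup (f := fun i => (p f i).natDegree) (Finset.mem_univ i)
  have horth' := ((T.orthF_pow_mul ho).mul_left (ε := fun _ => _)
    (fun j => (hε j).inv hε0) (fun _ => inv_ne_zero hε0)).comp
    (fun q : Fin N × Fin n => ((q.1 : ℕ), q.2)) (by
      rintro ⟨a, b⟩ ⟨a', b'⟩ h
      simp only [Prod.mk.injEq] at h
      exact Prod.ext (Fin.ext h.1) h.2)
  refine ⟨Fin N × Fin n, inferInstance, _, _, horth', fun f hf => ?_⟩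
  have key : ∀ i, ((w.repr f i : K⟮x⟯) : L) * w i =
      ∑ j : Fin N, (c * (p f i).coeff j) • ((algebraMap K L c *
        ((d : Algebra.adjoin K {x}) : L))⁻¹ * (x ^ (j : ℕ) * w i)) := by
    intro i
    have h2 : ((w.repr f i : K⟮x⟯) : L) * w i = ((d : Algebra.adjoin K {x}) : L)⁻¹ *
        (Polynomial.aeval x (p f i) * w i) := by
      rw [hp f hf i]
      field_simp
    rw [h2, sum_coeff_mem_span w (p f i) i (hN f hf i), Finset.mul_sum, ← Fin.sum_univ_eq_sum_range
      (fun j => ((d : Algebra.adjoin K {x}) : L)⁻¹ *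
        (algebraMap K L ((p f i).coeff j) * (x ^ j * w i))) N]
    refine Finset.sum_congr rfl fun j _ => ?_
    rw [Algebra.smul_def, map_mul]
    field_simp
  rw [← w.sum_repr f]
  refine Submodule.sum_mem _ fun i _ => ?_
  rw [Algebra.smul_def]
  change ((w.repr f i : K⟮x⟯) : L) * w i ∈ _
  rw [key]
  refine Submodule.sum_mem _ fun j _ => Submodule.smul_mem _ _
    (Submodule.subset_span ⟨(j, i), rfl⟩)

/-- Every finite dimensional subspace of `L` has an orthonormal basis. -/
theorem exists_orthF [Nonempty J] (V : Submodule K L) (hV : V.FG) :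
    ∃ (r : ℕ) (v : Fin r → L) (u : Fin r → J → κ), OrthF R v u ∧
      Submodule.span K (Set.range v) = V := by
  obtain ⟨s, hs⟩ := hV
  obtain ⟨ι, _, y, z, hyz, hspan⟩ := T.exists_orthF_span s
  exact hyz.exists_subspace V (by
    rw [← hs, Submodule.span_le]
    exact hspan)

end FamRed

/-! ### The reduction of a subspace -/

section RedSub

/-- The reduction of a subspace `V` of `L` in `J → κ`. -/
def redSubF (R : J → ConstRed A π L κ) (hπ : Function.Surjective π) (V : Submodule K L) :
    Submodule k (J → κ) where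
  carrier := {b | ∃ f ∈ V, ∀ j, (R j).IsRed f (b j)}
  zero_mem' := ⟨0, V.zero_mem, fun j => (R j).isRed_zero⟩
  add_mem' := by
    rintro a b ⟨f, hf, h1⟩ ⟨g, hg, h3⟩
    exact ⟨f + g, V.add_mem hf hg, fun j => (h1 j).add (h3 j)⟩
  smul_mem' := by
    rintro c b ⟨f, hf, h1⟩
    obtain ⟨a, rfl⟩ := hπ c
    refine ⟨(a : K) • f, V.smul_mem _ hf, fun j => ?_⟩
    have h3 := ((R j).isRed_coe a).mul (h1 j)
    rw [Algebra.smul_def (a : K) f]
    rwa [← Algebra.smul_def (π a) (b j)] at h3

theorem mem_redSubF {R : J → ConstRed A π L κ} {hπ : Function.Surjective π}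
    {V : Submodule K L} {b : J → κ} :
    b ∈ redSubF R hπ V ↔ ∃ f ∈ V, ∀ j, (R j).IsRed f (b j) := Iff.rfl

theorem FamRed.redSub_finrank [Fintype J] [Nonempty J] {R : J → ConstRed A π L κ} {x : L}
    {xb : κ} (T : FamRed J R x xb) (hπ : Function.Surjective π)
    (V : Submodule K L) [hV : Module.Finite K V] :
    Module.Finite k (redSubF R hπ V) ∧
      Module.finrank k (redSubF R hπ V) = Module.finrank K V := by
  classical
  obtain ⟨r, v, u, hvu, hspan⟩ := T.exists_orthF V (Module.Finite.iff_fg.mp hV)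
  have h1 : redSubF R hπ V = Submodule.span k (Set.range u) := by
    apply le_antisymm
    · rintro b ⟨f, hf, hb⟩
      rw [← hspan, Submodule.mem_span_range_iff_exists_fun] at hf
      obtain ⟨c, rfl⟩ := hf
      have e : ∑ i, c i • v i = ∑ i, algebraMap K L (c i) * v i :=
        Finset.sum_congr rfl fun i _ => Algebra.smul_def _ _
      rw [e] at hb
      have hc := hvu.mem_of_sum_mem c fun j => (hb j).mem
      have e3 : b = ∑ i, π ⟨c i, hc i⟩ • u i :=
        (funext fun j => (hvu.red (fun i => ⟨c i, hc i⟩) j).unique (hb j)).symm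
      rw [e3]
      exact Submodule.sum_mem _ fun i _ => Submodule.smul_mem _ _ (Submodule.subset_span ⟨i, rfl⟩)
    · rw [Submodule.span_le]
      rintro _ ⟨i, rfl⟩
      exact ⟨v i, by rw [← hspan]; exact Submodule.subset_span ⟨i, rfl⟩, hvu.isRed i⟩
  constructor
  · rw [h1]
    exact Module.Finite.span_of_finite k (Set.finite_range u)
  · rw [h1, finrank_span_eq_card hvu.indep, ← hspan, finrank_span_eq_card hvu.linearIndependent]

end RedSub

end Fermat.Agent.OrdP
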