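import Fermat.Agent.OrdP.Fam

/-!
# Families of constant reductions: regular functions and connectedness
-/

set_option autoImplicit false
set_option linter.unusedSectionVars false
set_option linter.style.haveILetI false

open AlgebraicCurve IntermediateField
open scoped IntermediateField.algebraAdjoinAdjoin

namespace Fermat.Agent.OrdP

open Fermat.Agent.FF Fermat.Agent.Red Fermat.Agent.QComp

variable {K k : Type*} [Field K] [Field k] {A : ValuationSubring K} {π : A →+* k}
  {L κ : Type*} [Field L] [Algebra K L] [Field κ] [Algebra k κ] {J : Type*} [Fintype J]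
  {R : J → ConstRed A π L κ} {x : L} {xb : κ}

namespace FamRed

variable (T : FamRed J R x xb)

include T

theorem neb : xb ≠ 0 := transcendental_ne_zero T.tr

theorem ne [h : Nonempty J] : x ≠ 0 := by
  obtain ⟨j⟩ := h
  exact (T.red j).ne_zero T.neb

theorem trans [h : Nonempty J] : Transcendental K x := by
  obtain ⟨j⟩ := h
  exact GoodRed.transcendental_of_isRed (T.red j) T.tr

theorem inv : FamRed J R x⁻¹ xb⁻¹ where
  red j := (T.red j).inv T.neb
  tr := RR.transcendental_inv' T.tr
  fd := by rw [RR.adjoin_simple_inv' (K := K) x]; exact T.fd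
  fdb := by rw [RR.adjoin_simple_inv' (K := k) xb]; exact T.fdb
  finrank_eq := by
    rw [RR.adjoin_simple_inv' (K := K) x, RR.adjoin_simple_inv' (K := k) xb]
    exact T.finrank_eq
  lift := T.lift

/-- elements in all the valuation rings of the family are in all valuation rings over the Gauss
valuation -/
theorem mem_of_overGauss [Nonempty J] {V : ValuationSubring L} (hV : OverGauss K A x V) {f : L}
    (h1 : ∀ j, f ∈ (R j).O) : f ∈ V := by
  obtain ⟨i₀⟩ := ‹Nonempty J›
  have hV' : OverGauss K A (algebraMap L L x) V := hV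
  obtain ⟨p, hp, hpw⟩ := T.isIntegral_gaussRing i₀ h1
  let g : gaussRing (R i₀) x →+* V := (algebraMap (gaussRing (R i₀) x) L).codRestrict
    V.toSubring (fun c => hV'.mem_of_gauss (T.red i₀) T.tr c.1.2 c.2)
  have hint : IsIntegral V f := by
    refine ⟨p.map g, hp.map g, ?_⟩
    rw [Polynomial.eval₂_map]
    have : (algebraMap V L).comp g = algebraMap (gaussRing (R i₀) x) L := rfl
    rw [this, hpw]
  obtain ⟨y, hy⟩ := IsIntegrallyClosed.isIntegral_iff.1 hint
  rw [← hy]
  exact y.2

/-- functions whose reductions all vanish are in all maximal ideals over the Gauss valuation -/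
theorem nonunits_of_isRed [Nonempty J] {V : ValuationSubring L} (hV : OverGauss K A x V) {f : L}
    (h1 : ∀ j, (R j).IsRed f 0) : f ∈ V.nonunits := by
  classical
  obtain ⟨i₀⟩ := ‹Nonempty J›
  obtain ⟨n, w, z, ho⟩ := T.exists_basis i₀
  have hV' : OverGauss K A (algebraMap L L x) V := hV
  -- the basis elements are in `V`
  have hwV : ∀ j, w j ∈ V := fun j => T.mem_of_overGauss hV (fun l => (ho.isRed j l).mem)
  have hf := w.sum_repr f
  have hf' : ∑ i, algebraMap K⟮x⟯ L (w.repr f i) * w i = f := by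
    conv_rhs => rw [← hf]
    exact Finset.sum_congr rfl fun i _ => (Algebra.smul_def _ _).symm
  have hmem := ho.mem_of_sum_mem (fun i => w.repr f i) (by
    intro j; rw [hf']; exact (h1 j).mem)
  have hzero := ho.coeff_eq_zero (fun i => ⟨w.repr f i, hmem i⟩) (by
    intro j; rw [hf']; exact h1 j)
  have hc : ∀ i, (w.repr f i : L) ∈ V.nonunits := by
    intro i
    refine hV'.nonunits_of_gauss (T.red i₀) T.tr (w.repr f i).2 ?_
    have h3 := (T.ext i₀ i₀).isRed_coe ⟨w.repr f i, hmem i⟩
    rw [hzero i, map_zero] at h3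
    exact h3
  rw [← hf]
  refine sum_mem fun i _ => ?_
  rw [Algebra.smul_def]
  exact nonunits_mul_mem (hc i) (hwV i)

theorem overGauss (j : J) : OverGauss K A x (R j).O where
  mem_iff a := by
    rw [(R j).algebraMap_mem_iff]
    exact ⟨fun h => ⟨⟨a, h⟩, rfl⟩, by rintro ⟨a, rfl⟩; exact a.2⟩
  mem := (T.red j).mem
  inv_mem u hu := by
    have h2 : ev K A x u = Polynomial.aeval x (u.map A.subtype) := by
      rw [ev_eq_aeval]; rfl
    rw [h2]
    have h3 := GoodRed.isRed_aeval (T.red j) u
    exact (h3.inv (GoodRed.aeval_ne_zero T.tr ((prim_iff_map (R j) u).1 hu))).mem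

omit T in
theorem nonunits_iff {R : ConstRed A π L κ} {f : L} : f ∈ R.O.nonunits ↔ R.IsRed f 0 := by
  rw [ValuationSubring.mem_nonunits_iff_or]
  constructor
  · rintro (rfl | h)
    · exact R.isRed_zero
    · have h1 : f ∈ R.O := (R.O.mem_or_inv_mem f).resolve_right h
      obtain ⟨z, hz⟩ := R.exists_isRed_of_mem h1
      rcases eq_or_ne z 0 with rfl | h0
      · exact hz
      · exact absurd (hz.inv h0).mem h
  · intro h
    rcases eq_or_ne f 0 with h0 | h0
    · exact Or.inl h0
    · exact Or.inr (h.inv_notMem h0)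

variable [IsAlgClosed K] [CharZero K] [IsAlgClosed k] [IsFnField K L] [IsFnField k κ]

theorem mem_regAlg (i : J) {f : L} (hf : f ∈ regAlg K x) {b : κ}
    (h1 : ∀ j, f ∈ (R j).O) (h2 : (R i).IsRed f b) : b ∈ regAlg k xb := by
  haveI := T.fd
  exact mem_regAlg_of_isIntegral (T.isIntegral_red i h1 h2 (isIntegral_of_mem_regAlg hf))

theorem mem_Lm (i : J) {f : L} {m : ℕ}
    (hf : f ∈ riemannRochSpace (m • RR.poleDiv (K := K) x)) {b : κ}
    (h1 : ∀ j, f ∈ (R j).O) (h2 : (R i).IsRed f b) :
    b ∈ riemannRochSpace (m • RR.poleDiv (K := k) xb) := by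
  haveI : Nonempty J := ⟨i⟩
  rw [mem_Lm_iff T.ne] at hf
  rw [mem_Lm_iff T.neb]
  refine ⟨T.mem_regAlg i hf.1 h1 h2, T.inv.mem_regAlg i hf.2 (fun j => ?_)
    ((((T.red i).inv T.neb).pow m).mul h2)⟩
  exact mul_mem (pow_mem ((T.red j).inv T.neb).mem m) (h1 j)

theorem mem_IC [Nonempty J] {f : L} (hf : f ∈ regAlg K x) (h1 : ∀ j, f ∈ (R j).O)
    {E : Type*} [Field E] [Algebra K E] [Algebra E L] [IsScalarTower K E L] {t : E}
    (ht : algebraMap E L t = x) : f ∈ IC K L A t := by
  haveI := T.fd
  obtain ⟨i₀⟩ := ‹Nonempty J›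
  obtain ⟨g, hg, hgf⟩ := T.exists_monic i₀ h1 (isIntegral_of_mem_regAlg hf)
  refine ⟨g, hg, ?_⟩
  have h4 : (algebraMap E L).comp (ev K A t) = theta A x := by
    apply RingHom.ext
    intro p
    rw [RingHom.comp_apply, theta_apply, QComp.algebraMap_ev, ht, ev_eq_aeval]
    rfl
  rw [h4, hgf]

variable (K R x) in
omit T [Fintype J] [IsAlgClosed K] [CharZero K] [IsAlgClosed k] [IsFnField K L]
  [IsFnField k κ] in
/-- the ring of regular functions which are integral for all the reductions -/
def _root_.Fermat.Agent.OrdP.Bring : Subring L where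
  carrier := {b | b ∈ regAlg K x ∧ ∀ j, b ∈ (R j).O}
  mul_mem' ha hb := ⟨mul_mem ha.1 hb.1, fun j => mul_mem (ha.2 j) (hb.2 j)⟩
  one_mem' := ⟨one_mem _, fun _ => one_mem _⟩
  add_mem' ha hb := ⟨add_mem ha.1 hb.1, fun j => add_mem (ha.2 j) (hb.2 j)⟩
  zero_mem' := ⟨zero_mem _, fun _ => zero_mem _⟩
  neg_mem' ha := ⟨neg_mem ha.1, fun j => neg_mem (ha.2 j)⟩

/-- the reduction of regular functions -/
noncomputable def rho (j : J) : Bring K R x →+* regAlg k xb :=
  ((R j).red.comp ((Bring K R x).subtype.codRestrict (R j).O.toSubring fun b => b.2.2 j)).codRestrict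
    (regAlg k xb).toSubring fun b => T.mem_regAlg j b.2.1 b.2.2 ⟨b.2.2 j, rfl⟩

theorem isRed_rho (j : J) (b : Bring K R x) : (R j).IsRed (b : L) (T.rho j b : κ) :=
  ⟨b.2.2 j, rfl⟩

/-- **connectedness**: regular functions whose reductions are idempotent constants, and which glue
to functions near infinity, have the same reduction everywhere -/
theorem eq_of_idem [Nonempty J] (hA : IsArch A) (hA' : ∃ c : A, ¬ IsUnit c ∧ c ≠ 0)
    {e e' : L} {ε : J → κ} (hε : ∀ j, ε j ^ 2 = ε j) (he : e ∈ regAlg K x)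
    (he' : e' ∈ regAlg K x⁻¹) (h1 : ∀ j, (R j).IsRed e (ε j)) (h2 : ∀ j, (R j).IsRed e' (ε j))
    (i j : J) : ε i = ε j := by
  haveI := T.fd
  haveI : CharZero K⟮x⟯ := charZero_of_injective_algebraMap (algebraMap K K⟮x⟯).injective
  obtain ⟨ϖ, hϖ, hϖ0⟩ := hA'
  set t : K⟮x⟯ := AdjoinSimple.gen K x with ht
  have htx : algebraMap K⟮x⟯ L t = x := rfl
  obtain ⟨c, hc⟩ := exists_const (A := A) (isGen_gen T.trans) exists_const_of_isIntegral
    (hA.isRankOne hϖ hϖ0) (e := e) (e' := e') (T.mem_IC he (fun j => (h1 j).mem) htx)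
    (T.inv.mem_IC he' (fun j => (h2 j).mem) (by rw [map_inv₀]; rfl)) (by
      intro V hV
      change OverGauss K A x V at hV
      refine ⟨?_, ?_, ?_⟩
      · refine T.nonunits_of_isRed hV fun j => ?_
        have := ((h1 j).pow 2).sub (h1 j)
        rwa [hε, sub_self] at this
      · refine T.nonunits_of_isRed hV fun j => ?_
        have := ((h2 j).pow 2).sub (h2 j)
        rwa [hε, sub_self] at this
      · refine T.nonunits_of_isRed hV fun j => ?_
        have := (h1 j).sub (h2 j)
        rwa [sub_self] at this)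
  have key : ∀ j, (R j).IsRed (algebraMap K L c) (ε j) := by
    intro j
    have h3 := nonunits_iff.1 (hc _ (T.overGauss j))
    have h4 := (h1 j).sub h3
    rwa [sub_sub_cancel, sub_zero] at h4
  exact isRed_of_gauss (T.red i) (T.red j) T.tr (IntermediateField.algebraMap_mem _ c) (key i)
    |>.unique (key j)

end FamRed

end Fermat.Agent.OrdP
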