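import Fermat.Agent.OrdP.KumExt

/-!
# Approximate idempotents of the Kummer extension
-/

set_option autoImplicit false
set_option linter.unusedSectionVars false
set_option linter.style.haveILetI false
set_option linter.unusedVariables false

noncomputable section

open AlgebraicCurve

namespace Fermat.Agent.OrdP

open Fermat.Agent.FF Fermat.Agent.Red Fermat.Agent.QComp Fermat.Agent.MazurQ

variable {K k : Type*} [Field K] [Field k] {A : ValuationSubring K} {π : A →+* k}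
  {F κ L : Type*} [Field F] [Algebra K F] [Field κ] [Algebra k κ] [Field L] [Algebra K L]
  [Algebra F L] [IsScalarTower K F L] {R : ConstRed A π F κ} {n : ℕ}

section Arch

theorem exists_pow_mem_nonunits (hA : IsArch A) {h : F} (hh : h ∈ R.O.nonunits) (c : K) :
    ∃ N, ∀ M, N ≤ M → algebraMap K F c * h ^ M ∈ R.O.nonunits := by
  by_cases h0 : h = 0
  · refine ⟨1, fun M hM => ?_⟩
    rw [h0, zero_pow (by omega), mul_zero]
    exact zero_mem_nonunits
  obtain ⟨d, hd, h1, h2⟩ := R.exists_scale h h0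
  have hdF : algebraMap K F d ≠ 0 := (map_ne_zero _).2 hd
  have hdA : d⁻¹ ∈ A := by
    rw [← R.algebraMap_mem_iff]
    have h3 : algebraMap K F d⁻¹ = h * (algebraMap K F d * h)⁻¹ := by
      rw [map_inv₀]
      field_simp
    rw [h3]
    exact mul_mem (mem_of_nonunits hh) h2
  have hdu : ¬ IsUnit (⟨d⁻¹, hdA⟩ : A) := by
    intro hu
    obtain ⟨b, hb⟩ := hu.exists_right_inv
    have hb' : d⁻¹ * (b : K) = 1 := congrArg Subtype.val hb
    have hbd : (b : K) = d := by
      have h3 := congrArg (fun z => d * z) hb'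
      simpa [← mul_assoc, mul_inv_cancel₀ hd] using h3
    have hdO : algebraMap K F d ∈ R.O := by
      rw [R.algebraMap_mem_iff, ← hbd]; exact b.2
    rw [ValuationSubring.mem_nonunits_iff_or] at hh
    refine (hh.resolve_left h0) ?_
    have h3 : h⁻¹ = algebraMap K F d * (algebraMap K F d * h)⁻¹ := by
      field_simp
    rw [h3]
    exact mul_mem hdO h2
  obtain ⟨N, hN⟩ := hA ⟨d⁻¹, hdA⟩ hdu c
  refine ⟨N + 1, fun M hM => ?_⟩
  obtain ⟨t, rfl⟩ : ∃ t, M = N + (t + 1) := ⟨M - N - 1, by omega⟩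
  have h3 : algebraMap K F c * h ^ (N + (t + 1)) =
      (algebraMap K F (c * d⁻¹ ^ N) * (algebraMap K F d * h) ^ N * h ^ t) * h := by
    have h4 : (algebraMap K F d)⁻¹ ^ N * algebraMap K F d ^ N = 1 := by
      rw [← mul_pow, inv_mul_cancel₀ hdF, one_pow]
    rw [map_mul, map_pow, map_inv₀, mul_pow, pow_add, pow_succ]
    linear_combination (-(algebraMap K F c * h ^ N * h ^ t * h)) * h4
  rw [h3]
  exact nonunits_mul (mul_mem (mul_mem ((R.algebraMap_mem_iff _).2 hN) (pow_mem h1 _))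
    (pow_mem (mem_of_nonunits hh) _)) hh

end Arch

variable [IsAlgClosed K] [CharZero K] [IsFnField K F]
  {E : AddSubgroup (Pic0 K F)} {y : E → F} {X : E → L}

namespace KumExt

/-- **density** -/
theorem cl (h : KumExt (L := L) n E y X) (hn : 0 < n) {V : ValuationSubring L} (hV : Above R V)
    (hA2 : ∃ c : A, ¬ IsUnit c ∧ c ≠ 0) (hE : ∀ x, NearPow R n (y x)) (a : L) : Cl A F V a :=
  h.ind (p := fun a => Cl A F V a) Cl.zero (fun a b ha hb => ha.add hb)
    (fun c x => Cl.smul hV c (cl_of_pow hV hA2 hn (hE x) (h.pow x))) a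

/-- **Approximate idempotents.** -/
theorem exists_idem (h : KumExt (L := L) n E y X) [Fintype E] (hn : 0 < n)
    {V : ValuationSubring L} (hV : Above R V) (hd : ∀ ℓ : L, Cl A F V ℓ)
    (hA2 : ∃ c : A, ¬ IsUnit c ∧ c ≠ 0) :
    ∃ e : L, e - 1 ∈ V.nonunits ∧ ∀ γ : L ≃ₐ[F] L, γ ≠ 1 → γ e ∈ V.nonunits := by
  classical
  obtain ⟨η, hη, hη0⟩ := hA2
  set N := Fintype.card E with hN
  have hN0 : N ≠ 0 := Fintype.card_ne_zero
  haveI : CharZero L := charZero_of_injective_algebraMap (algebraMap K L).injective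
  have hNL : (N : L) ≠ 0 := by exact_mod_cast hN0
  have hNA : (N : A) ≠ 0 := by
    intro h0
    have h2 : (((N : A)) : K) = (N : K) := map_natCast A.subtype N
    have h3 : (N : K) = 0 := by
      rw [← h2]
      rw [h0]
      rfl
    exact hN0 (by exact_mod_cast h3)
  -- approximate inverses
  have key : ∀ x : E, ∃ g : F, ∃ v ∈ V,
      X x * algebraMap F L g = 1 + (N : L) * algebraMap K L η * v := by
    intro x
    have hXne := h.ne_zero hn x
    obtain ⟨c, hc, hcX⟩ := (hd (X x)).exists_scale_mem hV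
    obtain ⟨g, v, hv, h1⟩ := hd (X x)⁻¹ (c * ((N : A) * η))
      (mul_ne_zero hc (mul_ne_zero hNA hη0))
    refine ⟨g, -(algebraMap K L c * X x * v), neg_mem (mul_mem hcX hv), ?_⟩
    have h2 : algebraMap K L ((c * ((N : A) * η) : A) : K) =
        algebraMap K L c * ((N : L) * algebraMap K L η) := by
      have e1 : ((c * ((N : A) * η) : A) : K) = (c : K) * ((N : K) * (η : K)) := by
        change (c : K) * (((N : A) : K) * (η : K)) = _
        rw [show ((N : A) : K) = (N : K) from map_natCast A.subtype N]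
      rw [e1, map_mul, map_mul, map_natCast]
    rw [h2] at h1
    have h3 : algebraMap F L g = (X x)⁻¹ - algebraMap K L c * ((N : L) * algebraMap K L η) * v := by
      rw [h1]; ring
    rw [h3, mul_sub, mul_inv_cancel₀ hXne]
    ring
  choose g v hv hg using key
  have hηV := hV.nonunit_alg hη
  refine ⟨(N : L)⁻¹ * ∑ x, X x * algebraMap F L (g x), ?_, fun γ hγ => ?_⟩
  · have h1 : (N : L)⁻¹ * ∑ x, X x * algebraMap F L (g x) - 1 =
        (∑ x, v x) * algebraMap K L η := by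
      have h2 : ∑ x, X x * algebraMap F L (g x) = N + (N : L) * algebraMap K L η * ∑ x, v x := by
        rw [Finset.sum_congr rfl fun x _ => hg x, Finset.sum_add_distrib, Finset.mul_sum]
        congr 1
        rw [Finset.sum_const, Finset.card_univ, nsmul_eq_mul, mul_one]
      rw [h2]
      field_simp
      ring
    rw [h1]
    exact nonunits_mul (sum_mem fun x _ => hv x) hηV
  · have h1 : γ ((N : L)⁻¹ * ∑ x, X x * algebraMap F L (g x)) =
        (∑ x, algebraMap K L (h.chi hn x γ) * v x) * algebraMap K L η := by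
      have h2 : ∑ x, γ (X x * algebraMap F L (g x)) =
          (N : L) * algebraMap K L η * ∑ x, algebraMap K L (h.chi hn x γ) * v x := by
        have h3 : ∀ x, γ (X x * algebraMap F L (g x)) = algebraMap K L (h.chi hn x γ) +
            (N : L) * algebraMap K L η * (algebraMap K L (h.chi hn x γ) * v x) := by
          intro x
          rw [map_mul, AlgEquiv.commutes, h.apply_X hn, mul_assoc, hg x]
          ring
        rw [Finset.sum_congr rfl fun x _ => h3 x, Finset.sum_add_distrib, ← Finset.mul_sum,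
          ← map_sum, h.sum_chi hn hγ, map_zero, zero_add]
      rw [map_mul, map_inv₀, map_natCast, map_sum, h2]
      field_simp
    rw [h1]
    refine nonunits_mul (sum_mem fun x _ => mul_mem ((hV.alg _).2 ?_) (hv x)) hηV
    exact mem_of_pow_mem hn (by rw [h.chi_pow]; exact one_mem _)

end KumExt

/-- one half of the splitting data -/
structure SplitPart (R₁ : ConstRed A π F κ) (R₁s R₂s : ConstRed A π L κ) (e₁ : L) : Prop where
  ext : ∀ f b, R₁.IsRed f b → R₁s.IsRed (algebraMap F L f) b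
  e11 : R₁s.IsRed e₁ 1
  e11c : ∀ γ : L ≃ₐ[F] L, γ ≠ 1 → R₁s.IsRed (γ e₁) 0
  e12 : ∀ γ : L ≃ₐ[F] L, R₂s.IsRed (γ e₁) 0

theorem splitPart_of (h : KumExt (L := L) n E y X) [Fintype E] (hn : 0 < n)
    (hA : IsArch A) (hA2 : ∃ c : A, ¬ IsUnit c ∧ c ≠ 0) {R₁ R₂ : ConstRed A π F κ}
    {V₁ V₂ : ValuationSubring L} (hV₁ : Above R₁ V₁) (hV₂ : Above R₂ V₂)
    (hd₁ : ∀ ℓ : L, Cl A F V₁ ℓ) (hd₂ : ∀ ℓ : L, Cl A F V₂ ℓ)
    (hsep : ∃ g : F, R₁.IsRed g 1 ∧ R₂.IsRed g 0) :
    ∃ e₁, SplitPart R₁ (extRed hV₁ hd₁ hA2) (extRed hV₂ hd₂ hA2) e₁ := by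
  haveI := h.finiteDimensional
  obtain ⟨e, he1, he2⟩ := h.exists_idem hn hV₁ hd₁ hA2
  obtain ⟨g, hg1, hg2⟩ := hsep
  have hM : ∀ γ : L ≃ₐ[F] L, ∃ N, ∀ M, N ≤ M → algebraMap F L g ^ M * γ e ∈ V₂.nonunits := by
    intro γ
    obtain ⟨c, hc, hce⟩ := (hd₂ (γ e)).exists_scale_mem hV₂
    obtain ⟨N, hN⟩ := exists_pow_mem_nonunits hA (nonunits_of_isRed_zero hg2) (c : K)⁻¹
    refine ⟨N, fun M hM => ?_⟩
    have hc0 : algebraMap K L c ≠ 0 := (map_ne_zero _).2 fun h => hc (Subtype.ext h)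
    have h1 : algebraMap F L g ^ M * γ e = (algebraMap K L c * γ e) *
        algebraMap F L (algebraMap K F (c : K)⁻¹ * g ^ M) := by
      rw [map_mul, ← IsScalarTower.algebraMap_apply, map_inv₀, map_pow]
      field_simp
    rw [h1]
    exact nonunits_mul hce (hV₂.nonunit_F.2 (hN M hM))
  choose N hN using hM
  obtain ⟨M, hM⟩ : ∃ M, ∀ γ, N γ ≤ M := by
    classical
    haveI : Fintype (L ≃ₐ[F] L) := Fintype.ofFinite _
    exact ⟨Finset.univ.sup N, fun γ => Finset.le_sup (Finset.mem_univ γ)⟩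
  have hgM := (hg1.pow M)
  rw [one_pow] at hgM
  have hgV : algebraMap F L (g ^ M) ∈ V₁ := (hV₁ _).2 hgM.mem
  refine ⟨algebraMap F L (g ^ M) * e, ?_, ?_, ?_, ?_⟩
  · exact fun f b hf => extRed_isRed hV₁ hd₁ hA2 hf
  · have h1 : (extRed hV₁ hd₁ hA2).IsRed e 1 := by
      rw [isRed_extRed]
      exact ⟨1, R₁.isRed_one, by rw [map_one]; exact he1⟩
    have h2 := (extRed_isRed hV₁ hd₁ hA2 hgM).mul h1
    rwa [one_mul] at h2
  · intro γ hγ
    rw [isRed_extRed]
    refine ⟨0, R₁.isRed_zero, ?_⟩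
    rw [map_zero, sub_zero, map_mul, AlgEquiv.commutes]
    exact nonunits_mul hgV (he2 γ hγ)
  · intro γ
    rw [isRed_extRed]
    refine ⟨0, R₂.isRed_zero, ?_⟩
    rw [map_zero, sub_zero, map_mul, AlgEquiv.commutes, map_pow]
    exact hN γ M (hM γ)

/-- **The splitting of the Kummer extension over both components.** -/
theorem exists_split (h : KumExt (L := L) n E y X) [Fintype E] (hn : 0 < n)
    (hA : IsArch A) (hA2 : ∃ c : A, ¬ IsUnit c ∧ c ≠ 0) {R₁ R₂ : ConstRed A π F κ}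
    (hsep : ∃ g : F, R₁.IsRed g 1 ∧ R₂.IsRed g 0) (hsep' : ∃ g : F, R₂.IsRed g 1 ∧ R₁.IsRed g 0)
    (hE₁ : ∀ x, NearPow R₁ n (y x)) (hE₂ : ∀ x, NearPow R₂ n (y x)) :
    ∃ (R₁s R₂s : ConstRed A π L κ) (e₁ e₂ : L), SplitPart R₁ R₁s R₂s e₁ ∧
      SplitPart R₂ R₂s R₁s e₂ := by
  obtain ⟨V₁, hV₁⟩ := exists_above (L := L) R₁
  obtain ⟨V₂, hV₂⟩ := exists_above (L := L) R₂
  have hd₁ := h.cl hn hV₁ hA2 hE₁
  have hd₂ := h.cl hn hV₂ hA2 hE₂
  obtain ⟨e₁, h1⟩ := splitPart_of h hn hA hA2 hV₁ hV₂ hd₁ hd₂ hsep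
  obtain ⟨e₂, h2⟩ := splitPart_of h hn hA hA2 hV₂ hV₁ hd₂ hd₁ hsep'
  exact ⟨_, _, e₁, e₂, h1, h2⟩

end Fermat.Agent.OrdP
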