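import Fermat.Agent.OrdP.Idem
import Fermat.Agent.OrdP.Comm

/-!
# Inertia acts on locally trivial classes through the cyclotomic character
-/

set_option autoImplicit false
set_option linter.unusedSectionVars false
set_option linter.style.haveILetI false
set_option linter.unusedVariables false

noncomputable section

open AlgebraicCurve IntermediateField Module

namespace Fermat.Agent.OrdP

open Fermat.Agent.FF Fermat.Agent.Red Fermat.Agent.QComp Fermat.Agent.MazurQ

section Lift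

variable {K : Type*} [Field K] [IsAlgClosed K] [CharZero K]
  {F : Type*} [Field F] [Algebra K F] [IsFnField K F] {n : ℕ}
  {E : AddSubgroup (Pic0 K F)} {y : E → F}
  {L : IntermediateField F (AlgebraicClosure F)} {X : E → L}

/-- an automorphism of the algebraic closure over a semilinear automorphism preserving `E`
preserves `L` -/
theorem map_mem (h : KumExt (L := L) n E y X) (hn : 0 < n) (g : SemilinearAut K F)
    (hg : ∀ x ∈ E, g • x ∈ E) (τM : AlgebraicClosure F ≃+* AlgebraicClosure F)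
    (hτ : ∀ f, τM (algebraMap F _ f) = algebraMap F _ (g • f)) (a : L) : τM (a : L) ∈ L := by
  refine h.ind (p := fun a => τM ((a : L) : AlgebraicClosure F) ∈ L) ?_ ?_ ?_ a
  · rw [ZeroMemClass.coe_zero, map_zero]; exact zero_mem _
  · intro a b ha hb
    rw [AddMemClass.coe_add, map_add]
    exact add_mem ha hb
  · intro c x
    rw [MulMemClass.coe_mul, map_mul]
    refine mul_mem ?_ ?_
    · change τM (algebraMap F _ c) ∈ L
      rw [hτ]
      exact L.algebraMap_mem _
    · have h1 : (τM (X x : AlgebraicClosure F)) ^ n = algebraMap F _ (g • y x) := by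
        rw [← map_pow, ← hτ]
        congr 1
        exact congrArg Subtype.val (h.pow x)
      have h2 : Cls n ((⟨g • (x : Pic0 K F), hg _ x.2⟩ : E) : Pic0 K F) (g • y x) :=
        (h.cls x).smul g
      obtain ⟨c, hc, h3⟩ := KumExt.root_table (L := AlgebraicClosure F)
        (X := fun x => (X x : AlgebraicClosure F)) hn h.cls
        (fun x => congrArg Subtype.val (h.pow x)) ⟨g • (x : Pic0 K F), hg _ x.2⟩ h2 h1
      rw [h3]
      exact mul_mem (L.algebraMap_mem _) (X _).2

/-- **the lift of a semilinear automorphism** -/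
theorem exists_lift (h : KumExt (L := L) n E y X) (hn : 0 < n) (g : SemilinearAut K F)
    (hg : ∀ x ∈ E, g • x ∈ E) (hg' : ∀ x ∈ E, g⁻¹ • x ∈ E) :
    ∃ τL : L ≃+* L, ∀ f, τL (algebraMap F L f) = algebraMap F L (g • f) := by
  let e : F ≃+* F := SemilinearAut.toRingAut g
  let τM : AlgebraicClosure F ≃+* AlgebraicClosure F :=
    IsAlgClosure.equivOfEquiv (AlgebraicClosure F) (AlgebraicClosure F) e
  have hτ : ∀ f, τM (algebraMap F _ f) = algebraMap F _ (g • f) := fun f =>
    IsAlgClosure.equivOfEquiv_algebraMap _ _ e f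
  have hτ' : ∀ f, τM.symm (algebraMap F _ f) = algebraMap F _ (g⁻¹ • f) := by
    intro f
    apply τM.injective
    rw [RingEquiv.apply_symm_apply, hτ, smul_inv_smul]
  refine ⟨
    { toFun := fun a => ⟨τM a, map_mem h hn g hg τM hτ a⟩
      invFun := fun a => ⟨τM.symm a, map_mem h hn g⁻¹ hg' τM.symm hτ' a⟩
      left_inv := fun a => Subtype.ext (τM.symm_apply_apply _)
      right_inv := fun a => Subtype.ext (τM.apply_symm_apply _)
      map_mul' := fun a b => Subtype.ext (map_mul τM _ _)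
      map_add' := fun a b => Subtype.ext (map_add τM _ _) }, fun f => Subtype.ext (hτ f)⟩

end Lift

variable {K k : Type*} [Field K] [Field k] {A : ValuationSubring K} {π : A →+* k}
  {F κ : Type*} [Field F] [Algebra K F] [Field κ] [Algebra k κ]
  {R₁ R₂ : ConstRed A π F κ} {x : F} {xb : κ} [IsAlgClosed K] [CharZero K] [IsAlgClosed k]
  [IsFnField K F] [IsFnField k κ] {S : Type*} [Fintype S] {n : ℕ}

/-- **Abstract INERT2.** -/
theorem inert_abs (T : TwoRed R₁ R₂ x xb xb) (hA : IsArch A)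
    (hA2 : ∃ c : A, ¬ IsUnit c ∧ c ≠ 0) (hπ : Function.Surjective π)
    (N : Nodes R₁ R₂ x xb xb S) (hn : 0 < n) (E : AddSubgroup (Pic0 K F)) [Finite E]
    (hE : ∀ c ∈ E, n • c = 0)
    (hnear : ∀ c ∈ E, ∀ y, Cls n c y → NearPow R₁ n y ∧ NearPow R₂ n y)
    (g : SemilinearAut K F) (hg : ∀ c ∈ E, g • c ∈ E) (hx : g • x = x)
    (h1 : ∀ f b, R₁.IsRed f b → R₁.IsRed (g • f) b) (h2 : ∀ f b, R₂.IsRed f b → R₂.IsRed (g • f) b)
    {a : ℕ} (ha : ∀ z : K, z ^ n = 1 → SemilinearAut.baseAut g z = z ^ a) :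
    ∀ c ∈ E, g • c = a • c := by
  classical
  haveI : Fintype E := Fintype.ofFinite E
  obtain ⟨y, L, X, h⟩ := exists_kumExt hn E hE
  haveI := h.finiteDimensional
  haveI := h.gal
  haveI := T.fd
  have hg' : ∀ c ∈ E, g⁻¹ • c ∈ E := by
    intro c hc
    let φ : E → E := fun c => ⟨g • (c : Pic0 K F), hg _ c.2⟩
    have hφ : Function.Injective φ := by
      intro c c' hcc
      have h3 := congrArg Subtype.val hcc
      exact Subtype.ext (MulAction.injective g h3)
    obtain ⟨d, hd⟩ := (Finite.injective_iff_surjective.1 hφ) ⟨c, hc⟩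
    have h3 : g • (d : Pic0 K F) = c := congrArg Subtype.val hd
    rw [← h3, inv_smul_smul]
    exact d.2
  obtain ⟨τL, hτL⟩ := exists_lift h hn g hg hg'
  obtain ⟨g₁, hg₁, hg₁'⟩ := T.lift1 1
  obtain ⟨g₂, hg₂, hg₂'⟩ := T.lift2 1
  obtain ⟨R₁s, R₂s, e₁, e₂, p1, p2⟩ := exists_split h hn hA hA2 ⟨g₁, hg₁, hg₁'⟩
    ⟨g₂, hg₂', hg₂⟩ (fun c => (hnear c c.2 _ (h.cls c)).1) (fun c => (hnear c c.2 _ (h.cls c)).2)
  have H : Split2 R₁ R₂ R₁s R₂s e₁ e₂ :=
    ⟨p1.ext, p2.ext, p1.e11, p1.e11c, p1.e12, p2.e11, p2.e11c, p2.e12⟩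
  haveI : FiniteDimensional K⟮algebraMap F L x⟯ L := (H.famRed T).fd
  haveI : IsFnField K L := IsFnField.of_finiteDimensional (x := algebraMap F L x) (by
    have h3 : Transcendental K x := GoodRed.transcendental_of_isRed T.r1 T.t1
    rw [Transcendental, isAlgebraic_algebraMap_iff (algebraMap F L).injective]
    exact h3)
  have hD : ∀ c : E, ∃ D : Divisor K F, Divisor.degree D = 0 ∧
      ∀ P, (n : ℤ) * D P = P.ord (y c) := by
    intro c
    obtain ⟨D, hD, hy, hdiv⟩ := h.cls c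
    exact ⟨D, Divisor.mem_degZero.1 D.2, hdiv⟩
  choose D hdeg hdiv using hD
  have Q : KumBasis n X y D := ⟨hn.ne', h.linearIndependent hn, h.pow, fun c => (h.cls c).ne,
    hdeg, hdiv⟩
  intro c hc
  obtain ⟨v, hv⟩ := H.exists_pow T hA hA2 hπ N Q (h.card_eq hn) (h.comm hn) (gF g) τL (gK g)
    hτL (fun c => SemilinearAut.commutes g c) hx h1 h2 ha (h.cls ⟨c, hc⟩).ne (h.pow ⟨c, hc⟩)
  have h3 := ((h.cls ⟨c, hc⟩).smul g).div ((h.cls ⟨c, hc⟩).nsmul a)
  have h4 : g • y ⟨c, hc⟩ / y ⟨c, hc⟩ ^ a = v ^ n := hv.symm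
  rw [h4] at h3
  exact sub_eq_zero.1 (h3.eq_zero hn.ne')

end Fermat.Agent.OrdP
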