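import Fermat.Agent.QComp.TwoKummer
import Fermat.Agent.QComp.TwoNodes

/-!
# Valuation rings over a constant reduction, with the same residue field
-/

set_option autoImplicit false
set_option linter.unusedSectionVars false
set_option linter.style.haveILetI false

open Polynomial

namespace Fermat.Agent.OrdP

open QComp Red FF

variable {K k : Type*} [Field K] [Field k] {A : ValuationSubring K} {π : A →+* k}
  {F κ L : Type*} [Field F] [Algebra K F] [Field κ] [Algebra k κ] [Field L] [Algebra F L]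

section Basic

variable (R : ConstRed A π F κ) (V : ValuationSubring L)

/-- `V` lies over the constant reduction `R` -/
def LiesOver : Prop := ∀ f : F, algebraMap F L f ∈ V ↔ f ∈ R.O

/-- `b` is congruent to an element of `F` reducing to `z` -/
def IsR (b : L) (z : κ) : Prop := ∃ f : F, R.IsRed f z ∧ b - algebraMap F L f ∈ V.nonunits

variable {R V}

theorem isRed_zero_iff {f : F} : R.IsRed f 0 ↔ f ∈ R.O.nonunits := by
  constructor
  · rintro ⟨h1, h2⟩
    rw [R.red_eq_zero_iff] at h2
    exact R.O.mem_nonunits_iff_exists_mem_maximalIdeal.2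
      ⟨h1, (IsLocalRing.mem_maximalIdeal _).2 h2⟩
  · intro h
    obtain ⟨h1, h2⟩ := R.O.mem_nonunits_iff_exists_mem_maximalIdeal.1 h
    exact ⟨h1, (R.red_eq_zero_iff _).2 ((IsLocalRing.mem_maximalIdeal _).1 h2)⟩

theorem LiesOver.nonunits_iff (h : LiesOver R V) {f : F} :
    algebraMap F L f ∈ V.nonunits ↔ R.IsRed f 0 := by
  rw [isRed_zero_iff, ValuationSubring.mem_nonunits_iff_or, ValuationSubring.mem_nonunits_iff_or,
    map_eq_zero, ← map_inv₀, h]

theorem IsR.mem (h : LiesOver R V) {b : L} {z : κ} (hb : IsR R V b z) : b ∈ V := by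
  obtain ⟨f, hf, h1⟩ := hb
  have h2 := add_mem (ValuationSubring.nonunits_subset h1) ((h f).2 hf.mem)
  rwa [sub_add_cancel] at h2

theorem isR_of_isRed {f : F} {z : κ} (hf : R.IsRed f z) : IsR R V (algebraMap F L f) z :=
  ⟨f, hf, by rw [sub_self]; exact zero_mem _⟩

theorem isR_algebraMap_iff (h : LiesOver R V) {f : F} {z : κ} :
    IsR R V (algebraMap F L f) z ↔ R.IsRed f z := by
  refine ⟨?_, isR_of_isRed⟩
  rintro ⟨g, hg, h1⟩
  rw [← map_sub, h.nonunits_iff] at h1
  have := h1.add hg
  rwa [sub_add_cancel, zero_add] at this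

theorem IsR.add {b b' : L} {z z' : κ} (hb : IsR R V b z) (hb' : IsR R V b' z') :
    IsR R V (b + b') (z + z') := by
  obtain ⟨f, hf, h1⟩ := hb
  obtain ⟨f', hf', h1'⟩ := hb'
  refine ⟨f + f', hf.add hf', ?_⟩
  have h2 := add_mem h1 h1'
  convert h2 using 1
  rw [map_add]; ring

theorem IsR.neg {b : L} {z : κ} (hb : IsR R V b z) : IsR R V (-b) (-z) := by
  obtain ⟨f, hf, h1⟩ := hb
  refine ⟨-f, hf.neg, ?_⟩
  have h2 := neg_mem h1
  convert h2 using 1
  rw [map_neg]; ring

theorem IsR.sub {b b' : L} {z z' : κ} (hb : IsR R V b z) (hb' : IsR R V b' z') :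
    IsR R V (b - b') (z - z') := by
  rw [sub_eq_add_neg, sub_eq_add_neg]
  exact hb.add hb'.neg

theorem mul_nonunits_mem {a b : L} (ha : a ∈ V) (hb : b ∈ V.nonunits) : a * b ∈ V.nonunits := by
  rw [mul_comm]
  exact nonunits_mul_mem hb ha

theorem IsR.mul (h : LiesOver R V) {b b' : L} {z z' : κ} (hb : IsR R V b z)
    (hb' : IsR R V b' z') : IsR R V (b * b') (z * z') := by
  have hm := hb'.mem h
  obtain ⟨f, hf, h1⟩ := hb
  obtain ⟨f', hf', h1'⟩ := hb'
  refine ⟨f * f', hf.mul hf', ?_⟩
  have h2 := add_mem (nonunits_mul_mem h1 hm) (mul_nonunits_mem ((h f).2 hf.mem) h1')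
  convert h2 using 1
  rw [map_mul]; ring

variable (R V) in
theorem isR_zero : IsR R V 0 0 := by
  have := isR_of_isRed (V := V) R.isRed_zero
  rwa [map_zero] at this

variable (R V) in
theorem isR_one : IsR R V 1 1 := by
  have := isR_of_isRed (V := V) R.isRed_one
  rwa [map_one] at this

theorem isR_zero_iff (h : LiesOver R V) {b : L} : IsR R V b 0 ↔ b ∈ V.nonunits := by
  constructor
  · rintro ⟨f, hf, h1⟩
    have := add_mem h1 (h.nonunits_iff.2 hf)
    rwa [sub_add_cancel] at this
  · intro hb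
    exact ⟨0, R.isRed_zero, by rwa [map_zero, sub_zero]⟩

theorem IsR.unique (h : LiesOver R V) {b : L} {z z' : κ} (hb : IsR R V b z)
    (hb' : IsR R V b z') : z = z' := by
  obtain ⟨f, hf, h1⟩ := hb
  obtain ⟨f', hf', h1'⟩ := hb'
  have h2 := sub_mem h1' h1
  rw [show b - algebraMap F L f' - (b - algebraMap F L f) = algebraMap F L (f - f') by
    rw [map_sub]; ring, h.nonunits_iff] at h2
  exact sub_eq_zero.1 ((hf.sub hf').unique h2)

theorem IsR.congr {b b' : L} {z : κ} (hb : IsR R V b z) (h : b' - b ∈ V.nonunits) :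
    IsR R V b' z := by
  obtain ⟨f, hf, h1⟩ := hb
  refine ⟨f, hf, ?_⟩
  have := add_mem h h1
  rwa [sub_add_sub_cancel] at this

theorem IsR.pow (h : LiesOver R V) {b : L} {z : κ} (hb : IsR R V b z) (n : ℕ) :
    IsR R V (b ^ n) (z ^ n) := by
  induction n with
  | zero => rw [pow_zero, pow_zero]; exact isR_one R V
  | succ n ih => rw [pow_succ, pow_succ]; exact ih.mul h hb

theorem isR_sum {ι : Type*} (s : Finset ι) {y : ι → L} {z : ι → κ}
    (h : ∀ i ∈ s, IsR R V (y i) (z i)) : IsR R V (∑ i ∈ s, y i) (∑ i ∈ s, z i) := by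
  classical
  induction s using Finset.induction_on with
  | empty => simpa using isR_zero R V
  | insert i s his ih =>
    rw [Finset.sum_insert his, Finset.sum_insert his]
    exact (h i (Finset.mem_insert_self i s)).add
      (ih fun j hj => h j (Finset.mem_insert_of_mem hj))

/-- coefficientwise reduction of polynomials -/
def IsRP (R : ConstRed A π F κ) (V : ValuationSubring L) (P : L[X]) (Z : κ[X]) : Prop :=
  ∀ i, IsR R V (P.coeff i) (Z.coeff i)

theorem IsRP.mul (h : LiesOver R V) {P P' : L[X]} {Z Z' : κ[X]} (hP : IsRP R V P Z)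
    (hP' : IsRP R V P' Z') : IsRP R V (P * P') (Z * Z') := by
  intro i
  rw [coeff_mul, coeff_mul]
  exact isR_sum _ fun x _ => (hP x.1).mul h (hP' x.2)

theorem IsRP.prod (h : LiesOver R V) {ι : Type*} (s : Finset ι) {P : ι → L[X]} {Z : ι → κ[X]}
    (hP : ∀ i ∈ s, IsRP R V (P i) (Z i)) : IsRP R V (∏ i ∈ s, P i) (∏ i ∈ s, Z i) := by
  classical
  induction s using Finset.induction_on with
  | empty =>
    intro i
    rw [Finset.prod_empty, Finset.prod_empty, coeff_one, coeff_one]
    split_ifs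
    · exact isR_one R V
    · exact isR_zero R V
  | insert i s his ih =>
    rw [Finset.prod_insert his, Finset.prod_insert his]
    exact (hP i (Finset.mem_insert_self i s)).mul h
      (ih fun j hj => hP j (Finset.mem_insert_of_mem hj))

theorem isRP_X_sub_C {b : L} {z : κ} (hb : IsR R V b z) : IsRP R V (X - C b) (X - C z) := by
  intro i
  rw [coeff_sub, coeff_sub, coeff_X, coeff_X, coeff_C, coeff_C]
  refine IsR.sub ?_ ?_
  · split_ifs
    · exact isR_one R V
    · exact isR_zero R V
  · split_ifs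
    · exact hb
    · exact isR_zero R V

end Basic

/-! ### Constants -/

section Const

variable [Algebra K L] [IsScalarTower K F L] {R : ConstRed A π F κ} {V : ValuationSubring L}

theorem isR_coe (a : A) : IsR R V (algebraMap K L a) (algebraMap k κ (π a)) := by
  rw [IsScalarTower.algebraMap_apply K F L]
  exact isR_of_isRed (R.isRed_coe a)

theorem LiesOver.const_mem_iff (h : LiesOver R V) {c : K} : algebraMap K L c ∈ V ↔ c ∈ A := by
  rw [IsScalarTower.algebraMap_apply K F L, h, R.algebraMap_mem_iff]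

theorem LiesOver.overGauss (h : LiesOver R V) {x : F} {x₁ : κ} (r : R.IsRed x x₁)
    (t : Transcendental k x₁) : OverGauss K A (algebraMap F L x) V where
  mem_iff a := by
    rw [h.const_mem_iff]
    exact ⟨fun h => ⟨⟨a, h⟩, rfl⟩, fun ⟨b, hb⟩ => hb ▸ b.2⟩
  mem := (h x).2 r.mem
  inv_mem u hu := by
    rw [ev_algebraMap, ← map_inv₀, h]
    have h3 := GoodRed.isRed_aeval r u
    exact (h3.inv (GoodRed.aeval_ne_zero t ((prim_iff_map R u).1 hu))).mem

end Const

/-! ### Splitting -/

section Split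

/-- `V` lies over `R`, and `e` is an approximate idempotent separating the conjugates of `V` -/
structure Split1 (R : ConstRed A π F κ) (V : ValuationSubring L) (e : L) : Prop where
  lo : LiesOver R V
  idem_one : e - 1 ∈ V.nonunits
  idem_ne : ∀ g : L ≃ₐ[F] L, g ≠ 1 → g e ∈ V.nonunits

variable {R : ConstRed A π F κ} {V : ValuationSubring L} {e : L} (S : Split1 R V e)
include S

theorem Split1.isR_e : IsR R V e 1 := (isR_one R V).congr S.idem_one

theorem Split1.isR_ge {g : L ≃ₐ[F] L} (hg : g ≠ 1) : IsR R V (g e) 0 :=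
  (isR_zero_iff S.lo).2 (S.idem_ne g hg)

variable [FiniteDimensional F L] [IsGalois F L]

omit S [FiniteDimensional F L] in
theorem exists_algebraMap_of_fixed [FiniteDimensional F L] {b : L}
    (h : ∀ g : L ≃ₐ[F] L, g b = b) : ∃ f : F, algebraMap F L f = b := by
  have h1 := (IsGalois.mem_bot_iff_fixed (F := F) b).2 h
  rwa [IntermediateField.mem_bot] at h1

/-- conjugates of integral elements have residues -/
theorem Split1.exists_isR {b : L} (hb : ∀ g : L ≃ₐ[F] L, g b ∈ V) : ∃ z, IsR R V b z := by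
  classical
  obtain ⟨f, hf⟩ := exists_algebraMap_of_fixed (b := ∑ g : L ≃ₐ[F] L, g (b * e)) (fun h => by
    rw [map_sum]
    exact Fintype.sum_equiv (Equiv.mulLeft h) _ _ (fun g => rfl))
  have h1 : algebraMap F L f - b ∈ V.nonunits := by
    have h2 : algebraMap F L f - b = b * (e - 1) +
        ∑ g ∈ Finset.univ.erase (1 : L ≃ₐ[F] L), g b * g e := by
      rw [hf, ← Finset.add_sum_erase _ _ (Finset.mem_univ (1 : L ≃ₐ[F] L))]
      simp only [map_mul, AlgEquiv.one_apply]
      ring
    rw [h2]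
    refine add_mem (mul_nonunits_mem (hb 1) S.idem_one) (sum_mem fun g hg => ?_)
    exact mul_nonunits_mem (hb g) (S.idem_ne g (Finset.ne_of_mem_erase hg))
  have h2 : algebraMap F L f ∈ V := by
    have := add_mem (ValuationSubring.nonunits_subset h1) (hb 1)
    rwa [AlgEquiv.one_apply, sub_add_cancel] at this
  obtain ⟨z, hz⟩ := R.exists_isRed_of_mem ((S.lo f).1 h2)
  refine ⟨z, f, hz, ?_⟩
  have := neg_mem h1
  rwa [neg_sub] at this

end Split

/-! ### The characteristic polynomial -/

section CharPoly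

variable [FiniteDimensional F L] [IsGalois F L]

theorem exists_charpoly (b : L) : ∃ Q : F[X], Q.Monic ∧
    Q.map (algebraMap F L) = ∏ g : L ≃ₐ[F] L, (X - C (g b)) := by
  classical
  have h1 : (∏ g : L ≃ₐ[F] L, (X - C (g b))) ∈ lifts (algebraMap F L) := by
    rw [lifts_iff_coeff_lifts]
    intro i
    obtain ⟨f, hf⟩ := exists_algebraMap_of_fixed (F := F)
      (b := (∏ g : L ≃ₐ[F] L, (X - C (g b))).coeff i) (fun h => by
        have h2 : (∏ g : L ≃ₐ[F] L, (X - C (g b))).map (h : L →+* L) =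
            ∏ g : L ≃ₐ[F] L, (X - C (g b)) := by
          rw [Polynomial.map_prod]
          refine Fintype.prod_equiv (Equiv.mulLeft h) _ _ (fun g => ?_)
          rw [Polynomial.map_sub, map_X, map_C]
          rfl
        have h3 := congrArg (fun P => P.coeff i) h2
        simp only [coeff_map] at h3
        exact h3)
    exact ⟨f, hf⟩
  have h2 : (∏ g : L ≃ₐ[F] L, (X - C (g b))).Monic := monic_prod_of_monic _ _ fun g _ =>
    monic_X_sub_C _
  obtain ⟨Q, hQ, -, hm⟩ := lifts_and_natDegree_eq_and_monic h1 h2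
  exact ⟨Q, hm, hQ⟩

theorem charpoly_root {b : L} {Q : F[X]}
    (hQ : Q.map (algebraMap F L) = ∏ g : L ≃ₐ[F] L, (X - C (g b))) :
    eval₂ (algebraMap F L) b Q = 0 := by
  classical
  rw [← eval_map, hQ, eval_prod]
  refine Finset.prod_eq_zero (Finset.mem_univ (1 : L ≃ₐ[F] L)) ?_
  rw [eval_sub, eval_X, eval_C, AlgEquiv.one_apply, sub_self]

theorem isRed_charpoly {R : ConstRed A π F κ} {V : ValuationSubring L} (h : LiesOver R V)
    {b : L} {z : (L ≃ₐ[F] L) → κ} (hb : ∀ g : L ≃ₐ[F] L, IsR R V (g b) (z g)) {Q : F[X]}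
    (hQ : Q.map (algebraMap F L) = ∏ g : L ≃ₐ[F] L, (X - C (g b))) (i : ℕ) :
    R.IsRed (Q.coeff i) ((∏ g : L ≃ₐ[F] L, (X - C (z g))).coeff i) := by
  have h1 := IsRP.prod h Finset.univ (P := fun g : L ≃ₐ[F] L => X - C (g b))
    (Z := fun g => X - C (z g)) (fun g _ => isRP_X_sub_C (hb g)) i
  rw [← hQ, coeff_map] at h1
  exact (isR_algebraMap_iff h).1 h1

/-- if the lower coefficients of a monic polynomial are in the maximal ideal, so is each root -/
theorem nonunits_of_root {E M : Type*} [Field E] [Field M] (φ : E →+* M)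
    {V : ValuationSubring M} {Q : E[X]} (hQ : Q.Monic)
    (h : ∀ i < Q.natDegree, φ (Q.coeff i) ∈ V.nonunits) {b : M} (hb : eval₂ φ b Q = 0) :
    b ∈ V.nonunits := by
  rw [ValuationSubring.mem_nonunits_iff_or]
  by_contra hne
  push Not at hne
  obtain ⟨h0, hinv⟩ := hne
  rw [eval₂_eq_sum_range, Finset.sum_range_succ, hQ.coeff_natDegree, map_one, one_mul] at hb
  have h1 : (1 : M) = -∑ i ∈ Finset.range Q.natDegree,
      φ (Q.coeff i) * (b⁻¹) ^ (Q.natDegree - i) := by
    have h2 : b ^ Q.natDegree = -∑ i ∈ Finset.range Q.natDegree, φ (Q.coeff i) * b ^ i := by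
      linear_combination hb
    have h3 : (1 : M) = b ^ Q.natDegree * (b⁻¹) ^ Q.natDegree := by
      rw [← mul_pow, mul_inv_cancel₀ h0, one_pow]
    rw [h3, h2, neg_mul, Finset.sum_mul]
    congr 1
    refine Finset.sum_congr rfl fun i hi => ?_
    rw [Finset.mem_range] at hi
    obtain ⟨j, hj⟩ := Nat.exists_eq_add_of_lt hi
    rw [hj, show i + j + 1 - i = j + 1 by omega, show i + j + 1 = i + (j + 1) by ring, pow_add,
      mul_assoc, ← mul_assoc (b ^ i), ← mul_pow, mul_inv_cancel₀ h0, one_pow, one_mul]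
  have h2 : (1 : M) ∈ V.nonunits := by
    rw [h1]
    refine neg_mem (sum_mem fun i hi => ?_)
    exact nonunits_mul_mem (h i (Finset.mem_range.1 hi)) (pow_mem hinv _)
  rw [ValuationSubring.mem_nonunits_iff, map_one] at h2
  exact lt_irrefl _ h2

theorem coeff_prod_X {ι M : Type*} [Fintype ι] [Field M] (z : ι → M) (hz : ∀ i, z i = 0) {j : ℕ}
    (hj : j < Fintype.card ι) : (∏ i, (X - C (z i))).coeff j = 0 := by
  simp only [hz, C_0, sub_zero, Finset.prod_const, Finset.card_univ, coeff_X_pow]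
  rw [if_neg (by omega)]

theorem natDegree_charpoly {b : L} {Q : F[X]}
    (hQ : Q.map (algebraMap F L) = ∏ g : L ≃ₐ[F] L, (X - C (g b))) :
    Q.natDegree = Fintype.card (L ≃ₐ[F] L) := by
  rw [← natDegree_map (algebraMap F L), hQ, natDegree_prod_of_monic _ _ fun g _ => monic_X_sub_C _]
  simp

end CharPoly

end Fermat.Agent.OrdP
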