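import Fermat.Agent.OrdP.Near
import Fermat.Agent.MazurQ.Kum
import Mathlib.FieldTheory.Galois.Basic
import Mathlib.FieldTheory.IsAlgClosed.AlgebraicClosure
import Mathlib.LinearAlgebra.LinearIndependent.Defs
import Mathlib.NumberTheory.LegendreSymbol.AddCharacter

/-!
# The Kummer extension of a function field attached to a finite group of torsion classes
-/

set_option autoImplicit false
set_option linter.unusedSectionVars false
set_option linter.style.haveILetI false
set_option linter.unusedVariables false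

noncomputable section

open AlgebraicCurve

namespace Fermat.Agent.OrdP

open Fermat.Agent.FF Fermat.Agent.Red Fermat.Agent.QComp Fermat.Agent.MazurQ Polynomial

variable {K : Type*} [Field K] [IsAlgClosed K] [CharZero K]
  {F : Type*} [Field F] [Algebra K F] [IsFnField K F] {n : ℕ}

/-- two elements with the same `n`-th power differ by a root of unity -/
theorem exists_root_of_pow_eq {L : Type*} [Field L] [Algebra K L] (hn : 0 < n) {a b : L}
    (hb : b ≠ 0) (h : a ^ n = b ^ n) : ∃ ζ : K, ζ ^ n = 1 ∧ a = algebraMap K L ζ * b := by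
  haveI : NeZero (n : K) := ⟨by exact_mod_cast hn.ne'⟩
  obtain ⟨ξ, hξ⟩ := HasEnoughRootsOfUnity.exists_primitiveRoot K n
  have h1 := congrArg (fun p => aeval (a / b) p) (X_pow_sub_one_eq_prod hn hξ)
  simp only [map_sub, map_pow, aeval_X, map_one, map_prod, aeval_C] at h1
  rw [div_pow, h, div_self (pow_ne_zero _ hb), sub_self] at h1
  obtain ⟨ζ, hζ, h2⟩ := Finset.prod_eq_zero_iff.1 h1.symm
  rw [mem_nthRootsFinset hn] at hζ
  refine ⟨ζ, hζ, ?_⟩
  rw [← sub_eq_zero.1 h2, div_mul_cancel₀ _ hb]

/-- Kummer extension attached to a group of classes -/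
structure KumExt {L : Type*} [Field L] [Algebra K L] [Algebra F L] [IsScalarTower K F L] (n : ℕ)
    (E : AddSubgroup (Pic0 K F)) (y : E → F) (X : E → L) : Prop where
  cls : ∀ x : E, Cls n (x : Pic0 K F) (y x)
  pow : ∀ x, X x ^ n = algebraMap F L (y x)
  span : Submodule.span F (Set.range X) = ⊤
  gal : IsGalois F L

namespace KumExt

variable {L : Type*} [Field L] [Algebra K L] [Algebra F L] [IsScalarTower K F L]
  {E : AddSubgroup (Pic0 K F)} {y : E → F} {X : E → L}

theorem ne_zero (h : KumExt (L := L) n E y X) (hn : 0 < n) (x : E) : X x ≠ 0 := by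
  intro h0
  have h1 := h.pow x
  rw [h0, zero_pow hn.ne'] at h1
  exact (h.cls x).ne (by simpa using h1.symm)

/-- multiplication table, in any extension field -/
theorem mul_table (hn : 0 < n) (hy : ∀ x : E, Cls n (x : Pic0 K F) (y x))
    (hX : ∀ x, X x ^ n = algebraMap F L (y x)) (x x' : E) :
    ∃ c : F, c ≠ 0 ∧ X x * X x' = algebraMap F L c * X (x + x') := by
  have h1 := (hy x).mul (hy x')
  obtain ⟨e, he, h2⟩ := Cls.unique_fun hn.ne' (hy (x + x')) h1
  have hne : X (x + x') ≠ 0 := by
    intro h0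
    have h3 := hX (x + x')
    rw [h0, zero_pow hn.ne'] at h3
    exact (hy (x + x')).ne (by simpa using h3.symm)
  have he' : algebraMap F L e ≠ 0 := (_root_.map_ne_zero _).2 he
  obtain ⟨ζ, hζ, h4⟩ := exists_root_of_pow_eq (K := K) (L := L) (n := n) hn
    (a := X x * X x') (b := algebraMap F L e * X (x + x')) (mul_ne_zero he' hne) (by
      rw [mul_pow, mul_pow, hX, hX, hX, ← map_mul, h2, map_mul, map_pow]
      ring)
  have hζ0 : ζ ≠ 0 := by
    rintro rfl
    rw [zero_pow hn.ne'] at hζ
    exact zero_ne_one hζ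
  refine ⟨algebraMap K F ζ * e, mul_ne_zero ((_root_.map_ne_zero _).2 hζ0) he, ?_⟩
  rw [h4, map_mul, ← IsScalarTower.algebraMap_apply]
  ring

theorem zero_table (hn : 0 < n) (hy : ∀ x : E, Cls n (x : Pic0 K F) (y x))
    (hX : ∀ x, X x ^ n = algebraMap F L (y x)) :
    ∃ c : F, c ≠ 0 ∧ X 0 = algebraMap F L c := by
  obtain ⟨e, he, h2⟩ := Cls.exists_pow hn.ne' (hy 0)
  have he' : algebraMap F L e ≠ 0 := (_root_.map_ne_zero _).2 he
  obtain ⟨ζ, hζ, h4⟩ := exists_root_of_pow_eq (K := K) (L := L) (n := n) hn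
    (a := X 0) (b := algebraMap F L e) he' (by rw [hX, h2, map_pow])
  have hζ0 : ζ ≠ 0 := by
    rintro rfl
    rw [zero_pow hn.ne'] at hζ
    exact zero_ne_one hζ
  refine ⟨algebraMap K F ζ * e, mul_ne_zero ((_root_.map_ne_zero _).2 hζ0) he, ?_⟩
  rw [h4, map_mul, ← IsScalarTower.algebraMap_apply]

/-- uniqueness table: any root of a Kummer function of the class `x` -/
theorem root_table (hn : 0 < n) (hy : ∀ x : E, Cls n (x : Pic0 K F) (y x))
    (hX : ∀ x, X x ^ n = algebraMap F L (y x)) (x : E) {z : F} (hz : Cls n (x : Pic0 K F) z)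
    {Z : L} (hZ : Z ^ n = algebraMap F L z) :
    ∃ c : F, c ≠ 0 ∧ Z = algebraMap F L c * X x := by
  obtain ⟨e, he, h2⟩ := Cls.unique_fun hn.ne' (hy x) hz
  have hne : X x ≠ 0 := by
    intro h0
    have h3 := hX x
    rw [h0, zero_pow hn.ne'] at h3
    exact (hy x).ne (by simpa using h3.symm)
  have he' : algebraMap F L e ≠ 0 := (_root_.map_ne_zero _).2 he
  obtain ⟨ζ, hζ, h4⟩ := exists_root_of_pow_eq (K := K) (L := L) (n := n) hn
    (a := Z) (b := algebraMap F L e * X x) (mul_ne_zero he' hne) (by
      rw [hZ, mul_pow, hX, h2, map_mul, map_pow]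
      ring)
  have hζ0 : ζ ≠ 0 := by
    rintro rfl
    rw [zero_pow hn.ne'] at hζ
    exact zero_ne_one hζ
  refine ⟨algebraMap K F ζ * e, mul_ne_zero ((_root_.map_ne_zero _).2 hζ0) he, ?_⟩
  rw [h4, map_mul, ← IsScalarTower.algebraMap_apply]
  ring

end KumExt

section Exist

open IntermediateField

variable {M : Type*} [Field M] [Algebra K M] [Algebra F M] [IsScalarTower K F M]
  {E : AddSubgroup (Pic0 K F)} {y : E → F} {X : E → M}

/-- the span of the roots is a field -/
theorem adjoin_toSubmodule [Algebra.IsAlgebraic F M] (hn : 0 < n)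
    (hy : ∀ x : E, Cls n (x : Pic0 K F) (y x))
    (hX : ∀ x, X x ^ n = algebraMap F M (y x)) :
    Subalgebra.toSubmodule (adjoin F (Set.range X)).toSubalgebra =
      Submodule.span F (Set.range X) := by
  rw [adjoin_toSubalgebra_of_isAlgebraic fun a _ => Algebra.IsAlgebraic.isAlgebraic a]
  apply le_antisymm
  · -- the span is a subalgebra
    have h1 : (1 : M) ∈ Submodule.span F (Set.range X) := by
      obtain ⟨c, hc, h⟩ := KumExt.zero_table hn hy hX
      have h2 : (1 : M) = c⁻¹ • X 0 := by
        rw [h, Algebra.smul_def, ← map_mul, inv_mul_cancel₀ hc, map_one]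
      rw [h2]
      exact Submodule.smul_mem _ _ (Submodule.subset_span ⟨0, rfl⟩)
    have h2 : ∀ a b : M, a ∈ Submodule.span F (Set.range X) → b ∈ Submodule.span F (Set.range X) →
        a * b ∈ Submodule.span F (Set.range X) := by
      intro a b ha hb
      refine Submodule.span_induction₂ (p := fun a b _ _ => a * b ∈ Submodule.span F (Set.range X))
        ?_ ?_ ?_ ?_ ?_ ?_ ?_ ha hb
      · rintro _ _ ⟨x, rfl⟩ ⟨x', rfl⟩
        obtain ⟨c, hc, h⟩ := KumExt.mul_table hn hy hX x x'
        rw [h, ← Algebra.smul_def]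
        exact Submodule.smul_mem _ _ (Submodule.subset_span ⟨_, rfl⟩)
      · intro b _; rw [zero_mul]; exact Submodule.zero_mem _
      · intro b _; rw [mul_zero]; exact Submodule.zero_mem _
      · intro a b c _ _ _ h h'; rw [add_mul]; exact Submodule.add_mem _ h h'
      · intro a b c _ _ _ h h'; rw [mul_add]; exact Submodule.add_mem _ h h'
      · intro r a b _ _ h; rw [smul_mul_assoc]; exact Submodule.smul_mem _ _ h
      · intro r a b _ _ h; rw [mul_smul_comm]; exact Submodule.smul_mem _ _ h
    intro a ha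
    have h3 : Algebra.adjoin F (Set.range X) ≤
        (Submodule.span F (Set.range X)).toSubalgebra h1 h2 :=
      Algebra.adjoin_le Submodule.subset_span
    exact h3 ha
  · rw [Submodule.span_le]
    exact Algebra.subset_adjoin

/-- the field generated by the roots is Galois -/
theorem isGalois_adjoin [Algebra.IsAlgebraic F M] [IsAlgClosed M] (hn : 0 < n)
    (hy : ∀ x : E, Cls n (x : Pic0 K F) (y x))
    (hX : ∀ x, X x ^ n = algebraMap F M (y x)) : IsGalois F (adjoin F (Set.range X)) := by
  haveI : CharZero F := charZero_of_injective_algebraMap (algebraMap K F).injective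
  haveI : IsAlgClosure F M := ⟨inferInstance, inferInstance⟩
  haveI : Normal F M := IsAlgClosure.normal F M
  haveI : Normal F (adjoin F (Set.range X)) := by
    rw [IntermediateField.normal_iff_forall_map_le]
    intro σ
    rw [IntermediateField.adjoin_map, IntermediateField.adjoin_le_iff]
    rintro _ ⟨_, ⟨x, rfl⟩, rfl⟩
    have hne : X x ≠ 0 := by
      intro h0
      have h3 := hX x
      rw [h0, zero_pow hn.ne'] at h3
      exact (hy x).ne (by simpa using h3.symm)
    obtain ⟨ζ, hζ, h4⟩ := exists_root_of_pow_eq (K := K) (L := M) (n := n) hn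
      (a := σ (X x)) (b := X x) hne (by rw [← map_pow, hX, AlgHom.commutes])
    change σ (X x) ∈ adjoin F (Set.range X)
    rw [h4]
    refine mul_mem ?_ (subset_adjoin F _ ⟨x, rfl⟩)
    rw [IsScalarTower.algebraMap_apply K F M]
    exact (adjoin F (Set.range X)).algebraMap_mem _
  exact ⟨⟩

end Exist

/-- **The Kummer extension exists.** -/
theorem exists_kumExt (hn : 0 < n) (E : AddSubgroup (Pic0 K F)) (hE : ∀ x ∈ E, n • x = 0) :
    ∃ (y : E → F) (L : IntermediateField F (AlgebraicClosure F)) (X : E → L),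
      KumExt (L := L) n E y X := by
  have h1 : ∀ x : E, ∃ y : F, Cls n (x : Pic0 K F) y := fun x => exists_cls (hE x x.2)
  choose y hy using h1
  have h2 : ∀ x : E, ∃ X : AlgebraicClosure F, X ^ n = algebraMap F (AlgebraicClosure F) (y x) :=
    fun x => IsAlgClosed.exists_pow_nat_eq _ hn
  choose X hX using h2
  refine ⟨y, IntermediateField.adjoin F (Set.range X),
    fun x => ⟨X x, IntermediateField.subset_adjoin F _ ⟨x, rfl⟩⟩, hy, fun x => ?_, ?_, ?_⟩
  · apply Subtype.ext
    exact hX x
  · have h3 := adjoin_toSubmodule hn hy hX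
    rw [eq_top_iff]
    intro a _
    have h4 : (a : AlgebraicClosure F) ∈ Submodule.span F (Set.range X) := by
      rw [← h3]; exact a.2
    have h5 : Submodule.span F (Set.range X) = Submodule.map
        (IntermediateField.val (IntermediateField.adjoin F (Set.range X))).toLinearMap
        (Submodule.span F (Set.range fun x : E => (⟨X x,
          IntermediateField.subset_adjoin F _ ⟨x, rfl⟩⟩ :
            IntermediateField.adjoin F (Set.range X)))) := by
      rw [Submodule.map_span, ← Set.range_comp]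
      rfl
    rw [h5, Submodule.mem_map] at h4
    obtain ⟨b, hb, h6⟩ := h4
    have h7 : b = a := Subtype.ext h6
    rwa [← h7]
  · exact isGalois_adjoin hn hy hX

namespace KumExt

variable {L : Type*} [Field L] [Algebra K L] [Algebra F L] [IsScalarTower K F L]
  {E : AddSubgroup (Pic0 K F)} {y : E → F} {X : E → L}

/-- induction for the elements of `L` -/
theorem ind (h : KumExt (L := L) n E y X) {p : L → Prop} (h0 : p 0)
    (hadd : ∀ a b, p a → p b → p (a + b)) (hmul : ∀ (c : F) (x : E), p (algebraMap F L c * X x))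
    (a : L) : p a := by
  have ha : a ∈ Submodule.span F (Set.range X) := by rw [h.span]; trivial
  rw [Finsupp.mem_span_range_iff_exists_finsupp] at ha
  obtain ⟨c, hc⟩ := ha
  rw [← hc]
  classical
  refine Finset.sum_induction _ p hadd h0 fun x _ => ?_
  change p (c x • X x)
  rw [Algebra.smul_def]
  exact hmul _ _

theorem finiteDimensional [Finite E] (h : KumExt (L := L) n E y X) : FiniteDimensional F L :=
  ⟨⟨(Set.finite_range X).toFinset, by rw [Set.Finite.coe_toFinset]; exact h.span⟩⟩

theorem exists_chi (h : KumExt (L := L) n E y X) (hn : 0 < n) (x : E) (γ : L ≃ₐ[F] L) :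
    ∃ ζ : K, ζ ^ n = 1 ∧ γ (X x) = algebraMap K L ζ * X x :=
  exists_root_of_pow_eq (K := K) (n := n) hn (h.ne_zero hn x) (by
    rw [← map_pow, h.pow, AlgEquiv.commutes])

/-- the character of an element -/
def chi (h : KumExt (L := L) n E y X) (hn : 0 < n) (x : E) (γ : L ≃ₐ[F] L) : K :=
  (h.exists_chi hn x γ).choose

theorem chi_pow (h : KumExt (L := L) n E y X) (hn : 0 < n) (x : E) (γ : L ≃ₐ[F] L) :
    h.chi hn x γ ^ n = 1 := (h.exists_chi hn x γ).choose_spec.1

theorem apply_X (h : KumExt (L := L) n E y X) (hn : 0 < n) (x : E) (γ : L ≃ₐ[F] L) :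
    γ (X x) = algebraMap K L (h.chi hn x γ) * X x := (h.exists_chi hn x γ).choose_spec.2

theorem apply_K (γ : L ≃ₐ[F] L) (c : K) : γ (algebraMap K L c) = algebraMap K L c := by
  rw [IsScalarTower.algebraMap_apply K F L, AlgEquiv.commutes]

theorem chi_eq (h : KumExt (L := L) n E y X) (hn : 0 < n) {x : E} {γ : L ≃ₐ[F] L} {c : K}
    (hc : γ (X x) = algebraMap K L c * X x) : h.chi hn x γ = c := by
  rw [h.apply_X hn] at hc
  exact (algebraMap K L).injective (mul_right_cancel₀ (h.ne_zero hn x) hc)

theorem chi_mul (h : KumExt (L := L) n E y X) (hn : 0 < n) (x : E) (γ δ : L ≃ₐ[F] L) :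
    h.chi hn x (γ * δ) = h.chi hn x γ * h.chi hn x δ := by
  apply h.chi_eq
  rw [AlgEquiv.mul_apply, h.apply_X hn x δ, map_mul, apply_K, h.apply_X hn x γ, map_mul]
  ring

theorem chi_one (h : KumExt (L := L) n E y X) (hn : 0 < n) (x : E) :
    h.chi hn x 1 = 1 := by
  apply h.chi_eq
  rw [map_one, one_mul]; rfl

theorem chi_add (h : KumExt (L := L) n E y X) (hn : 0 < n) (x x' : E) (γ : L ≃ₐ[F] L) :
    h.chi hn (x + x') γ = h.chi hn x γ * h.chi hn x' γ := by
  obtain ⟨c, hc, h1⟩ := mul_table hn h.cls h.pow x x'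
  apply h.chi_eq
  have hc' : algebraMap F L c ≠ 0 := (_root_.map_ne_zero _).2 hc
  apply mul_left_cancel₀ hc'
  have h2 := congrArg γ h1
  rw [map_mul, map_mul, AlgEquiv.commutes, h.apply_X hn x γ, h.apply_X hn x' γ] at h2
  rw [← h2, map_mul]
  linear_combination (algebraMap K L (h.chi hn x γ) * algebraMap K L (h.chi hn x' γ)) * h1

theorem chi_zero (h : KumExt (L := L) n E y X) (hn : 0 < n) (γ : L ≃ₐ[F] L) :
    h.chi hn 0 γ = 1 := by
  have h1 := h.chi_add hn 0 0 γ
  have h2 : h.chi hn 0 γ ≠ 0 := by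
    intro h0
    have h3 := h.chi_pow hn 0 γ
    rw [h0, zero_pow hn.ne'] at h3
    exact zero_ne_one h3
  rw [add_zero] at h1
  exact mul_left_cancel₀ h2 (by rw [mul_one]; exact h1.symm)

/-- the Galois group is commutative -/
theorem comm (h : KumExt (L := L) n E y X) (hn : 0 < n) (γ δ : L ≃ₐ[F] L) : γ * δ = δ * γ := by
  apply AlgEquiv.ext
  intro a
  refine h.ind (p := fun a => (γ * δ) a = (δ * γ) a) (by simp) (fun a b ha hb => ?_)
    (fun c x => ?_) a
  · rw [map_add, map_add, ha, hb]
  · rw [map_mul, map_mul, AlgEquiv.commutes, AlgEquiv.commutes, h.apply_X hn, h.apply_X hn,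
      h.chi_mul, h.chi_mul, mul_comm (h.chi hn x γ)]

/-- an element of the Galois group with trivial characters is trivial -/
theorem eq_one_of_chi (h : KumExt (L := L) n E y X) (hn : 0 < n) {γ : L ≃ₐ[F] L}
    (hγ : ∀ x, h.chi hn x γ = 1) : γ = 1 := by
  apply AlgEquiv.ext
  intro a
  refine h.ind (p := fun a => γ a = (1 : L ≃ₐ[F] L) a) (by simp) (fun a b ha hb => ?_)
    (fun c x => ?_) a
  · rw [map_add, map_add, ha, hb]
  · rw [map_mul, AlgEquiv.commutes, h.apply_X hn, hγ, map_one, one_mul]; rfl

/-- elements fixed by the Galois group -/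
theorem mem_F (h : KumExt (L := L) n E y X) [Finite E] {a : L} (ha : ∀ γ : L ≃ₐ[F] L, γ a = a) :
    ∃ c : F, a = algebraMap F L c := by
  haveI := h.gal
  haveI := h.finiteDimensional
  obtain ⟨c, hc⟩ := IntermediateField.mem_bot.1 ((IsGalois.mem_bot_iff_fixed a).2 ha)
  exact ⟨c, hc.symm⟩

/-- distinct classes have distinct characters -/
theorem chi_injective (h : KumExt (L := L) n E y X) [Finite E] (hn : 0 < n) {x x' : E}
    (hx : ∀ γ, h.chi hn x γ = h.chi hn x' γ) : x = x' := by
  have hne := h.ne_zero hn x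
  have hne' := h.ne_zero hn x'
  obtain ⟨c, hc⟩ := h.mem_F (a := X x / X x') (fun γ => by
    have h2 : algebraMap K L (h.chi hn x' γ) ≠ 0 := by
      intro h0
      have h3 := h.chi_pow hn x' γ
      rw [(map_eq_zero _).1 h0, zero_pow hn.ne'] at h3
      exact zero_ne_one h3
    rw [map_div₀, h.apply_X hn, h.apply_X hn, hx, mul_div_mul_left _ _ h2])
  have h1 : y x / y x' = c ^ n := by
    apply (algebraMap F L).injective
    rw [map_div₀, ← h.pow, ← h.pow, ← div_pow, hc, map_pow]
  have h2 := (h.cls x).div (h.cls x')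
  rw [h1] at h2
  have h3 := h2.eq_zero hn.ne'
  exact Subtype.ext (sub_eq_zero.1 h3)

/-- the roots form a basis -/
theorem linearIndependent (h : KumExt (L := L) n E y X) [Finite E] (hn : 0 < n) :
    LinearIndependent F X := by
  let ψ : E → ((L ≃ₐ[F] L) →* L) := fun x =>
    { toFun := fun γ => algebraMap K L (h.chi hn x γ)
      map_one' := by rw [h.chi_one, map_one]
      map_mul' := fun γ δ => by rw [h.chi_mul, map_mul] }
  have hψ : Function.Injective ψ := by
    intro x x' hx
    refine h.chi_injective hn fun γ => ?_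
    have h1 := DFunLike.congr_fun hx γ
    exact (algebraMap K L).injective h1
  have h1 : LinearIndependent L (fun x : E => (ψ x : (L ≃ₐ[F] L) → L)) :=
    (linearIndependent_monoidHom (L ≃ₐ[F] L) L).comp ψ hψ
  rw [linearIndependent_iff'] at h1 ⊢
  intro s c hc x hx
  have h2 := h1 s (fun x => algebraMap F L (c x) * X x) (by
    funext γ
    rw [Finset.sum_apply, Pi.zero_apply]
    have h3 := congrArg γ hc
    rw [map_sum, map_zero] at h3
    rw [← h3]
    refine Finset.sum_congr rfl fun x _ => ?_
    rw [Algebra.smul_def (c x), map_mul, AlgEquiv.commutes, h.apply_X hn, Pi.smul_apply,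
      smul_eq_mul]
    change _ * algebraMap K L (h.chi hn x γ) = _
    ring) x hx
  have h4 := (mul_eq_zero.1 h2).resolve_right (h.ne_zero hn x)
  exact (map_eq_zero _).1 h4

theorem card_eq (h : KumExt (L := L) n E y X) [Fintype E] (hn : 0 < n) :
    Fintype.card E = Module.finrank F L := by
  have hb := Module.finrank_eq_card_basis (Module.Basis.mk (h.linearIndependent hn) h.span.ge)
  exact hb.symm

/-- orthogonality -/
theorem sum_chi (h : KumExt (L := L) n E y X) [Fintype E] (hn : 0 < n) {γ : L ≃ₐ[F] L}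
    (hγ : γ ≠ 1) : ∑ x : E, h.chi hn x γ = 0 := by
  let f : Multiplicative E →* K :=
    { toFun := fun x => h.chi hn (Multiplicative.toAdd x) γ
      map_one' := h.chi_zero hn γ
      map_mul' := fun x x' => h.chi_add hn _ _ γ }
  have hf : f ≠ 1 := by
    intro hf
    exact hγ (h.eq_one_of_chi hn fun x => DFunLike.congr_fun hf (Multiplicative.ofAdd x))
  have h1 := sum_hom_units_eq_zero f hf
  rw [← Equiv.sum_comp Multiplicative.ofAdd] at h1
  exact h1

end KumExt

end Fermat.Agent.OrdP
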