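import Fermat.Agent.OrdP.Split
import Mathlib.RingTheory.Norm.Basic

/-!
# Matching the components of `L` at a node
-/

set_option autoImplicit false
set_option linter.unusedSectionVars false
set_option linter.style.haveILetI false

open AlgebraicCurve IntermediateField Module

namespace Fermat.Agent.OrdP

open Fermat.Agent.FF Fermat.Agent.Red Fermat.Agent.QComp Fermat.Agent.QVal

variable {K k : Type*} [Field K] [Field k] {A : ValuationSubring K} {π : A →+* k}
  {F L κ : Type*} [Field F] [Algebra K F] [Field κ] [Algebra k κ]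
  [Field L] [Algebra F L] [Algebra K L] [IsScalarTower K F L]

theorem isIntegral_descend {x f : F}
    (h : IsIntegral (Algebra.adjoin K {algebraMap F L x}) (algebraMap F L f)) :
    IsIntegral (Algebra.adjoin K {x}) f := by
  let ι : F →ₐ[K] L := IsScalarTower.toAlgHom K F L
  have e : (Algebra.adjoin K {x}).map ι = Algebra.adjoin K {algebraMap F L x} := by
    rw [AlgHom.map_adjoin, Set.image_singleton]
    rfl
  let E : Algebra.adjoin K {x} ≃ₐ[K] Algebra.adjoin K {algebraMap F L x} :=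
    ((Algebra.adjoin K {x}).equivMapOfInjective ι ι.toRingHom.injective).trans
      (Subalgebra.equivOfEq _ _ e)
  have hE : ∀ a, ((E a : Algebra.adjoin K {algebraMap F L x}) : L) = algebraMap F L (a : F) :=
    fun a => rfl
  have h1 : IsIntegral (Algebra.adjoin K {x}) (algebraMap F L f) := by
    refine h.map_of_comp_eq (E.symm : _ →+* _) (RingHom.id L) ?_
    apply RingHom.ext
    intro a
    change algebraMap F L ((E.symm a : Algebra.adjoin K {x}) : F) = (a : L)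
    rw [← hE, AlgEquiv.apply_symm_apply]
  have h2 : algebraMap F L f = IsScalarTower.toAlgHom (Algebra.adjoin K {x}) F L f := rfl
  rw [h2, isIntegral_algHom_iff _ (RingHom.injective _)] at h1
  exact h1

namespace Split2

variable {R₁ R₂ : ConstRed A π F κ} {R₁s R₂s : ConstRed A π L κ} {e₁ e₂ : L} {x : F} {xb : κ}
  (H : Split2 R₁ R₂ R₁s R₂s e₁ e₂)

include H

theorem mem_O1 {f : F} (h : algebraMap F L f ∈ R₁s.O) : f ∈ R₁.O := by
  by_contra hf
  have h1 : f⁻¹ ∈ R₁.O := (R₁.O.mem_or_inv_mem f).resolve_left hf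
  obtain ⟨z, hz⟩ := R₁.exists_isRed_of_mem h1
  rcases eq_or_ne z 0 with rfl | h0
  · have h2 := H.ext1 _ _ hz
    have hf0 : f ≠ 0 := by rintro rfl; exact hf (zero_mem _)
    refine h2.inv_notMem (by simpa using hf0) ?_
    rwa [map_inv₀, inv_inv]
  · have := (hz.inv h0).mem
    rw [inv_inv] at this
    exact hf this

theorem mem_O2 {f : F} (h : algebraMap F L f ∈ R₂s.O) : f ∈ R₂.O := H.symm.mem_O1 h

variable [IsAlgClosed K] [CharZero K] [IsAlgClosed k] [IsFnField K F] [IsFnField K L]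
  [IsFnField k κ] {S : Type*} [Fintype S]

omit [IsAlgClosed k] [IsFnField k κ] H in
theorem regAlg_descend [FiniteDimensional K⟮algebraMap F L x⟯ L] {f : F}
    (h : algebraMap F L f ∈ regAlg K (algebraMap F L x)) : f ∈ regAlg K x :=
  mem_regAlg_of_isIntegral (isIntegral_descend (isIntegral_of_mem_regAlg h))

omit H [IsAlgClosed K] [CharZero K] [IsAlgClosed k] [IsFnField K F] [IsFnField K L]
  [IsFnField k κ] in
/-- the components `1` and `c` match at the node `s` -/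
def _root_.Fermat.Agent.OrdP.IsMatch (R₁s R₂s : ConstRed A π L κ) (N : Nodes R₁ R₂ x xb xb S)
    (s : S) (c : L ≃ₐ[F] L) : Prop :=
  ∀ b ∈ Bring K (RS (F := F) R₁s R₂s) (algebraMap F L x), ∀ z₁ z₂ : regAlg k xb,
    R₁s.IsRed b z₁ → R₂s.IsRed (c b) z₂ → N.e₁ s z₁ = N.e₂ s z₂

theorem exists_match [FiniteDimensional F L] [IsGalois F L] (T : TwoRed R₁ R₂ x xb xb)
    (hπ : Function.Surjective π) (N : Nodes R₁ R₂ x xb xb S) (s : S) :
    ∃ c, IsMatch R₁s R₂s N s c := by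
  classical
  have T' := H.famRed T
  haveI := T'.fd
  let B := Bring K (RS (F := F) R₁s R₂s) (algebraMap F L x)
  let E1 : B →+* k := (N.e₁ s : regAlg k xb →+* k).comp (T'.rho (Sum.inl 1))
  let E2 : (L ≃ₐ[F] L) → (B →+* k) := fun δ =>
    (N.e₂ s : regAlg k xb →+* k).comp (T'.rho (Sum.inr δ))
  have hsub : ((RingHom.ker E1 : Ideal B) : Set B) ⊆
      ⋃ δ ∈ ((Finset.univ : Finset (L ≃ₐ[F] L)) : Set (L ≃ₐ[F] L)),
        ((RingHom.ker (E2 δ) : Ideal B) : Set B) := by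
    intro b hb
    have hb' : E1 b = 0 := hb
    have hn : algebraMap F L (Algebra.norm F (b : L)) = ∏ γ : L ≃ₐ[F] L, γ (b : L) :=
      Algebra.norm_eq_prod_automorphisms F (b : L)
    have hb1 : ∀ γ : L ≃ₐ[F] L, R₁s.IsRed (γ (b : L)) (T'.rho (Sum.inl γ) b : κ) := fun γ =>
      T'.isRed_rho (Sum.inl γ) b
    have hb2 : ∀ γ : L ≃ₐ[F] L, R₂s.IsRed (γ (b : L)) (T'.rho (Sum.inr γ) b : κ) := fun γ =>
      T'.isRed_rho (Sum.inr γ) b
    have h1 : R₁s.IsRed (algebraMap F L (Algebra.norm F (b : L)))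
        ((∏ γ : L ≃ₐ[F] L, T'.rho (Sum.inl γ) b : regAlg k xb) : κ) := by
      rw [hn]
      have := ConstRed.isRed_prod (R := R₁s) Finset.univ (fun γ _ => hb1 γ)
      push_cast
      exact this
    have h2 : R₂s.IsRed (algebraMap F L (Algebra.norm F (b : L)))
        ((∏ γ : L ≃ₐ[F] L, T'.rho (Sum.inr γ) b : regAlg k xb) : κ) := by
      rw [hn]
      have := ConstRed.isRed_prod (R := R₂s) Finset.univ (fun γ _ => hb2 γ)
      push_cast
      exact this
    have h1' : R₁.IsRed (Algebra.norm F (b : L))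
        ((∏ γ : L ≃ₐ[F] L, T'.rho (Sum.inl γ) b : regAlg k xb) : κ) := by
      obtain ⟨z, hz⟩ := R₁.exists_isRed_of_mem (H.mem_O1 h1.mem)
      rw [← (H.ext1 _ _ hz).unique h1]
      exact hz
    have h2' : R₂.IsRed (Algebra.norm F (b : L))
        ((∏ γ : L ≃ₐ[F] L, T'.rho (Sum.inr γ) b : regAlg k xb) : κ) := by
      obtain ⟨z, hz⟩ := R₂.exists_isRed_of_mem (H.mem_O2 h2.mem)
      rw [← (H.ext2 _ _ hz).unique h2]
      exact hz
    have hreg : Algebra.norm F (b : L) ∈ regAlg K x := by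
      apply regAlg_descend (L := L)
      rw [hn]
      refine prod_mem fun γ _ => ?_
      refine mem_regAlg_of_isIntegral ?_
      exact isIntegral_semi (τ := (γ : L →+* L)) (σ := RingHom.id K) (fun c => by
        change γ (algebraMap K L c) = algebraMap K L c
        rw [IsScalarTower.algebraMap_apply K F L, γ.commutes]) (γ.commutes x)
        (isIntegral_of_mem_regAlg b.2.1)
    have h3 := N.glue _ hreg _ _ h1' h2' s
    rw [map_prod, map_prod] at h3
    have h4 : ∏ γ : L ≃ₐ[F] L, N.e₁ s (T'.rho (Sum.inl γ) b) = 0 :=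
      Finset.prod_eq_zero (Finset.mem_univ 1) hb'
    rw [h4] at h3
    obtain ⟨δ, -, hδ⟩ := Finset.prod_eq_zero_iff.1 h3.symm
    exact Set.mem_biUnion (Finset.mem_coe.2 (Finset.mem_univ δ)) hδ
  obtain ⟨δ, -, hδ⟩ := (Ideal.subset_union_prime (s := Finset.univ)
    (f := fun δ => RingHom.ker (E2 δ)) 1 1 (fun δ _ _ _ => RingHom.ker_isPrime (E2 δ))).1 hsub
  refine ⟨δ, fun b hb z₁ z₂ h1 h2 => ?_⟩
  obtain ⟨a, ha⟩ := hπ (N.e₁ s z₁)
  have haB : algebraMap K L (a : K) ∈ Bring K (RS (F := F) R₁s R₂s) (algebraMap F L x) :=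
    ⟨(regAlg K _).algebraMap_mem _, fun j => ((RS R₁s R₂s j).isRed_coe a).mem⟩
  have hmem : (⟨b, hb⟩ - ⟨algebraMap K L (a : K), haB⟩ : B) ∈ RingHom.ker E1 := by
    rw [RingHom.mem_ker, map_sub, sub_eq_zero]
    have e1 : T'.rho (Sum.inl 1) ⟨b, hb⟩ = z₁ :=
      Subtype.ext ((T'.isRed_rho (Sum.inl 1) ⟨b, hb⟩).unique h1)
    have e2 : T'.rho (Sum.inl 1) ⟨algebraMap K L (a : K), haB⟩ = algebraMap k _ (π a) :=
      Subtype.ext ((T'.isRed_rho (Sum.inl 1) ⟨_, haB⟩).unique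
        ((RS R₁s R₂s (Sum.inl 1)).isRed_coe a))
    change N.e₁ s (T'.rho (Sum.inl 1) ⟨b, hb⟩) = N.e₁ s (T'.rho (Sum.inl 1) ⟨_, haB⟩)
    rw [e1, e2, AlgHom.commutes, ← ha]
    rfl
  have h3 := hδ hmem
  rw [RingHom.mem_ker, map_sub, sub_eq_zero] at h3
  have e1 : T'.rho (Sum.inr δ) ⟨b, hb⟩ = z₂ :=
    Subtype.ext ((T'.isRed_rho (Sum.inr δ) ⟨b, hb⟩).unique h2)
  have e2 : T'.rho (Sum.inr δ) ⟨algebraMap K L (a : K), haB⟩ = algebraMap k _ (π a) :=
    Subtype.ext ((T'.isRed_rho (Sum.inr δ) ⟨_, haB⟩).unique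
      ((RS R₁s R₂s (Sum.inr δ)).isRed_coe a))
  change N.e₂ s (T'.rho (Sum.inr δ) ⟨b, hb⟩) = N.e₂ s (T'.rho (Sum.inr δ) ⟨_, haB⟩) at h3
  rw [e1, e2, AlgHom.commutes] at h3
  rw [h3, ← ha]
  rfl

end Split2

end Fermat.Agent.OrdP
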