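import Fermat.Agent.OrdP.Ext
import Mathlib.RingTheory.RootsOfUnity.AlgebraicallyClosed
import Mathlib.RingTheory.Polynomial.Cyclotomic.Basic

/-!
# Functions which are arbitrarily close to `n`-th powers
-/

set_option autoImplicit false
set_option linter.unusedSectionVars false
set_option linter.style.haveILetI false
set_option linter.unusedVariables false

noncomputable section

namespace Fermat.Agent.OrdP

open Fermat.Agent.Red Fermat.Agent.QComp Polynomial

variable {K k : Type*} [Field K] [Field k] {A : ValuationSubring K} {π : A →+* k}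
  {F κ L : Type*} [Field F] [Algebra K F] [Field κ] [Algebra k κ] [Field L] [Algebra K L]
  [Algebra F L] [IsScalarTower K F L] {R : ConstRed A π F κ} {n : ℕ}

/-- `f` is arbitrarily close to `n`-th powers -/
def NearPow (R : ConstRed A π F κ) (n : ℕ) (f : F) : Prop :=
  ∀ ε : A, ε ≠ 0 → ∃ g r : F, g ≠ 0 ∧ r ∈ R.O ∧ f = g ^ n * (1 + algebraMap K F ε * r)

theorem mem_of_pow_mem {V : ValuationSubring L} (hn : 0 < n) {x : L} (h : x ^ n ∈ V) : x ∈ V := by
  rcases V.mem_or_inv_mem x with hx | hx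
  · exact hx
  · by_cases h0 : x = 0
    · rw [h0]; exact zero_mem _
    obtain ⟨m, rfl⟩ := Nat.exists_eq_succ_of_ne_zero hn.ne'
    have h1 := mul_mem h (pow_mem hx m)
    have h2 : x ^ (m + 1) * x⁻¹ ^ m = x := by
      rw [pow_succ, mul_right_comm, ← mul_pow, mul_inv_cancel₀ h0, one_pow, one_mul]
    rwa [h2] at h1

/-- elements `1 + ε r` are units -/
theorem one_add_mem (V : ValuationSubring L) {w : L} (hw : w ∈ V.nonunits) :
    (1 + w) ≠ 0 ∧ (1 + w) ∈ V ∧ (1 + w)⁻¹ ∈ V := by
  have h1 : (1 + w) ∉ V.nonunits := by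
    intro h
    have h4 := nonunits_add h (nonunits_neg hw)
    rw [add_neg_cancel_right, ValuationSubring.mem_nonunits_iff_or] at h4
    rcases h4 with h4 | h4
    · exact one_ne_zero h4
    · exact h4 (by rw [inv_one]; exact one_mem _)
  rw [ValuationSubring.mem_nonunits_iff_or, not_or, not_not] at h1
  exact ⟨h1.1, add_mem (one_mem _) (mem_of_nonunits hw), h1.2⟩

variable [IsAlgClosed K] [CharZero K]

/-- some root of unity is close -/
theorem exists_root_close {V : ValuationSubring L} (hn : 0 < n) {Y r : L} {e η : L}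
    (he : e ≠ 0) (hη : η⁻¹ ∉ V) (hη0 : η ≠ 0) (hr : r ∈ V) (hY : Y ^ n = 1 + e ^ n * η * r) :
    ∃ ζ : K, ζ ^ n = 1 ∧ ∃ v ∈ V, Y = algebraMap K L ζ + e * v := by
  haveI : NeZero (n : K) := ⟨by exact_mod_cast hn.ne'⟩
  obtain ⟨ξ, hξ⟩ := HasEnoughRootsOfUnity.exists_primitiveRoot K n
  have h1 := congrArg (fun p => aeval Y p) (X_pow_sub_one_eq_prod hn hξ)
  simp only [map_sub, map_pow, aeval_X, map_one, map_prod, aeval_C] at h1
  by_contra hcon
  push Not at hcon
  have h2 : ∀ ζ ∈ nthRootsFinset n (1 : K), Y - algebraMap K L ζ ≠ 0 ∧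
      e / (Y - algebraMap K L ζ) ∈ V := by
    intro ζ hζ
    rw [mem_nthRootsFinset hn] at hζ
    have h3 : Y - algebraMap K L ζ ≠ 0 := by
      intro h0
      exact hcon ζ hζ 0 (zero_mem _) (by rw [mul_zero, add_zero]; exact sub_eq_zero.1 h0)
    refine ⟨h3, ?_⟩
    have h4 : (Y - algebraMap K L ζ) / e ∉ V := fun h => by
      refine hcon ζ hζ _ h ?_
      field_simp
      ring
    have h5 := (V.mem_or_inv_mem ((Y - algebraMap K L ζ) / e)).resolve_left h4
    rwa [inv_div] at h5
  have h3 : ∏ ζ ∈ nthRootsFinset n (1 : K), (e / (Y - algebraMap K L ζ)) ∈ V :=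
    prod_mem fun ζ hζ => (h2 ζ hζ).2
  have hcard : (nthRootsFinset n (1 : K)).card = n := hξ.card_nthRootsFinset
  rw [Finset.prod_div_distrib, Finset.prod_const, hcard, ← h1, hY, add_sub_cancel_left] at h3
  have h4 : ∏ ζ ∈ nthRootsFinset n (1 : K), (Y - algebraMap K L ζ) ≠ 0 :=
    Finset.prod_ne_zero_iff.2 fun ζ hζ => (h2 ζ hζ).1
  rw [← h1, hY, add_sub_cancel_left] at h4
  have hr0 : r ≠ 0 := right_ne_zero_of_mul h4
  apply hη
  have h5 := mul_mem hr h3
  have h6 : r * (e ^ n / (e ^ n * η * r)) = η⁻¹ := by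
    field_simp
  rwa [h6] at h5

theorem cl_of_pow {V : ValuationSubring L} (hV : Above R V) (hA2 : ∃ c : A, ¬ IsUnit c ∧ c ≠ 0)
    (hn : 0 < n) {f : F} (hf : NearPow R n f) {X : L} (hX : X ^ n = algebraMap F L f) :
    Cl A F V X := by
  intro ε hε
  obtain ⟨c, hc, hcf⟩ := Above.exists_scale_mem R f
  obtain ⟨η, hη, hη0⟩ := hA2
  obtain ⟨g, r, hg, hr, hfg⟩ := hf ((ε * c) ^ n * η) (mul_ne_zero (pow_ne_zero _ (mul_ne_zero hε hc)) hη0)
  have hεK : (ε : K) ≠ 0 := fun h => hε (Subtype.ext h)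
  have hcK : (c : K) ≠ 0 := fun h => hc (Subtype.ext h)
  have hηK : (η : K) ≠ 0 := fun h => hη0 (Subtype.ext h)
  have hεL : algebraMap K L ε ≠ 0 := (_root_.map_ne_zero _).2 hεK
  have hcL : algebraMap K L c ≠ 0 := (_root_.map_ne_zero _).2 hcK
  have hηL : algebraMap K L η ≠ 0 := (_root_.map_ne_zero _).2 hηK
  have hgL : algebraMap F L g ≠ 0 := (_root_.map_ne_zero _).2 hg
  have hrV : algebraMap F L r ∈ V := (hV r).2 hr
  have hηV : (algebraMap K L η)⁻¹ ∉ V := by
    have h1 := hV.nonunit_alg hη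
    rw [ValuationSubring.mem_nonunits_iff_or] at h1
    exact h1.resolve_left hηL
  set w : L := (algebraMap K L ε * algebraMap K L c) ^ n * algebraMap K L η * algebraMap F L r
    with hw
  have hfgL : algebraMap F L f = algebraMap F L g ^ n * (1 + w) := by
    rw [hfg, map_mul, map_pow, map_add, map_one, map_mul, ← IsScalarTower.algebraMap_apply, hw]
    congr 3
    rw [← map_mul, ← map_pow, ← map_mul]
    rfl
  have hwV : w ∈ V.nonunits := by
    have h1 : w = (algebraMap K L ε * algebraMap K L c) ^ n * algebraMap F L r *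
      algebraMap K L η := by rw [hw]; ring
    rw [h1]
    exact nonunits_mul (mul_mem (pow_mem (mul_mem ((hV.alg _).2 ε.2) ((hV.alg _).2 c.2)) _) hrV)
      (hV.nonunit_alg hη)
  obtain ⟨hw0, hw1, hw2⟩ := one_add_mem V hwV
  -- `c g` is integral
  have hcg : algebraMap K L c * algebraMap F L g ∈ V := by
    apply mem_of_pow_mem hn
    obtain ⟨m, rfl⟩ : ∃ m, n = m + 1 := ⟨n - 1, by omega⟩
    have h1 : (algebraMap K L c * algebraMap F L g) ^ (m + 1) =
        algebraMap K L c ^ m * (algebraMap K L c * algebraMap F L f) * (1 + w)⁻¹ := by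
      rw [hfgL]
      field_simp
      ring
    rw [h1]
    have h2 : algebraMap K L c * algebraMap F L f = algebraMap F L (algebraMap K F c * f) := by
      rw [map_mul, ← IsScalarTower.algebraMap_apply]
    rw [h2]
    exact mul_mem (mul_mem (pow_mem ((hV.alg _).2 c.2) _) ((hV _).2 hcf)) hw2
  obtain ⟨ζ, hζ, v, hv, hY⟩ := exists_root_close (K := K) (V := V) hn
    (Y := X / algebraMap F L g) (r := algebraMap F L r)
    (e := algebraMap K L ε * algebraMap K L c) (η := algebraMap K L η)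
    (mul_ne_zero hεL hcL) hηV hηL hrV (by
      rw [div_pow, hX, hfgL, mul_div_cancel_left₀ _ (pow_ne_zero _ hgL), hw])
  refine ⟨algebraMap K F ζ * g, algebraMap K L c * algebraMap F L g * v, mul_mem hcg hv, ?_⟩
  rw [map_mul, ← IsScalarTower.algebraMap_apply]
  have h1 : X = algebraMap F L g * (X / algebraMap F L g) := by field_simp
  rw [h1, hY]
  ring

end Fermat.Agent.OrdP
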