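import Fermat.Agent.OrdP.IsR
import Fermat.Agent.QComp.NoethIC

/-!
# The reductions of a covering of a curve with two components
-/

set_option autoImplicit false
set_option linter.unusedSectionVars false
set_option linter.style.haveILetI false

open Polynomial IntermediateField AlgebraicCurve

namespace Fermat.Agent.OrdP

open QComp Red FF

section IC

theorem mem_IC_of_isIntegral {K E L : Type*} [Field K] [Field E] [Field L] [Algebra K E]
    [Algebra E L] {R : Type*} [CommRing R] [Algebra R K] {t : E} {a : L}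
    (ha : IsIntegral (IC K L R t) a) : a ∈ IC K L R t := by
  letI i2 := ((algebraMap E L).comp (ev K R t)).toAlgebra
  letI i3 := (icRingHom K L R t).toAlgebra
  haveI : IsScalarTower R[X] (IC K L R t) L := IsScalarTower.of_algebraMap_eq fun _ => rfl
  haveI : Algebra.IsIntegral R[X] (IC K L R t) := ⟨fun x => by
    have h1 : IsIntegral R[X] (algebraMap (IC K L R t) L x) := x.2
    exact (isIntegral_algebraMap_iff (B := L) Subtype.coe_injective).1 h1⟩
  exact isIntegral_trans (R := R[X]) (A := IC K L R t) a ha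

end IC

/-! ### Permutations -/

section Perm

theorem exists_perm_of_map_eq {G k : Type*} [Fintype G] [DecidableEq k] (u v : G → k)
    (h : (Finset.univ : Finset G).val.map u = (Finset.univ : Finset G).val.map v) :
    ∃ ψ : Equiv.Perm G, ∀ g, u g = v (ψ g) := by
  classical
  have hc : ∀ c : k, Fintype.card {g // u g = c} = Fintype.card {g // v g = c} := by
    intro c
    have h1 := congrArg (Multiset.count c) h
    rw [Multiset.count_map, Multiset.count_map] at h1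
    rw [Fintype.card_subtype, Fintype.card_subtype, Finset.card_def, Finset.card_def,
      Finset.filter_val, Finset.filter_val]
    simpa only [eq_comm] using h1
  let ψ : G ≃ G := (Equiv.sigmaFiberEquiv u).symm.trans
    ((Equiv.sigmaCongrRight fun c => Fintype.equivOfCardEq (hc c)).trans (Equiv.sigmaFiberEquiv v))
  refine ⟨ψ, fun g => ?_⟩
  exact ((Fintype.equivOfCardEq (hc (u g)) ⟨g, rfl⟩).2).symm

theorem exists_perm_of_prod_eq {G k : Type*} [Fintype G] [Field k] (u v : G → k)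
    (h : ∏ g, (X - C (u g)) = ∏ g, (X - C (v g))) :
    ∃ ψ : Equiv.Perm G, ∀ g, u g = v (ψ g) := by
  classical
  apply exists_perm_of_map_eq
  have h1 : ∀ w : G → k, (∏ g, (X - C (w g))).roots = (Finset.univ : Finset G).val.map w := by
    intro w
    have h2 : (∏ g, (X - C (w g))) = (((Finset.univ : Finset G).val.map w).map
        fun a => X - C a).prod := by
      rw [Multiset.map_map]
      rfl
    rw [h2, roots_multiset_prod_X_sub_C]
  rw [← h1, ← h1, h]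

/-- two families of functionals with the same values, up to order -/
theorem exists_perm {G k E : Type*} [Fintype G] [Field k] [Infinite k] [AddCommGroup E]
    [Module k E] (l m : G → E →ₗ[k] k)
    (h : ∀ e, ∏ g, (X - C (l g e)) = ∏ g, (X - C (m g e))) :
    ∃ ψ : Equiv.Perm G, ∀ g e, l g e = m (ψ g) e := by
  classical
  set s : Finset (Submodule k E) := (Finset.univ : Finset (Equiv.Perm G)).image fun ψ =>
    ⨅ g, LinearMap.ker (l g - m (ψ g)) with hs
  have h1 : (⋃ p ∈ s, (p : Set E)) = Set.univ := by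
    rw [Set.eq_univ_iff_forall]
    intro e
    rw [Set.mem_iUnion₂]
    obtain ⟨ψ, hψ⟩ := exists_perm_of_prod_eq _ _ (h e)
    refine ⟨⨅ g, LinearMap.ker (l g - m (ψ g)), Finset.mem_image_of_mem _ (Finset.mem_univ _), ?_⟩
    rw [SetLike.mem_coe, Submodule.mem_iInf]
    intro g
    rw [LinearMap.mem_ker, LinearMap.sub_apply, hψ g, sub_self]
  have h2 := Subspace.top_mem_of_biUnion_eq_univ h1
  rw [hs, Finset.mem_image] at h2
  obtain ⟨ψ, -, h3⟩ := h2
  refine ⟨ψ, fun g e => ?_⟩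
  have h4 : e ∈ ⨅ g, LinearMap.ker (l g - m (ψ g)) := by rw [h3]; trivial
  rw [Submodule.mem_iInf] at h4
  have h5 := h4 g
  rw [LinearMap.mem_ker, LinearMap.sub_apply, sub_eq_zero] at h5
  exact h5

end Perm

theorem root_mem_valuationSubring {M : Type*} [Field M] (V : ValuationSubring M) {Q : M[X]}
    (hQ : Q.Monic) (h : ∀ i, Q.coeff i ∈ V) {b : M} (hb : Q.eval b = 0) : b ∈ V := by
  have h1 : Q ∈ lifts (algebraMap V M) := by
    rw [lifts_iff_coeff_lifts]
    intro i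
    exact ⟨⟨_, h i⟩, rfl⟩
  obtain ⟨P, hP, -, hm⟩ := lifts_and_natDegree_eq_and_monic h1 hQ
  have h2 : IsIntegral V b := ⟨P, hm, by rw [← eval_map, hP, hb]⟩
  obtain ⟨y, hy⟩ := IsIntegrallyClosed.isIntegral_iff.1 h2
  rw [← hy]
  exact y.2

variable {K k : Type*} [Field K] [Field k] {A : ValuationSubring K} {π : A →+* k}
  {F κ₁ κ₂ L : Type*} [Field F] [Algebra K F] [Field κ₁] [Algebra k κ₁] [Field κ₂] [Algebra k κ₂]
  [Field L] [Algebra F L]

/-- two components which split completely in `L` -/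
structure Cov (R₁ : ConstRed A π F κ₁) (R₂ : ConstRed A π F κ₂) (V₁ V₂ : ValuationSubring L)
    (e : L) : Prop where
  s₁ : Split1 R₁ V₁ e
  s₂ : Split1 R₂ V₂ e

section Rd

variable (R₁ : ConstRed A π F κ₁) (R₂ : ConstRed A π F κ₂) (V₁ V₂ : ValuationSubring L)

/-- the family of all the reductions of an element of `L` -/
def Rd (b : L) (z : (L ≃ₐ[F] L) → κ₁ × κ₂) : Prop :=
  ∀ g, IsR R₁ V₁ (g b) (z g).1 ∧ IsR R₂ V₂ (g b) (z g).2

variable {R₁ R₂ V₁ V₂}

theorem Rd.add {b b' : L} {z z' : (L ≃ₐ[F] L) → κ₁ × κ₂} (h : Rd R₁ R₂ V₁ V₂ b z)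
    (h' : Rd R₁ R₂ V₁ V₂ b' z') : Rd R₁ R₂ V₁ V₂ (b + b') (z + z') := fun g => by
  rw [map_add]
  exact ⟨(h g).1.add (h' g).1, (h g).2.add (h' g).2⟩

theorem Rd.sub {b b' : L} {z z' : (L ≃ₐ[F] L) → κ₁ × κ₂} (h : Rd R₁ R₂ V₁ V₂ b z)
    (h' : Rd R₁ R₂ V₁ V₂ b' z') : Rd R₁ R₂ V₁ V₂ (b - b') (z - z') := fun g => by
  rw [map_sub]
  exact ⟨(h g).1.sub (h' g).1, (h g).2.sub (h' g).2⟩

variable (R₁ R₂ V₁ V₂) in
theorem rd_zero : Rd R₁ R₂ V₁ V₂ 0 0 := fun g => by
  rw [map_zero]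
  exact ⟨isR_zero _ _, isR_zero _ _⟩

theorem Rd.shift {b : L} {z : (L ≃ₐ[F] L) → κ₁ × κ₂} (h : Rd R₁ R₂ V₁ V₂ b z) (a : L ≃ₐ[F] L) :
    Rd R₁ R₂ V₁ V₂ (a b) (fun g => z (g * a)) := fun g => h (g * a)

theorem rd_sum {ι : Type*} (s : Finset ι) {y : ι → L} {z : ι → (L ≃ₐ[F] L) → κ₁ × κ₂}
    (h : ∀ i ∈ s, Rd R₁ R₂ V₁ V₂ (y i) (z i)) : Rd R₁ R₂ V₁ V₂ (∑ i ∈ s, y i) (∑ i ∈ s, z i) := by
  classical
  induction s using Finset.induction_on with
  | empty => simpa using rd_zero R₁ R₂ V₁ V₂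
  | insert i s his ih =>
    rw [Finset.sum_insert his, Finset.sum_insert his]
    exact (h i (Finset.mem_insert_self i s)).add
      (ih fun j hj => h j (Finset.mem_insert_of_mem hj))

theorem rd_algebraMap {f : F} {z : κ₁ × κ₂} (h1 : R₁.IsRed f z.1) (h2 : R₂.IsRed f z.2) :
    Rd R₁ R₂ V₁ V₂ (algebraMap F L f) (fun _ => z) := fun g => by
  rw [AlgEquiv.commutes]
  exact ⟨isR_of_isRed h1, isR_of_isRed h2⟩

variable {e : L} (C : Cov R₁ R₂ V₁ V₂ e)
include C

theorem Cov.mul {b b' : L} {z z' : (L ≃ₐ[F] L) → κ₁ × κ₂} (h : Rd R₁ R₂ V₁ V₂ b z)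
    (h' : Rd R₁ R₂ V₁ V₂ b' z') : Rd R₁ R₂ V₁ V₂ (b * b') (z * z') := fun g => by
  rw [map_mul]
  exact ⟨(h g).1.mul C.s₁.lo (h' g).1, (h g).2.mul C.s₂.lo (h' g).2⟩

theorem Cov.unique {b : L} {z z' : (L ≃ₐ[F] L) → κ₁ × κ₂} (h : Rd R₁ R₂ V₁ V₂ b z)
    (h' : Rd R₁ R₂ V₁ V₂ b z') : z = z' := funext fun g =>
  Prod.ext ((h g).1.unique C.s₁.lo (h' g).1) ((h g).2.unique C.s₂.lo (h' g).2)

theorem Cov.exists_rd [FiniteDimensional F L] [IsGalois F L] {b : L}
    (h : ∀ g : L ≃ₐ[F] L, g b ∈ V₁ ∧ g b ∈ V₂) : ∃ z, Rd R₁ R₂ V₁ V₂ b z := by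
  choose z₁ hz₁ using fun a : L ≃ₐ[F] L => C.s₁.exists_isR (b := a b) (fun g => (h (g * a)).1)
  choose z₂ hz₂ using fun a : L ≃ₐ[F] L => C.s₂.exists_isR (b := a b) (fun g => (h (g * a)).2)
  exact ⟨fun g => (z₁ g, z₂ g), fun g => ⟨hz₁ g, hz₂ g⟩⟩

theorem Cov.rd_e [DecidableEq (L ≃ₐ[F] L)] (a : L ≃ₐ[F] L) :
    Rd R₁ R₂ V₁ V₂ (a e) (fun g => if g * a = 1 then 1 else 0) := fun g => by
  change IsR R₁ V₁ ((g * a) e) (if g * a = 1 then (1 : κ₁ × κ₂) else 0).1 ∧
    IsR R₂ V₂ ((g * a) e) (if g * a = 1 then (1 : κ₁ × κ₂) else 0).2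
  split_ifs with h
  · rw [h]
    exact ⟨C.s₁.isR_e, C.s₂.isR_e⟩
  · exact ⟨C.s₁.isR_ge h, C.s₂.isR_ge h⟩

end Rd

/-! ### Regular functions -/

section Reg

variable (K) in
/-- functions on the covering which are regular at the points where `x` is regular -/
def IsRegL (x : F) (b : L) : Prop := IsIntegral (regAlg K x) b

theorem IsRegL.add {x : F} {b b' : L} (h : IsRegL K x b) (h' : IsRegL K x b') :
    IsRegL K x (b + b') := IsIntegral.add h h'

theorem IsRegL.mul {x : F} {b b' : L} (h : IsRegL K x b) (h' : IsRegL K x b') :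
    IsRegL K x (b * b') := IsIntegral.mul h h'

theorem isRegL_algebraMap {x f : F} (h : f ∈ regAlg K x) : IsRegL K x (algebraMap F L f) :=
  isIntegral_algebraMap (R := regAlg K x) (A := L) (x := ⟨f, h⟩)

theorem isRegL_zero (x : F) : IsRegL K x (0 : L) := isIntegral_zero

theorem IsRegL.gal {x : F} {b : L} (h : IsRegL K x b) (g : L ≃ₐ[F] L) : IsRegL K x (g b) :=
  IsIntegral.map (g.toAlgHom.restrictScalars (regAlg K x)) h

theorem mem_regAlg_of_isIntegral' {x f : F} (h : IsIntegral (regAlg K x) f) : f ∈ regAlg K x := by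
  intro P hP
  obtain ⟨Q, hQ, hf⟩ := h
  refine root_mem_valuationSubring P.toValuationSubring (Q := Q.map (algebraMap (regAlg K x) F))
    (hQ.map _) (fun i => ?_) (by rw [eval_map]; exact hf)
  rw [coeff_map]
  exact (Q.coeff i).2 P hP

theorem mem_regAlg_of_isRegL {x f : F} (h : IsRegL K x (algebraMap F L f)) : f ∈ regAlg K x := by
  apply mem_regAlg_of_isIntegral'
  exact (isIntegral_algebraMap_iff (B := L) (algebraMap F L).injective).1 h

theorem mem_regAlg_root {x : F} {Q : F[X]} (hQ : Q.Monic) (h : ∀ i, Q.coeff i ∈ regAlg K x)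
    {b : F} (hb : Q.eval b = 0) : b ∈ regAlg K x := fun P hP =>
  root_mem_valuationSubring P.toValuationSubring hQ (fun i => h i P hP) hb

variable [FiniteDimensional F L] [IsGalois F L]

theorem IsRegL.coeff_mem {x : F} {b : L} (h : IsRegL K x b) {Q : F[X]}
    (hQ : Q.map (algebraMap F L) = ∏ g : L ≃ₐ[F] L, (X - C (g b))) (i : ℕ) :
    Q.coeff i ∈ regAlg K x := by
  apply mem_regAlg_of_isRegL (L := L)
  have h1 : (∏ g : L ≃ₐ[F] L, (X - C (g b))) ∈
      lifts (algebraMap (integralClosure (regAlg K x) L) L) := by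
    refine Subsemiring.prod_mem (lifts (algebraMap (integralClosure (regAlg K x) L) L)) fun g _ => ?_
    rw [lifts_iff_coeff_lifts]
    intro j
    refine ⟨(X - C (⟨g b, h.gal g⟩ : integralClosure (regAlg K x) L)).coeff j, ?_⟩
    rw [← coeff_map, Polynomial.map_sub, map_X, map_C]
    rfl
  rw [lifts_iff_coeff_lifts] at h1
  obtain ⟨y, hy⟩ := h1 i
  rw [← hQ, coeff_map] at hy
  change IsIntegral (regAlg K x) (algebraMap F L (Q.coeff i))
  rw [← hy]
  exact y.2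

end Reg

section Chart

variable [IsAlgClosed K] [CharZero K] [IsAlgClosed k] [IsFnField K F] [IsFnField k κ₁]
  [IsFnField k κ₂] {R₁ : ConstRed A π F κ₁} {R₂ : ConstRed A π F κ₂} {V₁ V₂ : ValuationSubring L}
  {e : L} {x : F} {x₁ : κ₁} {x₂ : κ₂} [FiniteDimensional F L] [IsGalois F L]

/-- functions whose reductions all vanish are in the maximal ideals over the Gauss valuation -/
theorem Cov.nonunits_of_rd [Algebra K L] [IsScalarTower K F L] (C : Cov R₁ R₂ V₁ V₂ e)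
    (T : TwoRed R₁ R₂ x x₁ x₂) {b : L} (hb : Rd R₁ R₂ V₁ V₂ b 0) {V : ValuationSubring L}
    (hV : OverGauss K A (algebraMap F L x) V) : b ∈ V.nonunits := by
  classical
  obtain ⟨Q, hQ, hQ'⟩ := exists_charpoly (F := F) b
  refine nonunits_of_root (algebraMap F L) hQ (fun i hi => ?_) (charpoly_root hQ')
  rw [natDegree_charpoly hQ'] at hi
  have h1 := isRed_charpoly C.s₁.lo (z := fun _ => 0) (fun g => (hb g).1) hQ' i
  have h2 := isRed_charpoly C.s₂.lo (z := fun _ => 0) (fun g => (hb g).2) hQ' i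
  rw [coeff_prod_X _ (fun _ => rfl) hi] at h1
  rw [coeff_prod_X _ (fun _ => rfl) hi] at h2
  exact hV.nonunits_of_isRed T h1 h2

/-- integral regular functions are integral over the chart -/
theorem Cov.mem_IC [Algebra K L] [IsScalarTower K F L] {E : Type*} [Field E] [Algebra K E]
    [Algebra E L] [IsScalarTower K E L] (C : Cov R₁ R₂ V₁ V₂ e)
    (T : TwoRed R₁ R₂ x x₁ x₂) {b : L} {z : (L ≃ₐ[F] L) → κ₁ × κ₂} (hb : Rd R₁ R₂ V₁ V₂ b z)
    (hreg : IsRegL K x b) {t : E} (ht : algebraMap E L t = algebraMap F L x) :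
    b ∈ IC K L A t := by
  classical
  haveI := T.fd
  obtain ⟨Q, hQ, hQ'⟩ := exists_charpoly (F := F) b
  have hmem : ∀ i, algebraMap F L (Q.coeff i) ∈ IC K L A t := by
    intro i
    have h1 := isRed_charpoly C.s₁.lo (fun g => (hb g).1) hQ' i
    have h2 := isRed_charpoly C.s₂.lo (fun g => (hb g).2) hQ' i
    exact exists_monic_IC T h1.mem h2.mem (hreg.coeff_mem hQ' i) ht one_ne_zero (pow_one _)
  apply mem_IC_of_isIntegral
  have h1 : (Q.map (algebraMap F L)) ∈ lifts (algebraMap (IC K L A t) L) := by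
    rw [lifts_iff_coeff_lifts]
    intro i
    rw [coeff_map]
    exact ⟨⟨_, hmem i⟩, rfl⟩
  obtain ⟨P, hP, -, hm⟩ := lifts_and_natDegree_eq_and_monic h1 (hQ.map _)
  refine ⟨P, hm, ?_⟩
  rw [← eval_map, hP, eval_map]
  exact charpoly_root hQ'

theorem Cov.mem_regAlg1 (C : Cov R₁ R₂ V₁ V₂ e)
    (T : TwoRed R₁ R₂ x x₁ x₂) {b : L} {z : (L ≃ₐ[F] L) → κ₁ × κ₂} (hb : Rd R₁ R₂ V₁ V₂ b z)
    (hreg : IsRegL K x b) (g : L ≃ₐ[F] L) : (z g).1 ∈ regAlg k x₁ := by
  classical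
  obtain ⟨Q, hQ, hQ'⟩ := exists_charpoly (F := F) b
  have h1 := isRed_charpoly C.s₁.lo (fun g => (hb g).1) hQ'
  have h2 := isRed_charpoly C.s₂.lo (fun g => (hb g).2) hQ'
  refine mem_regAlg_root (Q := ∏ g : L ≃ₐ[F] L, (X - Polynomial.C (z g).1))
    (monic_prod_of_monic _ _ fun g _ => monic_X_sub_C _)
    (fun i => T.mem_regAlg1 (hreg.coeff_mem hQ' i) (h1 i) (h2 i).mem) ?_
  rw [eval_prod]
  exact Finset.prod_eq_zero (Finset.mem_univ g) (by rw [eval_sub, eval_X, eval_C, sub_self])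

theorem Cov.mem_regAlg2 (C : Cov R₁ R₂ V₁ V₂ e)
    (T : TwoRed R₁ R₂ x x₁ x₂) {b : L} {z : (L ≃ₐ[F] L) → κ₁ × κ₂} (hb : Rd R₁ R₂ V₁ V₂ b z)
    (hreg : IsRegL K x b) (g : L ≃ₐ[F] L) : (z g).2 ∈ regAlg k x₂ := by
  classical
  obtain ⟨Q, hQ, hQ'⟩ := exists_charpoly (F := F) b
  have h1 := isRed_charpoly C.s₁.lo (fun g => (hb g).1) hQ'
  have h2 := isRed_charpoly C.s₂.lo (fun g => (hb g).2) hQ'
  refine mem_regAlg_root (Q := ∏ g : L ≃ₐ[F] L, (X - Polynomial.C (z g).2))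
    (monic_prod_of_monic _ _ fun g _ => monic_X_sub_C _)
    (fun i => T.mem_regAlg2 (hreg.coeff_mem hQ' i) (h1 i).mem (h2 i)) ?_
  rw [eval_prod]
  exact Finset.prod_eq_zero (Finset.mem_univ g) (by rw [eval_sub, eval_X, eval_C, sub_self])

variable {S : Type*} [Fintype S]

/-- gluing of the characteristic polynomials -/
theorem Cov.glue (C : Cov R₁ R₂ V₁ V₂ e)
    (N : Nodes R₁ R₂ x x₁ x₂ S) {b : L}
    {z : (L ≃ₐ[F] L) → regAlg k x₁ × regAlg k x₂}
    (hb : Rd R₁ R₂ V₁ V₂ b (fun g => (((z g).1 : κ₁), ((z g).2 : κ₂))))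
    (hreg : IsRegL K x b) (s : S) :
    ∏ g, (X - Polynomial.C (N.e₁ s (z g).1)) = ∏ g, (X - Polynomial.C (N.e₂ s (z g).2)) := by
  classical
  obtain ⟨Q, hQ, hQ'⟩ := exists_charpoly (F := F) b
  have h1 := isRed_charpoly C.s₁.lo (fun g => (hb g).1) hQ'
  have h2 := isRed_charpoly C.s₂.lo (fun g => (hb g).2) hQ'
  have e1 : (∏ g : L ≃ₐ[F] L, (X - Polynomial.C (z g).1)).map (algebraMap (regAlg k x₁) κ₁) =
      ∏ g : L ≃ₐ[F] L, (X - Polynomial.C ((z g).1 : κ₁)) := by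
    rw [Polynomial.map_prod]
    refine Finset.prod_congr rfl fun g _ => ?_
    rw [Polynomial.map_sub, map_X, map_C]
    rfl
  have e2 : (∏ g : L ≃ₐ[F] L, (X - Polynomial.C (z g).2)).map (algebraMap (regAlg k x₂) κ₂) =
      ∏ g : L ≃ₐ[F] L, (X - Polynomial.C ((z g).2 : κ₂)) := by
    rw [Polynomial.map_prod]
    refine Finset.prod_congr rfl fun g _ => ?_
    rw [Polynomial.map_sub, map_X, map_C]
    rfl
  have f1 : (∏ g : L ≃ₐ[F] L, (X - Polynomial.C (z g).1)).map (N.e₁ s : regAlg k x₁ →+* k) =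
      ∏ g : L ≃ₐ[F] L, (X - Polynomial.C (N.e₁ s (z g).1)) := by
    rw [Polynomial.map_prod]
    refine Finset.prod_congr rfl fun g _ => ?_
    rw [Polynomial.map_sub, map_X, map_C]
    rfl
  have f2 : (∏ g : L ≃ₐ[F] L, (X - Polynomial.C (z g).2)).map (N.e₂ s : regAlg k x₂ →+* k) =
      ∏ g : L ≃ₐ[F] L, (X - Polynomial.C (N.e₂ s (z g).2)) := by
    rw [Polynomial.map_prod]
    refine Finset.prod_congr rfl fun g _ => ?_
    rw [Polynomial.map_sub, map_X, map_C]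
    rfl
  rw [← f1, ← f2]
  ext i
  rw [coeff_map, coeff_map]
  refine N.glue (Q.coeff i) (hreg.coeff_mem hQ' i) _ _ ?_ ?_ s
  · have h3 := h1 i
    rw [← e1, coeff_map] at h3
    exact h3
  · have h3 := h2 i
    rw [← e2, coeff_map] at h3
    exact h3

end Chart

end Fermat.Agent.OrdP
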