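import Fermat.Agent.OrdP.FamReg
import Fermat.Agent.QComp.TwoMain
import Fermat.Agent.QVal.Comap

/-!
# Galois extensions in which both components split completely
-/

set_option autoImplicit false
set_option linter.unusedSectionVars false
set_option linter.style.haveILetI false

open AlgebraicCurve IntermediateField Module

namespace Fermat.Agent.OrdP

open Fermat.Agent.FF Fermat.Agent.Red Fermat.Agent.QComp Fermat.Agent.QVal

variable {K k : Type*} [Field K] [Field k] {A : ValuationSubring K} {π : A →+* k}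
  {F L κ : Type*} [Field F] [Algebra K F] [Field κ] [Algebra k κ]
  [Field L] [Algebra F L] [Algebra K L] [IsScalarTower K F L]

/-- the reduction `f ↦ R (γ f)` -/
def pull (R : ConstRed A π L κ) (γ : L ≃ₐ[F] L) : ConstRed A π L κ :=
  comapRed R (γ.restrictScalars K)

theorem pull_isRed {R : ConstRed A π L κ} {γ : L ≃ₐ[F] L} {f : L} {z : κ} :
    (pull R γ).IsRed f z ↔ R.IsRed (γ f) z := Iff.rfl

theorem mem_pull {R : ConstRed A π L κ} {γ : L ≃ₐ[F] L} {f : L} :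
    f ∈ (pull R γ).O ↔ γ f ∈ R.O := Iff.rfl

/-- the components of `L` -/
def RS (R₁s R₂s : ConstRed A π L κ) : (L ≃ₐ[F] L) ⊕ (L ≃ₐ[F] L) → ConstRed A π L κ :=
  Sum.elim (pull R₁s) (pull R₂s)

/-- Both components split completely in `L`. -/
structure Split2 (R₁ R₂ : ConstRed A π F κ) (R₁s R₂s : ConstRed A π L κ) (e₁ e₂ : L) : Prop where
  ext1 : ∀ f b, R₁.IsRed f b → R₁s.IsRed (algebraMap F L f) b
  ext2 : ∀ f b, R₂.IsRed f b → R₂s.IsRed (algebraMap F L f) b
  e11 : R₁s.IsRed e₁ 1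
  e11c : ∀ γ : L ≃ₐ[F] L, γ ≠ 1 → R₁s.IsRed (γ e₁) 0
  e12 : ∀ γ : L ≃ₐ[F] L, R₂s.IsRed (γ e₁) 0
  e22 : R₂s.IsRed e₂ 1
  e22c : ∀ γ : L ≃ₐ[F] L, γ ≠ 1 → R₂s.IsRed (γ e₂) 0
  e21 : ∀ γ : L ≃ₐ[F] L, R₁s.IsRed (γ e₂) 0

theorem finrank_adjoin_algebraMap (x : F) :
    finrank K⟮algebraMap F L x⟯ L = finrank K⟮x⟯ F * finrank F L := by
  have e : (K⟮x⟯).map (IsScalarTower.toAlgHom K F L) = K⟮algebraMap F L x⟯ := by
    rw [IntermediateField.adjoin_map, Set.image_singleton]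
    rfl
  rw [finrank_mul_finrank K⟮x⟯ F L]
  let i : K⟮x⟯ ≃+* K⟮algebraMap F L x⟯ :=
    ((K⟮x⟯).equivMap (IsScalarTower.toAlgHom K F L)).toRingEquiv.trans
      (IntermediateField.equivOfEq e).toRingEquiv
  exact (Algebra.finrank_eq_of_equiv_equiv i (RingEquiv.refl L) (by ext y; rfl)).symm

namespace Split2

variable {R₁ R₂ : ConstRed A π F κ} {R₁s R₂s : ConstRed A π L κ} {e₁ e₂ : L} {x : F} {xb : κ}
  (H : Split2 R₁ R₂ R₁s R₂s e₁ e₂)

include H

theorem symm : Split2 R₂ R₁ R₂s R₁s e₂ e₁ :=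
  ⟨H.ext2, H.ext1, H.e22, H.e22c, H.e21, H.e11, H.e11c, H.e12⟩

theorem red_inl {f : F} {b : κ} (h : R₁.IsRed f b) (γ : L ≃ₐ[F] L) :
    (RS R₁s R₂s (Sum.inl γ)).IsRed (algebraMap F L f) b := by
  change R₁s.IsRed (γ (algebraMap F L f)) b
  rw [γ.commutes]
  exact H.ext1 f b h

theorem red_inr {f : F} {b : κ} (h : R₂.IsRed f b) (γ : L ≃ₐ[F] L) :
    (RS R₁s R₂s (Sum.inr γ)).IsRed (algebraMap F L f) b := by
  change R₂s.IsRed (γ (algebraMap F L f)) b
  rw [γ.commutes]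
  exact H.ext2 f b h

theorem famRed [Fintype (L ≃ₐ[F] L)] [FiniteDimensional F L] [IsGalois F L]
    (T : TwoRed R₁ R₂ x xb xb) :
    FamRed ((L ≃ₐ[F] L) ⊕ (L ≃ₐ[F] L)) (RS R₁s R₂s) (algebraMap F L x) xb where
  red := by
    rintro (γ | γ)
    · exact H.red_inl T.r1 γ
    · exact H.red_inr T.r2 γ
  tr := T.t1
  fd := by
    haveI := T.fd
    refine FiniteDimensional.of_finrank_pos ?_
    rw [finrank_adjoin_algebraMap]
    exact Nat.mul_pos finrank_pos finrank_pos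
  fdb := T.fd1
  finrank_eq := by
    have h1 : Fintype.card (L ≃ₐ[F] L) = finrank F L := by
      rw [← Nat.card_eq_fintype_card, IsGalois.card_aut_eq_finrank]
    rw [finrank_adjoin_algebraMap, T.finrank_eq, Fintype.card_sum, h1]
    ring
  lift := by
    rintro (γ | γ) b
    · obtain ⟨f, hf1, hf2⟩ := T.lift1 b
      refine ⟨algebraMap F L f * γ⁻¹ e₁, ?_, ?_⟩
      · have h1 : (RS R₁s R₂s (Sum.inl γ)).IsRed (γ⁻¹ e₁) 1 := by
          change R₁s.IsRed (γ (γ⁻¹ e₁)) 1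
          rw [← AlgEquiv.mul_apply, mul_inv_cancel, AlgEquiv.one_apply]
          exact H.e11
        simpa using (H.red_inl hf1 γ).mul h1
      · rintro (δ | δ) hne
        · have h1 : (RS R₁s R₂s (Sum.inl δ)).IsRed (γ⁻¹ e₁) 0 := by
            change R₁s.IsRed (δ (γ⁻¹ e₁)) 0
            rw [← AlgEquiv.mul_apply]
            refine H.e11c _ fun h => hne ?_
            rw [mul_inv_eq_one.1 h]
          simpa using (H.red_inl hf1 δ).mul h1
        · have h1 : (RS R₁s R₂s (Sum.inr δ)).IsRed (γ⁻¹ e₁) 0 := by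
            change R₂s.IsRed (δ (γ⁻¹ e₁)) 0
            rw [← AlgEquiv.mul_apply]
            exact H.e12 _
          simpa using (H.red_inr hf2 δ).mul h1
    · obtain ⟨f, hf1, hf2⟩ := T.lift2 b
      refine ⟨algebraMap F L f * γ⁻¹ e₂, ?_, ?_⟩
      · have h1 : (RS R₁s R₂s (Sum.inr γ)).IsRed (γ⁻¹ e₂) 1 := by
          change R₂s.IsRed (γ (γ⁻¹ e₂)) 1
          rw [← AlgEquiv.mul_apply, mul_inv_cancel, AlgEquiv.one_apply]
          exact H.e22
        simpa using (H.red_inr hf2 γ).mul h1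
      · rintro (δ | δ) hne
        · have h1 : (RS R₁s R₂s (Sum.inl δ)).IsRed (γ⁻¹ e₂) 0 := by
            change R₁s.IsRed (δ (γ⁻¹ e₂)) 0
            rw [← AlgEquiv.mul_apply]
            exact H.e21 _
          simpa using (H.red_inl hf1 δ).mul h1
        · have h1 : (RS R₁s R₂s (Sum.inr δ)).IsRed (γ⁻¹ e₂) 0 := by
            change R₂s.IsRed (δ (γ⁻¹ e₂)) 0
            rw [← AlgEquiv.mul_apply]
            refine H.e22c _ fun h => hne ?_
            rw [mul_inv_eq_one.1 h]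
          simpa using (H.red_inr hf2 δ).mul h1

end Split2

end Fermat.Agent.OrdP
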