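import Fermat.Agent.OrdP.NearTr
import Fermat.Agent.TwoAdic.F1Rel

/-!
# The Steinberg condition at `q ∥ level`, `q = p`
-/

set_option autoImplicit false
set_option linter.unusedSectionVars false
set_option linter.style.haveILetI false

noncomputable section

open AlgebraicCurve ModularCurve IntermediateField Module IsLocalRing Polynomial

namespace Fermat.Agent.OrdP

open Fermat.Agent.FF Fermat.Agent.Red Fermat.Agent.QComp Fermat.Agent.QVal Fermat.Agent.JZ
  Fermat.Agent.ESh Fermat.Agent.MazurQ Fermat.Agent.TwoAdic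

local notation "Qb" => AlgebraicClosure ℚ
local notation "Γℚ" => (AlgebraicClosure ℚ ≃ₐ[ℚ] AlgebraicClosure ℚ)

/-! ### Linear algebra -/

section Alg

variable {R : Type*} [CommRing R] [IsDomain R]

theorem star_mat {N G H : Matrix (Fin 2) (Fin 2) R} {u v : R} (hu : u ^ 2 = 1) (hN : N ≠ 0)
    (h1 : N * (G - Matrix.scalar (Fin 2) u) = 0) (h2 : N * (H - Matrix.scalar (Fin 2) v) = 0) :
    (G - Matrix.scalar (Fin 2) (G.det * u)) * (H - Matrix.scalar (Fin 2) v) = 0 := by
  obtain ⟨i, j, hij⟩ : ∃ i j, N i j ≠ 0 := by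
    by_contra hcon
    push Not at hcon
    exact hN (Matrix.ext hcon)
  set B := H - Matrix.scalar (Fin 2) v with hB
  have g0 : N i 0 * G 0 0 + N i 1 * G 1 0 = u * N i 0 := by
    have := congrFun (congrFun h1 i) 0
    simp [Matrix.mul_apply, Fin.sum_univ_two, Matrix.sub_apply] at this
    linear_combination this
  have g1 : N i 0 * G 0 1 + N i 1 * G 1 1 = u * N i 1 := by
    have := congrFun (congrFun h1 i) 1
    simp [Matrix.mul_apply, Fin.sum_univ_two, Matrix.sub_apply] at this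
    linear_combination this
  have b : ∀ k, N i 0 * B 0 k + N i 1 * B 1 k = 0 := by
    intro k
    have := congrFun (congrFun h2 i) k
    simpa [Matrix.mul_apply, Fin.sum_univ_two] using this
  have hd : G.det = G 0 0 * G 1 1 - G 0 1 * G 1 0 := Matrix.det_fin_two G
  -- the vector `z = (- w₁, w₀)` is an eigenvector
  have z0 : -(G 0 0 * N i 1) + G 0 1 * N i 0 = -(G.det * u * N i 1) := by
    rw [hd]
    linear_combination (G 0 0 * u) * g1 - (G 0 1 * u) * g0 -
      (-(G 0 0) * N i 1 + G 0 1 * N i 0) * hu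
  have z1 : -(G 1 0 * N i 1) + G 1 1 * N i 0 = G.det * u * N i 0 := by
    rw [hd]
    linear_combination (G 1 0 * u) * g1 - (G 1 1 * u) * g0 -
      (-(G 1 0) * N i 1 + G 1 1 * N i 0) * hu
  have key : ∀ k, N i 0 * ((G 0 0 - G.det * u) * B 0 k + G 0 1 * B 1 k) = 0 ∧
      N i 1 * ((G 0 0 - G.det * u) * B 0 k + G 0 1 * B 1 k) = 0 ∧
      N i 0 * (G 1 0 * B 0 k + (G 1 1 - G.det * u) * B 1 k) = 0 ∧
      N i 1 * (G 1 0 * B 0 k + (G 1 1 - G.det * u) * B 1 k) = 0 := by
    intro k
    refine ⟨?_, ?_, ?_, ?_⟩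
    · linear_combination (G 0 0 - G.det * u) * b k + B 1 k * z0
    · linear_combination (G 0 1) * b k - B 0 k * z0
    · linear_combination (G 1 0) * b k + B 1 k * z1
    · linear_combination (G 1 1 - G.det * u) * b k - B 0 k * z1
  have hz : ∀ x : R, N i 0 * x = 0 → N i 1 * x = 0 → x = 0 := by
    intro x h0 h1
    fin_cases j
    · exact (mul_eq_zero.1 h0).resolve_left hij
    · exact (mul_eq_zero.1 h1).resolve_left hij
  ext a k
  obtain ⟨k1, k2, k3, k4⟩ := key k
  fin_cases a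
  · simpa [Matrix.mul_apply, Fin.sum_univ_two, Matrix.sub_apply] using hz _ k1 k2
  · simpa [Matrix.mul_apply, Fin.sum_univ_two, Matrix.sub_apply] using hz _ k3 k4

end Alg

/-! ### Toric classes in the new part -/

theorem lin_pow {G : Type*} [AddCommGroup G] (e : ℤ) (i : ℕ) (x y z : G) :
    z - e ^ (i + 1) • x = (z - e ^ i • y) + e ^ i • (y + -(e • x)) := by
  rw [pow_succ]
  module

theorem lin_tor {G : Type*} [AddCommGroup G] (c : ℤ) (x y z : G) :
    z - c • x = (z - c • y) + c • (y - x) := by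
  module

section J

variable {M q : ℕ} [NeZero M] [NeZero q] [hqf : Fact q.Prime] {A : ValuationSubring Qb}
  {hA : A.LiesOverPrime q} {hM : ¬ q ∣ M} {m : ℕ} {x : JZero (M * q)}

theorem toricAt_frob_add' (hA : A.LiesOverPrime q) (hM : ¬ q ∣ M) (hm : m ≠ 0)
    (hx : m • x = 0) (hα : trA M q x = 0) (hβ : trB M q x = 0) {φ : Γℚ}
    (hφ : A.IsFrobeniusAt φ q) : ToricAt hA hM m (φ • x + wSemi hM • x) := by
  have hπ := residue_eq_zero_iff' A
  have hsur : Function.Surjective (IsLocalRing.residue A) := IsLocalRing.residue_surjective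
  haveI : CharP (IsLocalRing.ResidueField A) q := charP_of_liesOverPrime hA hπ
  haveI : IsAlgClosed (IsLocalRing.ResidueField A) := isAlgClosed_of_surjective hsur
  haveI : PerfectRing (IsLocalRing.ResidueField A) q := PerfectField.toPerfectRing q
  haveI := isFnField_fullC (k := IsLocalRing.ResidueField A) M q hM
  exact isToric_frob_add hm hx hα hβ hφ

theorem toricAt_inert2 {k : ℕ} (hx : q ^ k • x = 0) (hα : trA M q x = 0) (hβ : trB M q x = 0)
    (h : ToricAt hA hM (q ^ k) x) {s : Γℚ} (hs : s ∈ A.inertiaSubgroupIn ℚ) {a : ℕ}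
    (ha : ∀ z : Qb, z ^ q ^ k = 1 → s z = z ^ a) : s • x = a • x := by
  have hπ := residue_eq_zero_iff' A
  have hsur : Function.Surjective (IsLocalRing.residue A) := IsLocalRing.residue_surjective
  haveI : CharP (IsLocalRing.ResidueField A) q := charP_of_liesOverPrime hA hπ
  haveI : IsAlgClosed (IsLocalRing.ResidueField A) := isAlgClosed_of_surjective hsur
  haveI : PerfectRing (IsLocalRing.ResidueField A) q := PerfectField.toPerfectRing q
  haveI := isFnField_fullC (k := IsLocalRing.ResidueField A) M q hM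
  exact inert2 (p := q) (m := k) hs ha (mem_toricGp.2 ⟨hx, hα, hβ, h⟩)

variable {e : ℤ}

/-- the new part, for the sign `e` -/
structure New (hM : ¬ q ∣ M) (e : ℤ) (m : ℕ) (x : JZero (M * q)) : Prop where
  tor : m • x = 0
  trA : trA M q x = 0
  trB : trB M q x = 0
  w : wSemi hM • x = -(e • x)

theorem New.gal (h : New hM e m x) (σ : Γℚ) : New hM e m (σ • x) :=
  ⟨by rw [nsmul_gal, h.tor, gal_smul_zero], by rw [trA_gal, h.trA, gal_smul_zero],
    by rw [trB_gal, h.trB, gal_smul_zero], w_smul h.w σ⟩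

theorem toricAt_zsmul {x : JZero (M * q)} (h : ToricAt hA hM m x) (n : ℤ) :
    ToricAt hA hM m (n • x) := by
  have h1 : ∀ n : ℕ, ToricAt hA hM m (n • x) := by
    intro n
    induction n with
    | zero => rw [zero_nsmul]; exact ToricAt.zero
    | succ n ih => rw [succ_nsmul]; exact ih.add h
  obtain ⟨n, rfl | rfl⟩ := n.eq_nat_or_neg
  · rw [natCast_zsmul]; exact h1 n
  · rw [neg_zsmul, natCast_zsmul]; exact (h1 n).neg

theorem New.toric_pow (hm : m ≠ 0) {φ : Γℚ} (hφ : A.IsFrobeniusAt φ q) (i : ℕ) :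
    ∀ {x : JZero (M * q)}, New hM e m x → ToricAt hA hM m (φ ^ i • x - e ^ i • x) := by
  induction i with
  | zero =>
    intro x _
    rw [pow_zero, pow_zero, one_smul, one_zsmul, sub_self]
    exact ToricAt.zero
  | succ i ih =>
    intro x h
    have h1 := ih (h.gal φ)
    have h2 := toricAt_frob_add' hA hM hm h.tor h.trA h.trB hφ
    rw [h.w] at h2
    have h3 := h1.add (toricAt_zsmul h2 (e ^ i))
    have e1 : φ ^ (i + 1) • x - e ^ (i + 1) • x = (φ ^ i • φ • x - e ^ i • φ • x) +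
        e ^ i • (φ • x + -(e • x)) := by
      have e2 : φ ^ (i + 1) • x = φ ^ i • φ • x := by
        rw [pow_succ φ]
        exact mul_smul (φ ^ i) φ x
      rw [e2]
      exact lin_pow e i x (φ • x) _
    rw [e1]
    exact h3

theorem New.toric (hm : m ≠ 0) {φ : Γℚ} (hφ : A.IsFrobeniusAt φ q) (i : ℕ)
    {x : JZero (M * q)} (h : New hM e m x) {t : Γℚ} (ht : t ∈ A.inertiaSubgroupIn ℚ) :
    ToricAt hA hM m (φ ^ i • t • x - e ^ i • x) := by
  have h1 := New.toric_pow (hA := hA) hm hφ i (h.gal t)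
  have h2 := toricAt_zsmul (toricAt_inertia_sub hA hM h.tor ht) (e ^ i)
  have h3 := h1.add h2
  rw [lin_tor (e ^ i) x (t • x)]
  exact h3

/-- the value of the unramified character -/
def unrZ (v : ℕ) (e : ℤ) (g : Γℚ) : ℤ := unr v e g

/-- every element of the decomposition group -/
theorem New.toric_decomp (he : e ^ 2 = 1) (hA : A.LiesOverPrime q) (hm : m ≠ 0)
    {x : JZero (M * q)} (h : New hM e m x) {σ : Γℚ} (hσ : σ ∈ A.decompositionSubgroup ℚ) :
    ToricAt hA hM m (σ • x - unrZ q e σ • x) := by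
  obtain ⟨E, hE, hfix⟩ := RepTwo.torsionLevel (M * q) m x h.tor
  obtain ⟨φ, hφ, hdec⟩ := exists_level_decomp hqf.out hA
  haveI := hE
  haveI : FiniteDimensional ℚ (IntermediateField.normalClosure ℚ E Qb) := inferInstance
  obtain ⟨i, g, hg, t, ht, rfl, hi⟩ := hdec (IntermediateField.normalClosure ℚ E Qb)
    inferInstance σ hσ
  have hu : unrZ q e (φ ^ i * g * t) = e ^ i := unr_eq_pow he hi
  rw [hu]
  -- `g` acts trivially on `t x`
  have h1 : (φ ^ i * g * t) • x = φ ^ i • t • x := by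
    have h2 : t⁻¹ * g * t ∈ (IntermediateField.normalClosure ℚ E Qb).fixingSubgroup := by
      have := (inferInstance :
        (IntermediateField.normalClosure ℚ E Qb).fixingSubgroup.Normal).conj_mem g hg t⁻¹
      rwa [inv_inv] at this
    have h3 : (t⁻¹ * g * t) • x = x := hfix _ fun y hy =>
      h2 ⟨y, IntermediateField.le_normalClosure E hy⟩
    have h4 : φ ^ i * g * t = φ ^ i * (t * (t⁻¹ * g * t)) := by group
    rw [h4]
    calc (φ ^ i * (t * (t⁻¹ * g * t))) • x = φ ^ i • (t * (t⁻¹ * g * t)) • x := mul_smul _ _ _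
      _ = φ ^ i • t • (t⁻¹ * g * t) • x := by rw [mul_smul t]
      _ = _ := by rw [h3]
  rw [h1]
  exact h.toric hm hφ i ht

end J

/-! ### The representation -/

theorem lin_zero {G : Type*} [AddCommGroup G] {n : ℕ} {u : ℤ} {x y : G} (hx : n • x = 0)
    (hy : n • y = 0) : n • (y - u • x) = 0 := by
  rw [nsmul_sub, hy, smul_comm, hx, smul_zero, sub_zero]

theorem lin_rel {G : Type*} [AddCommGroup G] {a u : ℤ} {x y z w : G}
    (h : z - u • y = a • (w - u • x)) :
    (1 : ℤ) • z + (-u : ℤ) • y + (-a : ℤ) • w + (a * u : ℤ) • x = 0 := by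
  rw [← sub_eq_zero] at h
  rw [← h]
  module

theorem alg_rel {R E : Type*} [CommRing R] [Ring E] [Algebra R E] {a u : ℤ} {s h w : E}
    (H : (1 : ℤ) • (s * h) + (-u : ℤ) • s + (-a : ℤ) • h + (a * u : ℤ) • (1 : E) = 0) :
    (s - algebraMap R E a) * (h - algebraMap R E u) = 0 := by
  rw [← H, Algebra.algebraMap_eq_smul_one, Algebra.algebraMap_eq_smul_one]
  simp only [sub_mul, mul_sub, smul_mul_assoc, mul_smul_comm, one_mul, mul_one, smul_smul]
  module

section Rep

variable {M q : ℕ} [NeZero M] [NeZero q] [hqf : Fact q.Prime] {hM : ¬ q ∣ M}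
  {A : ValuationSubring Qb} {R : Type} [CommRing R] [IsLocalRing R] {e : ℤ}

theorem rel_inertia {ρ : GaloisRepAdic R} (H : TransferJ hM q e ρ) (he : e ^ 2 = 1)
    (hA : A.LiesOverPrime q) {s : Γℚ} (hs : s ∈ A.inertiaSubgroupIn ℚ) {a : ℕ}
    (ha : ∀ (k : ℕ) (z : Qb), z ^ q ^ k = 1 → s z = z ^ a) {h : Γℚ}
    (hh : h ∈ A.decompositionSubgroup ℚ) :
    (ρ.ρ s - algebraMap R (Module.End R ρ.V) ((a : ℤ) : R)) *
      (ρ.ρ h - algebraMap R (Module.End R ρ.V) ((unrZ q e h : ℤ) : R)) = 0 := by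
  have h1 := H 4 ![1, -(unrZ q e h), -(a : ℤ), (a : ℤ) * unrZ q e h] ![s * h, s, h, 1] (by
    rintro x ⟨k, hx⟩ hα hβ hw
    have hm : q ^ k ≠ 0 := pow_ne_zero _ hqf.out.ne_zero
    have hN : New hM e (q ^ k) x := ⟨hx, hα, hβ, hw⟩
    have h2 := hN.toric_decomp he hA hm hh
    have e1 : q ^ k • (h • x - unrZ q e h • x) = 0 := lin_zero hx (hN.gal h).tor
    have h3 := toricAt_inert2 e1 (by rw [map_sub, map_zsmul, (hN.gal h).trA, hα]; simp)
      (by rw [map_sub, map_zsmul, (hN.gal h).trB, hβ]; simp) h2 hs (ha k)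
    have h4 : s • (h • x - unrZ q e h • x) = s • h • x - unrZ q e h • s • x := by
      rw [← gal_zsmul]
      exact smul_sub (A := Pic0 Qb (laurentBaseChange Qb (modularFunctionFieldFull (M * q)))) s _ _
    rw [h4, ← natCast_zsmul] at h3
    have h5 := lin_rel h3
    simpa [Fin.sum_univ_four, mul_smul] using h5)
  apply alg_rel (w := 0)
  simpa [Fin.sum_univ_four] using h1

/-- **the Steinberg condition at `q ∥ level`, `q = p`** -/
theorem starAtRep_self [IsDomain R] [CharZero R] [IsNoetherianRing R] {ρ : GaloisRepAdic R}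
    (hdet : ρ.DetIsCyclotomic q) (H : TransferJ hM q e ρ) (he : e ^ 2 = 1)
    (hI : ∀ A : ValuationSubring Qb, A.LiesOverPrime q → ∃ s ∈ A.inertiaSubgroupIn ℚ,
      ∀ (k : ℕ) (z : Qb), z ^ q ^ k = 1 → s z = z ^ (q + 1)) :
    StarAtRep ρ q (e : R) := by
  intro P hP g hg h hh
  obtain ⟨s, hs, ha⟩ := hI P hP
  have hu : ∀ g : Γℚ, unr q (e : R) g = ((unrZ q e g : ℤ) : R) := fun g =>
    unr_map (Int.castRingHom R) q e g
  have hds : LinearMap.det (ρ.ρ s) = ((q + 1 : ℕ) : R) :=
    ECRep.eq_of_forall_sub_mem hdet.1 fun n => hdet.2 n s (q + 1) fun μ hμ => ha n μ hμ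
  set b := adicBasis ρ with hb
  set Φ := LinearMap.toMatrixAlgEquiv b with hΦ
  have e3 : ∀ f : Module.End R ρ.V, (Φ f).det = LinearMap.det f := fun f =>
    LinearMap.det_toMatrix b f
  have e1 : ∀ a : R, Φ (algebraMap R (Module.End R ρ.V) a) = Matrix.scalar (Fin 2) a := by
    intro a
    rw [hΦ, AlgEquiv.commutes]
    rfl
  have hu2 : (((unrZ q e g : ℤ) : R)) ^ 2 = 1 := by
    have : (e : R) ^ 2 = 1 := by exact_mod_cast congrArg (Int.cast (R := R)) he
    rw [← hu]
    unfold unr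
    split_ifs
    · exact one_pow 2
    · exact this
  have hN : Φ (ρ.ρ s - algebraMap R (Module.End R ρ.V) (((q + 1 : ℕ) : ℤ) : R)) ≠ 0 := by
    intro h0
    rw [map_sub, e1, sub_eq_zero] at h0
    have h1 := e3 (ρ.ρ s)
    rw [h0, hds] at h1
    simp at h1
    have h2 : (((q + 1) * (q + 1) : ℕ) : R) = ((q + 1 : ℕ) : R) := by
      push_cast
      linear_combination h1
    have h3 := Nat.cast_injective h2
    have h4 : q = 0 := by nlinarith
    exact hqf.out.ne_zero h4
  have k1 := congrArg Φ (rel_inertia H he hP hs ha hg)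
  have k2 := congrArg Φ (rel_inertia H he hP hs ha hh)
  rw [map_mul, map_zero, map_sub Φ (ρ.ρ g), e1] at k1
  rw [map_mul, map_zero, map_sub Φ (ρ.ρ h), e1] at k2
  have k3 := star_mat hu2 hN k1 k2
  apply Φ.injective
  rw [map_mul, map_zero, map_sub, map_sub, e1, e1, hu, hu, ← e3]
  exact k3

end Rep

end Fermat.Agent.OrdP
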