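import Fermat.Agent.OrdP.InertAbs
import Fermat.Agent.MazurQ.Kum

/-!
# The group of toric classes killed by both traces
-/

set_option autoImplicit false
set_option linter.unusedSectionVars false
set_option linter.style.haveILetI false
set_option linter.unusedVariables false

noncomputable section

open AlgebraicCurve ModularCurve IntermediateField Module

namespace Fermat.Agent.OrdP

open Fermat.Agent.FF Fermat.Agent.Red Fermat.Agent.QVal Fermat.Agent.JZ Fermat.Agent.QComp
open Fermat.Agent.ESh Fermat.Agent.MazurQ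

local notation "Qb" => AlgebraicClosure ℚ
local notation "Γℚ" => (AlgebraicClosure ℚ ≃ₐ[ℚ] AlgebraicClosure ℚ)

section Push

variable {K F F₁ : Type*} [Field K] [Field F] [Field F₁] [Algebra K F] [Algebra K F₁]
  [IsAlgClosed K] [CharZero K] [IsFnField K F] [IsFnField K F₁]

/-- push-forward along an automorphism -/
theorem pushforwardAlong_aut (w : F ≃ₐ[K] F) (hw : (w : F →ₐ[K] F).toRingHom.IsIntegral)
    (D : Divisor K F) :
    Divisor.pushforwardAlong (w : F →ₐ[K] F) hw D = (SemilinearAut.ofAlgAut w)⁻¹ • D := by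
  induction D using Finsupp.induction_linear with
  | zero => simp
  | add D E hD hE => rw [map_add, hD, hE, smul_add]
  | single P n =>
    rw [Divisor.pushforwardAlong_single, SemilinearAut.smul_single]
    have h1 : P.restrictAlong (w : F →ₐ[K] F) hw = (SemilinearAut.ofAlgAut w)⁻¹ • P := by
      apply Place.ext
      ext f
      rw [mem_restrictAlong, mem_smul_toValuationSubring, inv_inv]
      rfl
    have h2 := deg_restrictAlong_mul_inertiaDegAlong (w : F →ₐ[K] F) hw P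
    rw [FF.deg_eq_one, FF.deg_eq_one, one_mul] at h2
    rw [h1, h2, Nat.cast_one, mul_one]

/-- push-forward along a composition with an automorphism -/
theorem pushPic0_aut [HasPrincipalDivisors K F] (α β : F₁ →ₐ[K] F)
    (hα : α.toRingHom.IsIntegral) (hβ : β.toRingHom.IsIntegral)
    (hfα : FiniteAlong K α) (hfβ : FiniteAlong K β) (hNα : NormFormulaAlong K α hfα)
    (hNβ : NormFormulaAlong K β hfβ) (w : F ≃ₐ[K] F) (hw : ∀ f, w (α f) = β f)
    (hw2 : ∀ f, w (w f) = f) (x : Pic0 K F) :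
    pushPic0 α hα hfα hNα (SemilinearAut.ofAlgAut w • x) = pushPic0 β hβ hfβ hNβ x := by
  have hwi : (w : F →ₐ[K] F).toRingHom.IsIntegral := by
    intro f
    refine ⟨Polynomial.X - Polynomial.C (w.symm f), Polynomial.monic_X_sub_C _, ?_⟩
    rw [Polynomial.eval₂_sub, Polynomial.eval₂_X, Polynomial.eval₂_C]
    change f - w (w.symm f) = 0
    rw [AlgEquiv.apply_symm_apply, sub_self]
  have hinv : (SemilinearAut.ofAlgAut w)⁻¹ = SemilinearAut.ofAlgAut w := by
    rw [← map_inv]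
    congr 1
    rw [inv_eq_iff_mul_eq_one]
    exact AlgEquiv.ext hw2
  obtain ⟨D, rfl⟩ := Pic0.mk_surjective x
  have hβ' : ((w : F →ₐ[K] F).comp α).toRingHom.IsIntegral := RingHom.IsIntegral.trans _ _ hα hwi
  have hcomp : (w : F →ₐ[K] F).comp α = β := AlgHom.ext hw
  subst hcomp
  rw [SemilinearAut.pic0_smul_mk]
  refine congrArg Pic0.mk (Subtype.ext ?_)
  rw [coe_degZeroPush, coe_degZeroPush, SemilinearAut.coe_degZeroSMulHom]
  rw [← pushforwardAlong_comp α hα (w : F →ₐ[K] F) hwi hβ (fun v => by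
    rw [FF.deg_eq_one]; exact one_ne_zero), pushforwardAlong_aut w hwi, hinv]

theorem pushPic0_smul {α : F₁ →ₐ[K] F} [HasPrincipalDivisors K F]
    {hα : α.toRingHom.IsIntegral} {hfα : FiniteAlong K α} {hNα : NormFormulaAlong K α hfα}
    {g : SemilinearAut K F₁} {g' : SemilinearAut K F}
    (h : SemilinearAut.IntertwinesAlong (α : F₁ →+* F) g g') (x : Pic0 K F) :
    pushPic0 α hα hfα hNα (g' • x) = g • pushPic0 α hα hfα hNα x := by
  obtain ⟨D, rfl⟩ := Pic0.mk_surjective x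
  rw [SemilinearAut.pic0_smul_mk]
  change Pic0.mk _ = g • Pic0.mk _
  rw [SemilinearAut.pic0_smul_mk]
  refine congrArg Pic0.mk (Subtype.ext ?_)
  rw [coe_degZeroPush, SemilinearAut.coe_degZeroSMulHom, SemilinearAut.coe_degZeroSMulHom,
    coe_degZeroPush, pushforwardAlong_smul h]

end Push

variable {k : Type*} [Field k] {A : ValuationSubring Qb} {π : A →+* k} {M q : ℕ} [NeZero M]
  [NeZero q] [hqf : Fact q.Prime]

theorem trA_w (hM : ¬ q ∣ M) (x : JZero (M * q)) : trA M q (wSemi hM • x) = trB M q x :=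
  pushPic0_aut _ _ _ _ _ _ _ _ (w1 hqf.out hM) (fun f => w1_al hqf.out hM f)
    (fun f => w1_w1 hqf.out hM f) x

theorem trB_w (hM : ¬ q ∣ M) (x : JZero (M * q)) : trB M q (wSemi hM • x) = trA M q x :=
  pushPic0_aut _ _ _ _ _ _ _ _ (w1 hqf.out hM) (fun f => w1_be hqf.out hM f)
    (fun f => w1_w1 hqf.out hM f) x

theorem trA_gal (σ : Γℚ) (x : JZero (M * q)) : trA M q (σ • x) = σ • trA M q x :=
  pushPic0_smul (JZ.intertwines_alpha M q σ) x

theorem trB_gal (σ : Γℚ) (x : JZero (M * q)) : trB M q (σ • x) = σ • trB M q x :=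
  pushPic0_smul (JZ.intertwines_beta M q σ) x

theorem gal_smul_zero (σ : Γℚ) : σ • (0 : JZero M) = 0 :=
  smul_zero (A := Pic0 Qb (laurentBaseChange Qb (modularFunctionFieldFull M))) σ

theorem nsmul_gal (σ : Γℚ) (n : ℕ) (x : JZero M) : n • σ • x = σ • n • x :=
  (smul_comm (M := ℕ) (N := Γℚ) (α := Pic0 Qb (laurentBaseChange Qb (modularFunctionFieldFull M)))
    n σ x)

theorem nsmul_wSemi (hM : ¬ q ∣ M) (n : ℕ) (x : JZero (M * q)) :
    n • wSemi hM • x = wSemi hM • n • x :=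
  (map_nsmul (DistribSMul.toAddMonoidHom (Pic0 Qb (FB (M * q))) (wSemi hM)) n x).symm

theorem wSemi_smul_zero (hM : ¬ q ∣ M) : wSemi hM • (0 : JZero (M * q)) = 0 :=
  smul_zero (A := Pic0 Qb (FB (M * q))) (wSemi hM)

section Group

variable (hA : A.LiesOverPrime q) (hπ : ∀ a : A, π a = 0 ↔ ¬ IsUnit a)
  (hs : Function.Surjective π) (hM : ¬ q ∣ M) (n : ℕ)

/-- the group of toric `n`-torsion classes killed by both traces -/
def toricGp : AddSubgroup (JZero (M * q)) where
  carrier := {x | n • x = 0 ∧ trA M q x = 0 ∧ trB M q x = 0 ∧ IsToric hA hπ hs hM n x}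
  zero_mem' := ⟨nsmul_zero _, map_zero _, map_zero _, IsToric.zero⟩
  add_mem' := fun {x y} hx hy => ⟨by rw [nsmul_add, hx.1, hy.1, add_zero],
    by rw [map_add, hx.2.1, hy.2.1, add_zero], by rw [map_add, hx.2.2.1, hy.2.2.1, add_zero],
    hx.2.2.2.add hy.2.2.2⟩
  neg_mem' := fun {x} hx => ⟨by rw [neg_nsmul, hx.1, neg_zero], by rw [map_neg, hx.2.1, neg_zero],
    by rw [map_neg, hx.2.2.1, neg_zero], hx.2.2.2.neg⟩

variable {hA hπ hs hM n}

theorem mem_toricGp {x : JZero (M * q)} : x ∈ toricGp hA hπ hs hM n ↔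
    n • x = 0 ∧ trA M q x = 0 ∧ trB M q x = 0 ∧ IsToric hA hπ hs hM n x := Iff.rfl

theorem toricGp_w {x : JZero (M * q)} (hx : x ∈ toricGp hA hπ hs hM n) :
    wSemi hM • x ∈ toricGp hA hπ hs hM n := by
  obtain ⟨h1, h2, h3, h4⟩ := hx
  exact ⟨by rw [nsmul_wSemi, h1, wSemi_smul_zero], by rw [trA_w, h3], by rw [trB_w, h2], h4.w⟩

theorem toricGp_inertia {x : JZero (M * q)} (hx : x ∈ toricGp hA hπ hs hM n) {s : Γℚ}
    (hs' : s ∈ A.inertiaSubgroupIn ℚ) : s • x ∈ toricGp hA hπ hs hM n := by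
  obtain ⟨h1, h2, h3, b₁, b₂, h4⟩ := hx
  exact ⟨by rw [nsmul_gal, h1, gal_smul_zero], by rw [trA_gal, h2, gal_smul_zero],
    by rw [trB_gal, h3, gal_smul_zero], b₁, b₂, h4.inertia hs'⟩

end Group

end Fermat.Agent.OrdP
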